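/-
S48lib / X1 / ES / Formal  (lead)

Formal end of the Eichler–Shimura argument with diamond operators.  `J` an abelian group with an action
of a group `G` (the Jacobian with its Galois action), `sp : J →+ Jk` a specialization map which is
injective on `t`-power torsion, `Fr, εk, δk` endomorphisms of `Jk` (Frobenius, reductions of diamond
operators), `T, ε, δ` endomorphisms of `J` (the Hecke operator `T_ℓ`, diamond operators):

* if `sp (σ • x) = sp x` for all `x` then `σ` fixes the `t`-power torsion (`smul_eq_of_sp_invariant`);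
* if `sp (σ • x) = Fr (sp x)`, `sp ∘ ε = εk ∘ sp`, `sp ∘ δ = δk ∘ sp`, `Fr` commutes with `εk`, `δk`
  and the Eichler–Shimura relation
  `Fr (sp (T w)) = Fr (Fr (εk (sp w))) + ℓ • δk (sp w)` holds, then
  `σ² ε x - T (σ x) + ℓ δ x = 0` on the `t`-power torsion (`frobenius_quadratic`).
  (`X_μ`-model: `ε = ⟨ℓ⟩⁻¹`, `δ = 1`; `X_1`-model: `ε = 1`, `δ = ⟨ℓ⟩`.)
No injectivity of `Fr` is needed.
-/
import Mathlib

set_option autoImplicit false

namespace Fermat.Agent.S48lib.X1.ES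

section Formal

variable {G : Type*} [Group G] {J Jk : Type*} [AddCommGroup J] [AddCommGroup Jk]
  [DistribMulAction G J]

/-- inertia acts trivially on the torsion on which the specialization is injective -/
theorem smul_eq_of_sp_invariant (t : ℕ) (sp : J →+ Jk)
    (hinj : ∀ x : J, (∃ n : ℕ, t ^ n • x = 0) → sp x = 0 → x = 0)
    (σ : G) (hσ : ∀ x : J, sp (σ • x) = sp x) (x : J) (hx : ∃ n : ℕ, t ^ n • x = 0) :
    σ • x = x := by
  obtain ⟨n, hn⟩ := hx
  have h1 : t ^ n • (σ • x - x) = 0 := by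
    rw [smul_sub, ← smul_comm σ (t ^ n) x, hn, smul_zero, sub_zero]
  have h2 : sp (σ • x - x) = 0 := by rw [map_sub, hσ, sub_self]
  exact sub_eq_zero.1 (hinj _ ⟨n, h1⟩ h2)

/-- **the quadratic relation with diamonds** on the torsion on which the specialization is
injective -/
theorem frobenius_quadratic (t ℓ : ℕ) (sp : J →+ Jk)
    (hinj : ∀ x : J, (∃ n : ℕ, t ^ n • x = 0) → sp x = 0 → x = 0)
    (T ε δ : J →+ J) (Fr εk δk : Jk →+ Jk)
    (hFε : ∀ y : Jk, Fr (εk y) = εk (Fr y))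
    (hFδ : ∀ y : Jk, Fr (δk y) = δk (Fr y))
    (hε : ∀ x : J, sp (ε x) = εk (sp x))
    (hδ : ∀ x : J, sp (δ x) = δk (sp x))
    (σ : G) (hσ : ∀ x : J, sp (σ • x) = Fr (sp x))
    (hES : ∀ w : J, Fr (sp (T w)) = Fr (Fr (εk (sp w))) + ℓ • δk (sp w))
    (x : J) (hx : ∃ n : ℕ, t ^ n • x = 0) :
    σ • σ • ε x - T (σ • x) + ℓ • δ x = 0 := by
  obtain ⟨n, hn⟩ := hx
  set u : J := σ • σ • ε x - T (σ • x) + ℓ • δ x with hu
  -- `u` is torsion
  have hσn : ∀ y : J, t ^ n • (σ • y) = σ • (t ^ n • y) := fun y => (smul_comm σ (t ^ n) y).symm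
  have hut : t ^ n • u = 0 := by
    rw [hu, smul_add, smul_sub, hσn, hσn, ← map_nsmul ε, hn, map_zero, smul_zero, smul_zero,
      ← map_nsmul T, hσn, hn, smul_zero, map_zero, sub_zero, zero_add, smul_comm, ← map_nsmul δ,
      hn, map_zero, smul_zero]
  have hσut : t ^ n • (σ • u) = 0 := by rw [hσn, hut, smul_zero]
  -- `sp (σ • u) = 0`
  have hsp : sp (σ • u) = 0 := by
    rw [hσ, hu, map_add, map_sub, map_nsmul, hσ, hσ, hε, hδ, map_add, map_sub, hES, hσ, map_nsmul,
      hFδ, hFε, hFε]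
    abel
  have h0 : σ • u = 0 := hinj _ ⟨n, hσut⟩ hsp
  exact (smul_eq_zero_iff_eq σ).1 h0

end Formal

end Fermat.Agent.S48lib.X1.ES
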