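/-
S48lib / X1 / ES / Kronecker  (lead)

The Kronecker condition `KroneckerAt` of `ES/Support` from the modular equation: if in `F'`
`Φ_p(φ y, ψ y) = 0 = Φ_p(ψ y, φ y)` (`y = j`, `φ y = j(q^p)`, `ψ y = j(q)`), `A` lies over `p` and
the base automorphism of `g` is the `p`-Frobenius, then for every place `W` of `F'`
`ȳ(r W|_ψ) = Fr ȳ(r W|_φ) ∨ Fr ȳ(r W|_ψ) = ȳ(r W|_φ)`.
Generic port of `S37lib/ES/SupportMod.jv_kronecker` + `ConjNorm/KroneckerPlace` (helper4, helper6).
-/
import Mathlib
import Fermat.Agent.S48lib.X1.ES.Support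

set_option autoImplicit false
set_option linter.unusedSectionVars false
set_option linter.style.haveILetI false

noncomputable section

namespace Fermat.Agent.S48lib.X1.ES

open AlgebraicCurve Fermat.Agent.S18lib Fermat.Agent.S28lib Fermat.Agent.S37lib
  Fermat.Agent.S37lib.ES Fermat.Agent.S37lib.ConjNorm Fermat.Agent.ProgramR

local notation "Qb" => AlgebraicClosure ℚ

variable {A : ValuationSubring Qb}
variable {F : Type*} [Field F] [Algebra Qb F]
variable {Fk : Type*} [Field Fk] [Algebra (IsLocalRing.ResidueField A) Fk]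
variable (D : RedDatum A F Fk)
variable [HasPrincipalDivisors Qb F] [HasPrincipalDivisors (IsLocalRing.ResidueField A) Fk]
variable {F' : Type*} [Field F'] [Algebra Qb F'] [HasPrincipalDivisors Qb F']
variable (φ ψ : F →ₐ[Qb] F') (hφ : φ.toRingHom.IsIntegral) (hψ : ψ.toRingHom.IsIntegral)
variable (g : SemilinearAut (IsLocalRing.ResidueField A) Fk)
variable {p : ℕ} [Fact p.Prime] [NeZero p]

local notation "k" => IsLocalRing.ResidueField A

/-- the coefficient homomorphism `ℤ̄ → Q̄ → F'` -/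
def iotaFld (F' : Type*) [Field F'] [Algebra Qb F'] : Zb →+* F' :=
  (algebraMap Qb F').comp (Gink.intToQbar : Zb →+* Qb)

/-- **Kronecker at the places of `F'`, after reduction.** -/
theorem kroneckerAt_of_modularEquation [CharP (kRes A) p]
    (hdeg1 : ∀ P : Place Qb F, P.deg = 1)
    (hdegpos : ∀ Q : Place k Fk, 0 < Q.deg)
    {y : F} (hyO : y ∈ D.O) (hncL : ∀ c : Qb, y ≠ algebraMap Qb F c)
    (hnc : ∀ c : k, D.redF y ≠ algebraMap k Fk c)
    (hdeg : Divisor.degree (polesOf (K := Qb) y) = Divisor.degree (polesOf (K := k) (D.redF y)))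
    (hg : ∀ c : k, SemilinearAut.baseAut g c = c ^ p)
    (h1 : biEval₂ (iotaFld F') (phiZ p) (φ y) (ψ y) = 0)
    (h2 : biEval₂ (iotaFld F') (phiZ p) (ψ y) (φ y) = 0) :
    KroneckerAt D φ ψ hφ hψ g y := by
  intro W
  set P := W.restrictAlong φ hφ with hP
  set P'' := W.restrictAlong ψ hψ with hP''
  -- `φ y` and `ψ y` have the same poles
  have hmem : φ y ∈ W.toValuationSubring ↔ ψ y ∈ W.toValuationSubring :=
    ⟨mem_of_biEval₂_eq_zero W _ (phiZ_monic p) h2, mem_of_biEval₂_eq_zero W _ (phiZ_monic p) h1⟩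
  have hneg : W.ord (φ y) < 0 ↔ W.ord (ψ y) < 0 := by
    rw [← not_le, ← not_le, ← FF.mem_iff_ord_nonneg, ← FF.mem_iff_ord_nonneg, hmem]
  have hfr : ∀ c : k, frV g (some c) = some (c ^ p) := fun c => by
    show Option.map _ (some c) = _
    rw [Option.map_some, hg]
  by_cases hpole : P.ord y < 0
  · have h3 : W.ord (φ y) < 0 := (ord_map_neg_iff φ hφ W _).mpr hpole
    have h4 : P''.ord y < 0 := (ord_map_neg_iff ψ hψ W _).mp (hneg.mp h3)
    left
    rw [valAt_r_of_ord_neg D hdegpos hnc hdeg hpole, valAt_r_of_ord_neg D hdegpos hnc hdeg h4]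
    rfl
  · push Not at hpole
    have hpole'' : 0 ≤ P''.ord y := by
      by_contra hn
      push Not at hn
      have h3 : W.ord (ψ y) < 0 := (ord_map_neg_iff ψ hψ W _).mpr hn
      exact absurd ((ord_map_neg_iff φ hφ W _).mp (hneg.mpr h3)) (not_lt.mpr hpole)
    obtain ⟨a, ha⟩ := B3.exists_value P (hdeg1 P) hpole
    obtain ⟨b, hb⟩ := B3.exists_value P'' (hdeg1 P'') hpole''
    have ha' : 0 < P.ord (y - algebraMap Qb F a) := ha.resolve_left (sub_ne_zero.mpr (hncL a))
    have hb' : 0 < P''.ord (y - algebraMap Qb F b) := hb.resolve_left (sub_ne_zero.mpr (hncL b))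
    have hWa : 0 < W.ord (φ y - algebraMap Qb F' a) := by
      have := (ord_map_pos_iff φ hφ W (y - algebraMap Qb F a)).mpr ha'
      rwa [map_sub, AlgHom.commutes] at this
    have hWb : 0 < W.ord (ψ y - algebraMap Qb F' b) := by
      have := (ord_map_pos_iff ψ hψ W (y - algebraMap Qb F b)).mpr hb'
      rwa [map_sub, AlgHom.commutes] at this
    have e1 : phiVal p a b = 0 :=
      biEval₂_eq_zero_of_place W _ (phiZ p) (Or.inr hWa) (Or.inr hWb) h1
    have e2 : phiVal p b a = 0 :=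
      biEval₂_eq_zero_of_place W _ (phiZ p) (Or.inr hWb) (Or.inr hWa) h2
    by_cases haA : a ∈ A
    · have hbA : b ∈ A := mem_of_phiVal_eq_zero A p e2 haA
      rw [valAt_r_of_mem D hdegpos hyO hnc hdeg ⟨a, haA⟩ ha',
        valAt_r_of_mem D hdegpos hyO hnc hdeg ⟨b, hbA⟩ hb']
      rcases kronecker_residue_or A (a := ⟨a, haA⟩) (b := ⟨b, hbA⟩) e1 with hr | hr
      · left
        rw [hfr, hr]
      · right
        rw [hfr, hr]
    · have hbA : b ∉ A := fun hb0 => haA (mem_of_phiVal_eq_zero A p e1 hb0)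
      left
      rw [valAt_r_of_not_mem D hdegpos hyO hnc hdeg haA ha',
        valAt_r_of_not_mem D hdegpos hyO hnc hdeg hbA hb']
      rfl

end Fermat.Agent.S48lib.X1.ES
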