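/-
S48lib / X1 / ES / NormCong  (lead)

**Reduction of the norm expansion, series level.**  `A` a valuation subring of `Q̄` over `p`,
`a, a'` `A`-integral Laurent series (`a'` = the expansion of `⟨p⟩^{±1} f`), `ν ∈ Q̄((q))` with

  `ν(u^p) = a(u^(p²)) · ∏_{i<p} a'(ζ^i u)`,        `ζ` a primitive `p`-th root of unity

(the analytic norm formula `N_α(β f) = f(pτ) ∏_j (⟨p⟩^{±1}f)((τ+j)/p)` in the variable `u = q^{1/p}`).
Then `ν` is `A`-integral, `ν = toL b`, and
  `toK b = (Fr⁻¹ ā)^p · Fr ā'`,   i.e.   `Fr (toK b) = ā^p · Fr (Fr ā')`,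
`Fr` the coefficientwise Frobenius of `k((q))`.  Port of `S37lib/ConjNorm/Reduce` (helper4), whose
case is `a' = a`; no function fields here.
-/
import Mathlib
import Fermat.Agent.S37lib.ConjNorm.Reduce

set_option autoImplicit false
set_option linter.unusedSectionVars false
set_option linter.style.haveILetI false

noncomputable section

namespace Fermat.Agent.S48lib.X1.ES

open AlgebraicCurve ModularCurve Fermat.Agent.S28lib Fermat.Agent.S18lib Polynomial
  Fermat.Agent.S37lib.ConjNorm

local notation "Qb" => AlgebraicClosure ℚ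

variable (A : ValuationSubring Qb) {p : ℕ} [Fact p.Prime] [NeZero p] [CharP (kRes A) p]

/-- **Reduction of the norm expansion.** -/
theorem exists_norm_reduction_series (hA : A.LiesOverPrime p) {ζ : Qbˣ}
    (hζ : IsPrimitiveRoot ζ p) (a a' : LaurentSeries A) (ν : LaurentSeries Qb)
    (hnorm : qExpand Qb p ν = qExpand Qb (p * p) (V.toL A a) *
      ∏ i ∈ Finset.range p, twist (ζ ^ i) (V.toL A a')) :
    ∃ b : LaurentSeries A, V.toL A b = ν ∧
      V.toK A b =
        (coeffMap ((frobeniusEquiv (kRes A) p).symm : kRes A →+* kRes A) (V.toK A a)) ^ p *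
          coeffMap (frobenius (kRes A) p) (V.toK A a') := by
  classical
  have hp : p.Prime := Fact.out
  obtain ⟨ζA, hζA⟩ := exists_unit_eq A hζ
  have hζApow : ζA ^ p = 1 := by
    apply Units.map_injective (f := (A.subtype : A →* Qb)) Subtype.val_injective
    rw [map_pow, hζA, map_one]
    exact hζ.pow_eq_one
  have hζk1 : Units.map (IsLocalRing.residue A : A →* kRes A) ζA = 1 :=
    eq_one_of_pow_eq_one A hA (by rw [← map_pow, hζApow, map_one])
  -- the integral series
  set b' : LaurentSeries A := qExpand A (p * p) a *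
    ∏ i ∈ Finset.range p, twist (ζA ^ i) a' with hb'
  have hLb' : V.toL A b' = qExpand Qb p ν := by
    rw [hnorm, hb', map_mul, map_prod]
    congr 1
    · exact coeffMap_qExpand _ _ _
    · refine Finset.prod_congr rfl (fun i _ => ?_)
      show coeffMap A.subtype (twist (ζA ^ i) a') = _
      rw [coeffMap_twist, map_pow, hζA]
      rfl
  have hrange : b' ∈ Set.range (qExpand A p) := by
    rw [mem_range_qExpand_iff]
    intro n hn
    have h1 : (V.toL A b').coeff n = 0 := by
      rw [hLb']; exact qExpand_coeff_of_not_dvd _ _ hn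
    rw [V.toL_coeff] at h1
    exact_mod_cast h1
  obtain ⟨b, hb⟩ := hrange
  have hLb : V.toL A b = ν := by
    apply qExpand_injective (R := Qb) p
    rw [← hLb', ← hb]
    exact (coeffMap_qExpand _ _ _).symm
  -- the reduction
  set abar : LaurentSeries (kRes A) := V.toK A a with habar
  set abar' : LaurentSeries (kRes A) := V.toK A a' with habar'
  have hKb' : V.toK A b' = qExpand (kRes A) (p * p) abar * abar' ^ p := by
    have hpow : abar' ^ p = ∏ _i ∈ Finset.range p, abar' := by
      rw [Finset.prod_const, Finset.card_range]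
    rw [hpow, hb', map_mul, map_prod]
    congr 1
    · exact coeffMap_qExpand _ _ _
    · refine Finset.prod_congr rfl (fun i _ => ?_)
      show coeffMap (IsLocalRing.residue A) (twist (ζA ^ i) a') = _
      rw [coeffMap_twist, map_pow, hζk1, one_pow, twist_one_unit]
      rfl
  have h1 : abar' ^ p = qExpand (kRes A) p (coeffMap (frobenius (kRes A) p) abar') :=
    pow_char_eq_qExpand p abar'
  have h2 : qExpand (kRes A) (p * p) abar =
      qExpand (kRes A) p
        ((coeffMap ((frobeniusEquiv (kRes A) p).symm : kRes A →+* kRes A) abar) ^ p) := by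
    rw [pow_char_eq_qExpand p, coeffMap_frobenius_symm, qExpand_qExpand]
  have hKb : V.toK A b =
      (coeffMap ((frobeniusEquiv (kRes A) p).symm : kRes A →+* kRes A) abar) ^ p *
        coeffMap (frobenius (kRes A) p) abar' := by
    apply qExpand_injective (R := kRes A) p
    rw [map_mul, ← h1, ← h2, ← hKb', ← hb]
    exact (coeffMap_qExpand _ _ _).symm
  exact ⟨b, hLb, hKb⟩

/-- the inverse-free form of the reduction -/
theorem exists_norm_reduction_series' (hA : A.LiesOverPrime p) {ζ : Qbˣ}
    (hζ : IsPrimitiveRoot ζ p) (a a' : LaurentSeries A) (ν : LaurentSeries Qb)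
    (hnorm : qExpand Qb p ν = qExpand Qb (p * p) (V.toL A a) *
      ∏ i ∈ Finset.range p, twist (ζ ^ i) (V.toL A a')) :
    ∃ b : LaurentSeries A, V.toL A b = ν ∧
      coeffMap (frobenius (kRes A) p) (V.toK A b) =
        (V.toK A a) ^ p *
          coeffMap (frobenius (kRes A) p) (coeffMap (frobenius (kRes A) p) (V.toK A a')) := by
  obtain ⟨b, hb1, hb2⟩ := exists_norm_reduction_series A hA hζ a a' ν hnorm
  refine ⟨b, hb1, ?_⟩
  rw [hb2, map_mul, map_pow, coeffMap_frobenius_symm]

end Fermat.Agent.S48lib.X1.ES
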