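/-
S48lib / X1 / ES / Spec  (lead)

The specialization map `sp : Pic⁰(F) →+ Pic⁰(Fk)` of an abstract reduction datum `D : RedDatum A F Fk`
(`[D] ↦ [r_* D]`), for ARBITRARY function fields (the Prelude's `reductionModL` is the instance
`F = FBar N` only), with
* `sp_mk`,
* `sp_smul` : equivariance under a compatible pair of semilinear automorphisms (`B3.r_smul`),
* `sp_eq_zero_imp` : injectivity on the torsion prime to the residue characteristic
  (`Cech.mem_principal_of_smul_mem_principal`).
-/
import Mathlib
import Fermat.Agent.S37lib.B3.Equivariant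
import Fermat.Agent.S18lib.Cech.Core

set_option autoImplicit false
set_option linter.unusedSectionVars false
set_option linter.style.haveILetI false

noncomputable section

namespace Fermat.Agent.S48lib.X1.ES

open AlgebraicCurve Fermat.Agent.S18lib Fermat.Agent.S37lib

variable {L : Type*} [Field L] {A : ValuationSubring L}
variable {F : Type*} [Field F] [Algebra L F]
variable {Fk : Type*} [Field Fk] [Algebra (IsLocalRing.ResidueField A) Fk]
variable (D : RedDatum A F Fk)

local notation "k" => IsLocalRing.ResidueField A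

/-- `r_*` on divisors as an additive map. -/
def spDiv : Divisor L F →+ Divisor k Fk := Finsupp.mapDomain.addMonoidHom D.r

@[simp] theorem spDiv_apply (E : Divisor L F) : spDiv D E = Finsupp.mapDomain D.r E := rfl

/-- `r_*` on divisors of degree zero. -/
def spDegZero : Divisor.degZero (K := L) (F := F) →+ Divisor.degZero (K := k) (F := Fk) :=
  ((spDiv D).domRestrict _).codRestrict _ fun E => by
    rw [Divisor.mem_degZero]
    show Divisor.degree (Finsupp.mapDomain D.r (E : Divisor L F)) = 0
    rw [D.degree_mapDomain]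
    exact Divisor.mem_degZero.1 E.2

@[simp] theorem coe_spDegZero (E : Divisor.degZero (K := L) (F := F)) :
    (spDegZero D E : Divisor k Fk) = Finsupp.mapDomain D.r (E : Divisor L F) := rfl

variable [HasPrincipalDivisors L F] [HasPrincipalDivisors (IsLocalRing.ResidueField A) Fk]

/-- **the specialization map** `Pic⁰(F) →+ Pic⁰(Fk)` of a reduction datum. -/
def sp : Pic0 L F →+ Pic0 k Fk :=
  QuotientAddGroup.map _ _ (spDegZero D) (by
    rintro ⟨E, hE0⟩ hE
    simp only [AddSubgroup.mem_addSubgroupOf] at hE ⊢
    exact D.mapDomain_mem_principal hE)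

theorem sp_mk (E : Divisor.degZero (K := L) (F := F)) :
    sp D (Pic0.mk E) = Pic0.mk (spDegZero D E) := rfl

/-- **equivariance of the specialization map** under a compatible pair of semilinear
automorphisms fixing a function `y` of positive degree whose degree is preserved by reduction. -/
theorem sp_smul (hD : D.HasOrthonormalBases) {g : ℕ}
    (hF : IsCurveOfGenus L F g) (hFk : IsCurveOfGenus k Fk g)
    {y : F} (hyO : y ∈ D.O) (hy : D.redF y ≠ 0)
    (hdeg : Divisor.degree (polesOf (K := L) y) = Divisor.degree (polesOf (K := k) (D.redF y)))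
    (hpos : 0 < Divisor.degree (polesOf (K := L) y))
    (σ : SemilinearAut L F) (σk : SemilinearAut k Fk)
    (hO : ∀ f : F, σ • f ∈ D.O ↔ f ∈ D.O)
    (hred : ∀ f : F, f ∈ D.O → D.redF (σ • f) = σk • D.redF f)
    (hσy : σ • y = y) (x : Pic0 L F) :
    sp D (σ • x) = σk • sp D x := by
  obtain ⟨E, rfl⟩ := Pic0.mk_surjective x
  rw [SemilinearAut.pic0_smul_mk, sp_mk, sp_mk, SemilinearAut.pic0_smul_mk]
  refine congrArg Pic0.mk (Subtype.ext ?_)
  rw [coe_spDegZero, SemilinearAut.coe_degZeroSMulHom, SemilinearAut.coe_degZeroSMulHom,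
    coe_spDegZero, SemilinearAut.divisor_smul_def, SemilinearAut.divisor_smul_def,
    ← Finsupp.mapDomain_comp, ← Finsupp.mapDomain_comp]
  congr 1
  funext P
  exact B3.r_smul D hD hF hFk hyO hy hdeg hpos σ σk hO hred hσy P

/-- **injectivity of the specialization on the torsion prime to the residue characteristic.** -/
theorem sp_eq_zero_imp (hD : D.HasOrthonormalBases)
    (hA1 : ∀ c : A, c ∈ IsLocalRing.maximalIdeal A → ∀ d : A, d ≠ 0 → ∃ n : ℕ, ¬ c ^ n ∣ d)
    {g : ℕ} (hF : IsCurveOfGenus L F g) (hFk : IsCurveOfGenus k Fk g)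
    (s : ℕ) (hs : (s : k) ≠ 0) (x : Pic0 L F) (hsx : s • x = 0) (hx : sp D x = 0) : x = 0 := by
  obtain ⟨E, rfl⟩ := Pic0.mk_surjective x
  have h1 : s • (E : Divisor L F) ∈ Divisor.principal (K := L) (F := F) := by
    have h2 : Pic0.mk (s • E) = 0 := hsx
    have h3 := (QuotientAddGroup.eq_zero_iff (s • E)).1 h2
    simpa [AddSubgroup.mem_addSubgroupOf] using h3
  have h2 : Finsupp.mapDomain D.r (E : Divisor L F) ∈ Divisor.principal (K := k) (F := Fk) := by
    rw [sp_mk] at hx
    have h3 := (QuotientAddGroup.eq_zero_iff (spDegZero D E)).1 hx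
    simpa [AddSubgroup.mem_addSubgroupOf] using h3
  have h3 := Cech.mem_principal_of_smul_mem_principal D hD hA1 hF hFk s hs (E : Divisor L F)
    (Divisor.mem_degZero.1 E.2) h1 h2
  refine (QuotientAddGroup.eq_zero_iff E).2 ?_
  simpa [AddSubgroup.mem_addSubgroupOf] using h3

end Fermat.Agent.S48lib.X1.ES
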