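/-
S48lib / X1 / ES / QRed  (lead)

**Reduction context for a `q`-expansion model** `F = laurentBaseChange Q̄ F₀ ⊆ Q̄((q))`,
`Fk ⊆ k((q))`, `k` the residue field of a valuation subring `A ⊆ Q̄`: a reduction datum
`D : RedDatum A F Fk` which IS the coefficientwise reduction of `A`-integral `q`-expansions
(`int_mem`, `int_red`), such that `F^×` is generated by integral elements with nonzero reduction (`gen`),
`Fk` is stable under the coefficientwise automorphisms of `k` (`stable`), and `j ∈ F` with degree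
preserved by reduction.  This is what block P6 delivers for `F₀ = F₁(M)`.

Consequences (port of `S37lib/C0` (helper7) to this generality):
* `resAut : RingAut k →* SemilinearAut k Fk` (coefficientwise action),
* `D_A`-equivariance of the specialization: `sp (σ • x) = resAut σ̄ • sp x` (`sp_galois`),
* inertia acts trivially after specialization (`sp_inertia`), Frobenius elements act through the
  coefficientwise Frobenius `frobAut` (`sp_frobenius`).
-/
import Mathlib
import Fermat.Agent.S37lib.C0.Decomp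
import Fermat.Agent.S37lib.B3.Descent
import Fermat.Agent.S48lib.X1.ES.Spec
import Fermat.Prelude.Thm_ModularCurve_coeff_jqModC_neg_one

set_option autoImplicit false
set_option linter.unusedSectionVars false
set_option linter.style.haveILetI false

noncomputable section

namespace Fermat.Agent.S48lib.X1.ES

open AlgebraicCurve ModularCurve Fermat.Agent.S18lib Fermat.Agent.S37lib

local notation "Qb" => AlgebraicClosure ℚ

/-! ### shortcut instances for subfields of `k((q))`, `k` the residue field of `A`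
(instance search times out at the default `synthInstance.maxHeartbeats`, as for `S18lib.FRes`) -/

section Instances

variable (A : ValuationSubring Qb)
  (Fk : IntermediateField (IsLocalRing.ResidueField A) (LaurentSeries (IsLocalRing.ResidueField A)))

set_option synthInstance.maxHeartbeats 400000 in
instance instFieldSubK : Field ↥Fk := inferInstance

set_option synthInstance.maxHeartbeats 400000 in
instance instAlgebraSubK : Algebra (IsLocalRing.ResidueField A) ↥Fk := inferInstance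

set_option synthInstance.maxHeartbeats 400000 in
instance instAlgebraSubKLaurent :
    Algebra ↥Fk (LaurentSeries (IsLocalRing.ResidueField A)) := inferInstance

end Instances

/-- the reduction context of a `q`-expansion model. -/
structure QRed (A : ValuationSubring Qb) (F₀ : IntermediateField ℚ (LaurentSeries ℚ))
    (Fk : IntermediateField (IsLocalRing.ResidueField A) (LaurentSeries (IsLocalRing.ResidueField A))) where
  /-- the reduction datum -/
  D : RedDatum A ↥(laurentBaseChange Qb F₀) ↥Fk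
  hOB : D.HasOrthonormalBases
  /-- the common genus -/
  genus : ℕ
  hF : IsCurveOfGenus Qb ↥(laurentBaseChange Qb F₀) genus
  hFk : IsCurveOfGenus (IsLocalRing.ResidueField A) ↥Fk genus
  /-- `A`-integral `q`-expansions lie in the Gauss ring … -/
  int_mem : ∀ (b : LaurentSeries A) (hb : V.toL A b ∈ laurentBaseChange Qb F₀),
    (⟨V.toL A b, hb⟩ : ↥(laurentBaseChange Qb F₀)) ∈ D.O
  /-- … and the reduction is the coefficientwise reduction -/
  int_red : ∀ (b : LaurentSeries A) (hb : V.toL A b ∈ laurentBaseChange Qb F₀),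
    ((D.redF (⟨V.toL A b, hb⟩ : ↥(laurentBaseChange Qb F₀)) : ↥Fk) :
      LaurentSeries (IsLocalRing.ResidueField A)) = V.toK A b
  /-- `F^×` is generated by constants and integral elements with nonzero reduction -/
  gen : ∀ f : ↥(laurentBaseChange Qb F₀), f ≠ 0 → ∃ c : Qb, c ≠ 0 ∧
    ∃ (a b : LaurentSeries A) (ha : V.toL A a ∈ laurentBaseChange Qb F₀)
      (hb : V.toL A b ∈ laurentBaseChange Qb F₀), V.toK A a ≠ 0 ∧ V.toK A b ≠ 0 ∧
      algebraMap Qb ↥(laurentBaseChange Qb F₀) c * f * ⟨V.toL A b, hb⟩ = ⟨V.toL A a, ha⟩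
  /-- `Fk` is stable under the coefficientwise automorphisms of `k` -/
  stable : ∀ (τ : IsLocalRing.ResidueField A ≃+* IsLocalRing.ResidueField A)
    (x : LaurentSeries (IsLocalRing.ResidueField A)), x ∈ Fk →
      coeffMap (τ : IsLocalRing.ResidueField A →+* IsLocalRing.ResidueField A) x ∈ Fk
  /-- `j ∈ F` -/
  hj : jqModC Qb ∈ laurentBaseChange Qb F₀
  /-- the degree of `j` is preserved by reduction -/
  hdeg : haveI := hF.hasPrincipalDivisors; haveI := hFk.hasPrincipalDivisors
    Divisor.degree (polesOf (K := Qb) (⟨jqModC Qb, hj⟩ : ↥(laurentBaseChange Qb F₀))) =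
      Divisor.degree (polesOf (K := IsLocalRing.ResidueField A)
        (D.redF (⟨jqModC Qb, hj⟩ : ↥(laurentBaseChange Qb F₀))))

namespace QRed

variable {A : ValuationSubring Qb} {F₀ : IntermediateField ℚ (LaurentSeries ℚ)}
  {Fk : IntermediateField (IsLocalRing.ResidueField A) (LaurentSeries (IsLocalRing.ResidueField A))}
  (C : QRed A F₀ Fk)

local notation "kA" => IsLocalRing.ResidueField A
set_option quotPrecheck false in
local notation "FB" => ↥(laurentBaseChange Qb F₀)
local notation "DA" => ValuationSubring.decompositionSubgroup ℚ A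

/-! ### the coefficientwise action of `Aut k` on `Fk` -/

/-- the coefficientwise action of `τ ∈ Aut k` on `Fk` -/
def resRingAut (τ : kA ≃+* kA) : ↥Fk ≃+* ↥Fk where
  toFun x := ⟨coeffMap (τ : kA →+* kA) (x : LaurentSeries kA), C.stable τ _ x.2⟩
  invFun x := ⟨coeffMap (τ.symm : kA →+* kA) (x : LaurentSeries kA), C.stable τ.symm _ x.2⟩
  left_inv x := Subtype.ext <| by
    show coeffMap (τ.symm : kA →+* kA) (coeffMap (τ : kA →+* kA) (x : LaurentSeries kA))
      = (x : LaurentSeries kA)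
    rw [coeffMap_coeffMap,
      coeffMap_congr (g := RingHom.id kA) (RingHom.ext fun a => τ.symm_apply_apply a)
        (x : LaurentSeries kA),
      coeffMap_id]
  right_inv x := Subtype.ext <| by
    show coeffMap (τ : kA →+* kA) (coeffMap (τ.symm : kA →+* kA) (x : LaurentSeries kA))
      = (x : LaurentSeries kA)
    rw [coeffMap_coeffMap,
      coeffMap_congr (g := RingHom.id kA) (RingHom.ext fun a => τ.apply_symm_apply a)
        (x : LaurentSeries kA),
      coeffMap_id]
  map_mul' x y :=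
    Subtype.ext (map_mul (coeffMap (τ : kA →+* kA)) (x : LaurentSeries kA) (y : LaurentSeries kA))
  map_add' x y :=
    Subtype.ext (map_add (coeffMap (τ : kA →+* kA)) (x : LaurentSeries kA) (y : LaurentSeries kA))

@[simp]
theorem coe_resRingAut_apply (τ : kA ≃+* kA) (x : ↥Fk) :
    (C.resRingAut τ x : LaurentSeries kA) = coeffMap (τ : kA →+* kA) (x : LaurentSeries kA) :=
  rfl

theorem resRingAut_algebraMap (τ : kA ≃+* kA) (a : kA) :
    C.resRingAut τ (algebraMap kA ↥Fk a) = algebraMap kA ↥Fk (τ a) :=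
  Subtype.ext (C0.coeffMap_algebraMap_field kA (τ : kA →+* kA) a)

/-- **the residual semilinear action** `Aut k → SemilinearAut k Fk` -/
def resAut : RingAut kA →* SemilinearAut kA ↥Fk where
  toFun τ := ⟨(C.resRingAut τ, τ), fun a => C.resRingAut_algebraMap τ a⟩
  map_one' := by
    refine Subtype.ext (Prod.ext (RingEquiv.ext fun x => Subtype.ext ?_) rfl)
    show coeffMap (((1 : RingAut kA) : kA ≃+* kA) : kA →+* kA) (x : LaurentSeries kA)
      = (x : LaurentSeries kA)
    rw [show (((1 : RingAut kA) : kA ≃+* kA) : kA →+* kA) = RingHom.id kA from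
      RingHom.ext fun _ => rfl, coeffMap_id]
  map_mul' σ τ := by
    refine Subtype.ext (Prod.ext (RingEquiv.ext fun x => Subtype.ext ?_) rfl)
    show coeffMap (((σ * τ : RingAut kA) : kA ≃+* kA) : kA →+* kA) (x : LaurentSeries kA)
      = coeffMap ((σ : kA ≃+* kA) : kA →+* kA) (coeffMap ((τ : kA ≃+* kA) : kA →+* kA)
          (x : LaurentSeries kA))
    rw [coeffMap_coeffMap]
    exact coeffMap_congr (RingHom.ext fun _ => rfl) _

@[simp]
theorem baseAut_resAut (τ : RingAut kA) : SemilinearAut.baseAut (C.resAut τ) = τ := rfl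

theorem coe_resAut_smul (τ : RingAut kA) (x : ↥Fk) :
    ((C.resAut τ • x : ↥Fk) : LaurentSeries kA)
      = coeffMap ((τ : kA ≃+* kA) : kA →+* kA) (x : LaurentSeries kA) :=
  rfl

/-! ### integral elements -/

/-- the element of `F` with a given `A`-integral expansion -/
def elemL (b : LaurentSeries A) (hb : V.toL A b ∈ laurentBaseChange Qb F₀) : FB := ⟨V.toL A b, hb⟩

theorem coe_elemL (b : LaurentSeries A) (hb : V.toL A b ∈ laurentBaseChange Qb F₀) :
    ((elemL b hb : FB) : LaurentSeries Qb) = V.toL A b := rfl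

theorem elemL_mem_O (b : LaurentSeries A) (hb : V.toL A b ∈ laurentBaseChange Qb F₀) :
    elemL b hb ∈ C.D.O := C.int_mem b hb

theorem coe_redF_elemL (b : LaurentSeries A) (hb : V.toL A b ∈ laurentBaseChange Qb F₀) :
    ((C.D.redF (elemL b hb) : ↥Fk) : LaurentSeries kA) = V.toK A b := C.int_red b hb

theorem redF_elemL_ne_zero {b : LaurentSeries A} (hb : V.toL A b ∈ laurentBaseChange Qb F₀)
    (h : V.toK A b ≠ 0) : C.D.redF (elemL b hb) ≠ 0 := by
  intro h0
  apply h
  rw [← C.coe_redF_elemL b hb, h0]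
  rfl

/-- `j` as an element of `F` -/
def jF : FB := ⟨jqModC Qb, C.hj⟩

theorem coe_jF : ((C.jF : FB) : LaurentSeries Qb) = jqModC Qb := rfl

theorem toL_jqModC : V.toL A (jqModC A) = jqModC Qb := by
  show coeffMap A.subtype (jqModC A) = _
  rw [coeffMap_jqModC]

include C in
theorem toL_jqModC_mem : V.toL A (jqModC A) ∈ laurentBaseChange Qb F₀ := by
  rw [toL_jqModC]; exact C.hj

theorem jF_eq_elemL : C.jF = elemL (jqModC A) C.toL_jqModC_mem :=
  Subtype.ext (toL_jqModC (A := A)).symm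

theorem jF_mem_O : C.jF ∈ C.D.O := by
  rw [jF_eq_elemL]
  exact C.elemL_mem_O _ _

theorem coe_redF_jF : ((C.D.redF C.jF : ↥Fk) : LaurentSeries kA) = jqModC kA := by
  rw [jF_eq_elemL, coe_redF_elemL]
  show coeffMap (IsLocalRing.residue A) (jqModC A) = _
  rw [coeffMap_jqModC]

theorem jF_ne_const (c : Qb) : C.jF ≠ algebraMap Qb FB c := by
  intro h
  have h1 : ((C.jF : FB) : LaurentSeries Qb).coeff (-1 : ℤ) =
      ((algebraMap Qb FB c : FB) : LaurentSeries Qb).coeff (-1 : ℤ) := by rw [h]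
  have h2 : ((algebraMap Qb FB c : FB) : LaurentSeries Qb) = HahnSeries.single 0 c := by
    show algebraMap Qb (LaurentSeries Qb) c = _
    rw [algebraMap_laurentSeries_eq_single]
  rw [h2, C.coe_jF, ModularCurve.coeff_jqModC_neg_one,
    HahnSeries.coeff_single_of_ne (by norm_num : (-1 : ℤ) ≠ 0)] at h1
  exact one_ne_zero h1

theorem redF_jF_ne_const (c : kA) : C.D.redF C.jF ≠ algebraMap kA ↥Fk c := by
  intro h
  have h1 : ((C.D.redF C.jF : ↥Fk) : LaurentSeries kA).coeff (-1 : ℤ) =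
      ((algebraMap kA ↥Fk c : ↥Fk) : LaurentSeries kA).coeff (-1 : ℤ) := by rw [h]
  have h2 : ((algebraMap kA ↥Fk c : ↥Fk) : LaurentSeries kA) = HahnSeries.single 0 c := by
    show algebraMap kA (LaurentSeries kA) c = _
    rw [algebraMap_laurentSeries_eq_single]
  rw [h2, C.coe_redF_jF, ModularCurve.coeff_jqModC_neg_one,
    HahnSeries.coeff_single_of_ne (by norm_num : (-1 : ℤ) ≠ 0)] at h1
  exact one_ne_zero h1

theorem redF_jF_ne_zero : C.D.redF C.jF ≠ 0 := fun h =>
  C.redF_jF_ne_const 0 (by rw [h, map_zero])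

/-! ### the action of the decomposition group -/

/-- the char-0 semilinear automorphism of `F` attached to `σ ∈ D_A` -/
def galAut (g : DA) : SemilinearAut Qb FB := arithmeticGalois F₀ (g : Qb ≃ₐ[ℚ] Qb)

/-- the residual semilinear automorphism of `Fk` attached to `σ ∈ D_A` -/
def resAutD (g : DA) : SemilinearAut kA ↥Fk := C.resAut (C0.sigmaBar A g)

theorem coe_galAut_smul (g : DA) (x : FB) :
    ((galAut (F₀ := F₀) g • x : FB) : LaurentSeries Qb) =
      coeffMap (((g : Qb ≃ₐ[ℚ] Qb)) : Qb →+* Qb) (x : LaurentSeries Qb) := rfl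

theorem coe_resAutD_smul (g : DA) (x : ↥Fk) :
    ((C.resAutD g • x : ↥Fk) : LaurentSeries kA) =
      coeffMap ((C0.sigmaBar A g : kA ≃+* kA) : kA →+* kA) (x : LaurentSeries kA) := rfl

/-- the transported integral series -/
def sigmaSer (g : DA) (b : LaurentSeries A) : LaurentSeries A :=
  coeffMap ((C0.sigmaA A g : A ≃+* A) : A →+* A) b

theorem toL_sigmaSer (g : DA) (b : LaurentSeries A) :
    V.toL A (sigmaSer g b) = coeffMap (((g : Qb ≃ₐ[ℚ] Qb)) : Qb →+* Qb) (V.toL A b) :=
  C0.coeffMap_subtype_sigmaA A g b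

theorem toK_sigmaSer (g : DA) (b : LaurentSeries A) :
    V.toK A (sigmaSer g b) =
      coeffMap ((C0.sigmaBar A g : kA ≃+* kA) : kA →+* kA) (V.toK A b) :=
  C0.coeffMap_residue_sigmaA A g b

theorem toL_sigmaSer_mem (g : DA) {b : LaurentSeries A}
    (hb : V.toL A b ∈ laurentBaseChange Qb F₀) :
    V.toL A (sigmaSer g b) ∈ laurentBaseChange Qb F₀ := by
  rw [toL_sigmaSer]
  exact coeffMap_mem_laurentBaseChange (g : Qb ≃ₐ[ℚ] Qb) hb

/-- the transport of an integral expansion by `σ ∈ D_A` -/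
theorem galAut_smul_elemL (g : DA) (b : LaurentSeries A)
    (hb : V.toL A b ∈ laurentBaseChange Qb F₀) :
    galAut (F₀ := F₀) g • elemL b hb = elemL (sigmaSer g b) (toL_sigmaSer_mem g hb) :=
  Subtype.ext (toL_sigmaSer g b).symm

theorem redF_elemL_sigmaSer (g : DA) (b : LaurentSeries A)
    (hb : V.toL A b ∈ laurentBaseChange Qb F₀) :
    C.D.redF (elemL (sigmaSer g b) (toL_sigmaSer_mem g hb)) =
      C.resAutD g • C.D.redF (elemL b hb) := by
  apply Subtype.ext
  rw [C.coe_redF_elemL, C.coe_resAutD_smul, C.coe_redF_elemL]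
  exact toK_sigmaSer g b

theorem redF_elemL_sigmaSer_ne_zero (g : DA) {b : LaurentSeries A}
    (hb : V.toL A b ∈ laurentBaseChange Qb F₀) (h : C.D.redF (elemL b hb) ≠ 0) :
    C.D.redF (elemL (sigmaSer g b) (toL_sigmaSer_mem g hb)) ≠ 0 := by
  rw [C.redF_elemL_sigmaSer, Ne, smul_eq_zero_iff_eq]
  exact h

/-- `σ ∈ D_A` maps constants to constants -/
theorem galAut_smul_algebraMap (g : DA) (c : Qb) :
    galAut (F₀ := F₀) g • algebraMap Qb FB c = algebraMap Qb FB ((g : Qb ≃ₐ[ℚ] Qb) c) :=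
  SemilinearAut.smul_algebraMap _ c

open scoped Pointwise in
theorem mem_A_iff_of_mem_decomposition (g : DA) (c : Qb) :
    (g : Qb ≃ₐ[ℚ] Qb) c ∈ A ↔ c ∈ A := by
  have hg := g.2
  have h1 : ∀ (σ : Qb ≃ₐ[ℚ] Qb), σ ∈ DA → ∀ x : Qb, x ∈ A → σ x ∈ A := by
    intro σ hσ x hx
    have h2 : σ • A = A := hσ
    rw [← h2]
    exact ValuationSubring.smul_mem_pointwise_smul σ x A hx
  constructor
  · intro h
    have := h1 ((g : Qb ≃ₐ[ℚ] Qb)⁻¹) (inv_mem hg) _ h
    rwa [AlgEquiv.aut_inv, AlgEquiv.symm_apply_apply] at this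
  · exact h1 _ hg c

/-- the shape `c · a / b` -/
def quot (c : Qb) (a b : LaurentSeries A) (ha : V.toL A a ∈ laurentBaseChange Qb F₀)
    (hb : V.toL A b ∈ laurentBaseChange Qb F₀) : FB :=
  algebraMap Qb FB c * (elemL a ha * (elemL b hb)⁻¹)

/-- the structure of a general element: a constant times a unit quotient of integral elements -/
theorem exists_repr (f : FB) (hf : f ≠ 0) :
    ∃ (c : Qb) (a b : LaurentSeries A) (ha : V.toL A a ∈ laurentBaseChange Qb F₀)
      (hb : V.toL A b ∈ laurentBaseChange Qb F₀), c ≠ 0 ∧ C.D.redF (elemL a ha) ≠ 0 ∧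
        C.D.redF (elemL b hb) ≠ 0 ∧ f = quot c a b ha hb := by
  obtain ⟨c, hc, a, b, ha, hb, hka, hkb, h⟩ := C.gen f hf
  refine ⟨c⁻¹, a, b, ha, hb, inv_ne_zero hc, C.redF_elemL_ne_zero ha hka,
    C.redF_elemL_ne_zero hb hkb, ?_⟩
  have hb0 : elemL (F₀ := F₀) b hb ≠ 0 := by
    intro h0
    exact C.redF_elemL_ne_zero hb hkb (by rw [h0, C.D.redF_zero])
  have hc0 : algebraMap Qb FB c ≠ 0 := (map_ne_zero _).2 hc
  have h' : algebraMap Qb FB c * f * elemL b hb = elemL a ha := h
  rw [quot, ← h', map_inv₀]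
  field_simp

theorem galAut_smul_quot (g : DA) (c : Qb) (a b : LaurentSeries A)
    (ha : V.toL A a ∈ laurentBaseChange Qb F₀) (hb : V.toL A b ∈ laurentBaseChange Qb F₀) :
    galAut (F₀ := F₀) g • quot c a b ha hb =
      quot ((g : Qb ≃ₐ[ℚ] Qb) c) (sigmaSer g a) (sigmaSer g b) (toL_sigmaSer_mem g ha)
        (toL_sigmaSer_mem g hb) := by
  rw [quot, quot, smul_mul', smul_mul', smul_inv'', galAut_smul_algebraMap, galAut_smul_elemL,
    galAut_smul_elemL]

/-- a unit quotient of integral elements is in `O`, with the expected reduction -/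
theorem unitQuot_mem_O {a b : LaurentSeries A} (ha : V.toL A a ∈ laurentBaseChange Qb F₀)
    (hb : V.toL A b ∈ laurentBaseChange Qb F₀) (hkb : C.D.redF (elemL b hb) ≠ 0) :
    elemL a ha * (elemL b hb)⁻¹ ∈ C.D.O :=
  C.D.O.mul_mem _ _ (C.elemL_mem_O a ha) (C.D.inv_mem_of_redF_ne_zero hkb)

theorem redF_unitQuot {a b : LaurentSeries A} (ha : V.toL A a ∈ laurentBaseChange Qb F₀)
    (hb : V.toL A b ∈ laurentBaseChange Qb F₀) (hkb : C.D.redF (elemL b hb) ≠ 0) :
    C.D.redF (elemL a ha * (elemL b hb)⁻¹) =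
      C.D.redF (elemL a ha) * (C.D.redF (elemL b hb))⁻¹ := by
  rw [C.D.redF_mul (C.elemL_mem_O a ha) (C.D.inv_mem_of_redF_ne_zero hkb), C.D.redF_inv hkb]

theorem redF_unitQuot_ne_zero {a b : LaurentSeries A} (ha : V.toL A a ∈ laurentBaseChange Qb F₀)
    (hb : V.toL A b ∈ laurentBaseChange Qb F₀) (hka : C.D.redF (elemL a ha) ≠ 0)
    (hkb : C.D.redF (elemL b hb) ≠ 0) :
    C.D.redF (elemL a ha * (elemL b hb)⁻¹) ≠ 0 := by
  rw [C.redF_unitQuot ha hb hkb]
  exact mul_ne_zero hka (inv_ne_zero hkb)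

/-- membership in `O` of `c · u`, `u` a unit of `O` -/
theorem const_mul_mem_O_iff {c : Qb} {u : FB} (hu : C.D.redF u ≠ 0) :
    algebraMap Qb FB c * u ∈ C.D.O ↔ c ∈ A := by
  constructor
  · intro h
    have h1 : algebraMap Qb FB c * u * u⁻¹ ∈ C.D.O :=
      C.D.O.mul_mem _ _ h (C.D.inv_mem_of_redF_ne_zero hu)
    have hu0 : u ≠ 0 := by
      rintro rfl
      exact hu C.D.redF_zero
    rw [mul_assoc, mul_inv_cancel₀ hu0, mul_one] at h1
    exact (C.D.algebraMap_mem_iff c).1 h1
  · intro h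
    exact C.D.O.mul_mem _ _ ((C.D.algebraMap_mem_iff c).2 h) (C.D.mem_of_redF_ne_zero hu)

theorem quot_mem_O_iff {c : Qb} {a b : LaurentSeries A}
    (ha : V.toL A a ∈ laurentBaseChange Qb F₀) (hb : V.toL A b ∈ laurentBaseChange Qb F₀)
    (hka : C.D.redF (elemL a ha) ≠ 0) (hkb : C.D.redF (elemL b hb) ≠ 0) :
    quot c a b ha hb ∈ C.D.O ↔ c ∈ A :=
  C.const_mul_mem_O_iff (C.redF_unitQuot_ne_zero ha hb hka hkb)

theorem redF_quot {c : Qb} (hc : c ∈ A) {a b : LaurentSeries A}
    (ha : V.toL A a ∈ laurentBaseChange Qb F₀) (hb : V.toL A b ∈ laurentBaseChange Qb F₀)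
    (hkb : C.D.redF (elemL b hb) ≠ 0) :
    C.D.redF (quot c a b ha hb) =
      algebraMap kA ↥Fk (IsLocalRing.residue A ⟨c, hc⟩) *
        (C.D.redF (elemL a ha) * (C.D.redF (elemL b hb))⁻¹) := by
  have e := C.D.redF_smul ⟨c, hc⟩ (C.unitQuot_mem_O ha hb hkb)
  rw [quot, e, C.redF_unitQuot ha hb hkb, Algebra.smul_def]

/-- `σ ∈ D_A` preserves the Gauss ring -/
theorem galAut_smul_mem_O_iff (g : DA) (f : FB) :
    galAut (F₀ := F₀) g • f ∈ C.D.O ↔ f ∈ C.D.O := by
  by_cases hf : f = 0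
  · subst hf
    rw [smul_zero]
  obtain ⟨c, a, b, ha, hb, hc, hka, hkb, rfl⟩ := C.exists_repr f hf
  rw [galAut_smul_quot, C.quot_mem_O_iff _ _ (C.redF_elemL_sigmaSer_ne_zero g ha hka)
    (C.redF_elemL_sigmaSer_ne_zero g hb hkb), C.quot_mem_O_iff ha hb hka hkb,
    mem_A_iff_of_mem_decomposition]

set_option maxHeartbeats 1000000 in
/-- reduction intertwines `σ ∈ D_A` and `σ̄` -/
theorem redF_galAut_smul (g : DA) (f : FB) (hfO : f ∈ C.D.O) :
    C.D.redF (galAut (F₀ := F₀) g • f) = C.resAutD g • C.D.redF f := by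
  by_cases hf : f = 0
  · subst hf
    rw [smul_zero, C.D.redF_zero, smul_zero]
  obtain ⟨c, a, b, ha, hb, hc, hka, hkb, rfl⟩ := C.exists_repr f hf
  have hcA : c ∈ A := (C.quot_mem_O_iff ha hb hka hkb).1 hfO
  have hgc : (g : Qb ≃ₐ[ℚ] Qb) c ∈ A := (mem_A_iff_of_mem_decomposition g c).2 hcA
  have e1 := C.redF_quot hgc (toL_sigmaSer_mem g ha) (toL_sigmaSer_mem g hb)
    (C.redF_elemL_sigmaSer_ne_zero g hb hkb)
  have e2 := C.redF_quot hcA ha hb hkb
  have e3 : IsLocalRing.residue A ⟨(g : Qb ≃ₐ[ℚ] Qb) c, hgc⟩ =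
      C0.sigmaBar A g (IsLocalRing.residue A ⟨c, hcA⟩) := C0.residue_sigmaA A g ⟨c, hcA⟩
  have e4 : C.resAutD g • algebraMap kA ↥Fk (IsLocalRing.residue A ⟨c, hcA⟩) =
      algebraMap kA ↥Fk (C0.sigmaBar A g (IsLocalRing.residue A ⟨c, hcA⟩)) :=
    SemilinearAut.smul_algebraMap _ _
  rw [galAut_smul_quot, e1, e2, C.redF_elemL_sigmaSer g a ha, C.redF_elemL_sigmaSer g b hb, e3,
    ← e4]
  simp only [SemilinearAut.smul_def, map_mul, map_inv₀]

/-! ### equivariance of the specialization -/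

theorem galAut_smul_jF (g : DA) : galAut (F₀ := F₀) g • C.jF = C.jF := by
  apply Subtype.ext
  rw [coe_galAut_smul]
  show coeffMap _ (jqModC Qb) = jqModC Qb
  rw [coeffMap_jqModC]

/-- **`D_A`-equivariance of the specialization map** -/
theorem sp_galois (g : DA) (x : Pic0 Qb FB) :
    haveI := C.hF.hasPrincipalDivisors
    haveI := C.hFk.hasPrincipalDivisors
    sp C.D ((g : Qb ≃ₐ[ℚ] Qb) • x) = C.resAutD g • sp C.D x := by
  haveI := C.hF.hasPrincipalDivisors
  haveI := C.hFk.hasPrincipalDivisors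
  exact sp_smul C.D C.hOB C.hF C.hFk C.jF_mem_O C.redF_jF_ne_zero C.hdeg
    (B3.degree_polesOf_pos_of_nonconst C.hF C.jF_ne_const) (galAut g) (C.resAutD g)
    (C.galAut_smul_mem_O_iff g) (C.redF_galAut_smul g) (C.galAut_smul_jF g) x

/-- inertia acts trivially after specialization -/
theorem sp_inertia (σ : Qb ≃ₐ[ℚ] Qb) (hσ : σ ∈ A.inertiaSubgroupIn ℚ) (x : Pic0 Qb FB) :
    haveI := C.hF.hasPrincipalDivisors
    haveI := C.hFk.hasPrincipalDivisors
    sp C.D (σ • x) = sp C.D x := by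
  haveI := C.hF.hasPrincipalDivisors
  haveI := C.hFk.hasPrincipalDivisors
  obtain ⟨g, hg, rfl⟩ := hσ
  have h1 := C.sp_galois g x
  have h2 : C.resAutD g = 1 := by
    rw [resAutD, C0.sigmaBar_eq_one_of_mem_inertia A hg, map_one]
  rw [h2, one_smul] at h1
  exact h1

section Frobenius

variable (p : ℕ) [ExpChar (IsLocalRing.ResidueField A) p] [PerfectRing (IsLocalRing.ResidueField A) p]

/-- the coefficientwise Frobenius of `Fk` as a semilinear automorphism -/
def frobAut : SemilinearAut kA ↥Fk := C.resAut (frobeniusEquiv kA p)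

theorem coe_frobAut_smul (x : ↥Fk) :
    ((C.frobAut p • x : ↥Fk) : LaurentSeries kA) =
      coeffMap (frobenius kA p) (x : LaurentSeries kA) := by
  rw [frobAut, coe_resAut_smul]
  rfl

theorem baseAut_frobAut : SemilinearAut.baseAut (C.frobAut p) = frobeniusEquiv kA p := rfl

theorem frobAut_smul_redF_jF : C.frobAut p • C.D.redF C.jF = C.D.redF C.jF := by
  apply Subtype.ext
  rw [coe_frobAut_smul, C.coe_redF_jF, coeffMap_jqModC]

variable {p}

theorem resAutD_eq_frobAut {σ : Qb ≃ₐ[ℚ] Qb} (hσ : A.IsFrobeniusAt σ p) :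
    C.resAutD ⟨σ, hσ.mem_decompositionSubgroup⟩ = C.frobAut p := by
  have h1 : C0.sigmaBar A ⟨σ, hσ.mem_decompositionSubgroup⟩ = frobeniusEquiv kA p := by
    refine RingEquiv.ext fun x => ?_
    rw [C0.sigmaBar_apply_of_isFrobeniusAt A hσ x, frobeniusEquiv_apply, frobenius_def]
  unfold resAutD frobAut
  exact congrArg C.resAut h1

/-- Frobenius elements act through the coefficientwise Frobenius after specialization -/
theorem sp_frobenius (σ : Qb ≃ₐ[ℚ] Qb) (hσ : A.IsFrobeniusAt σ p) (x : Pic0 Qb FB) :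
    haveI := C.hF.hasPrincipalDivisors
    haveI := C.hFk.hasPrincipalDivisors
    sp C.D (σ • x) = C.frobAut p • sp C.D x := by
  haveI := C.hF.hasPrincipalDivisors
  haveI := C.hFk.hasPrincipalDivisors
  have h1 := C.sp_galois ⟨σ, hσ.mem_decompositionSubgroup⟩ x
  rw [C.resAutD_eq_frobAut hσ] at h1
  exact h1

end Frobenius

end QRed

end Fermat.Agent.S48lib.X1.ES
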