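/-
S48lib / X1 / ES / Main  (lead)

**Eichler–Shimura for a `q`-expansion model with diamond operator** (block P7).
`ESData A p F₀ F₀' Fk`: a reduction context `C : QRed A F₀ Fk` (block P6), the degeneracy maps
`α = id`, `β = (q ↦ q^p)` from `F = Q̄·F₀` to the level-`p` field `F' = Q̄·F₀'` with their
divisor-theoretic properties (block P4, layer A), a diamond automorphism `dia` of `F` over `Q̄(j)`
preserving the Gauss ring and reducing to an automorphism `εk` of `Fk` which commutes with the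
coefficientwise Frobenius, a `dia`-stable generating set `S` of integral elements, and the analytic
norm expansion (block P4, layer B; `u = q^{1/p}`)

  `N_α(β f)(u^p) = f(u^{p²}) · ∏_{i<p} (dia f)(ζ^i u)`.

Results:
* `ESData.norm_congruence` : `Fr (red N_α(β f)) = (red f)^p · Fr Fr εk (red f)` on `S`;
* `ESData.esDefect_eq_zero`, `ESData.es_pic0` :
    `Fr • sp (T w) = (Fr * Fr * εk) • sp w + p • sp w`   on `Pic⁰(F)`,  `T = α_* β^*`;
* `ESData.frobenius_relation` : for `σ` a Frobenius element at `A` and `x ∈ Pic⁰(F)` of `t`-power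
  order, `t` invertible in `k`:  `σ • σ • dia • x - T (σ • x) + p • x = 0`;
* `ESData.inertia_trivial` : inertia at `A` acts trivially on the `t`-power torsion of `Pic⁰(F)`.
-/
import Mathlib
import Fermat.Agent.S48lib.X1.ES.QRed
import Fermat.Agent.S48lib.X1.ES.Kronecker
import Fermat.Agent.S48lib.X1.ES.NormCong
import Fermat.Agent.S48lib.X1.ES.Formal
import Fermat.Agent.S18lib.Asm.RankOne

set_option autoImplicit false
set_option linter.unusedSectionVars false
set_option linter.style.haveILetI false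

noncomputable section

namespace Fermat.Agent.S48lib.X1.ES

open AlgebraicCurve ModularCurve Fermat.Agent.S18lib Fermat.Agent.S28lib Fermat.Agent.S37lib
  Fermat.Agent.S37lib.ES Fermat.Agent.S37lib.ConjNorm

local notation "Qb" => AlgebraicClosure ℚ

/-- the Eichler–Shimura input data for a `q`-expansion model at a prime `p`. -/
structure ESData (A : ValuationSubring Qb) (p : ℕ) [Fact p.Prime] [NeZero p]
    (F₀ F₀' : IntermediateField ℚ (LaurentSeries ℚ))
    (Fk : IntermediateField (IsLocalRing.ResidueField A) (LaurentSeries (IsLocalRing.ResidueField A))) where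
  /-- `A` lies over `p` -/
  hA : A.LiesOverPrime p
  /-- the reduction context at level `F₀` -/
  C : QRed A F₀ Fk
  /-- the degeneracy maps -/
  α : ↥(laurentBaseChange Qb F₀) →ₐ[Qb] ↥(laurentBaseChange Qb F₀')
  β : ↥(laurentBaseChange Qb F₀) →ₐ[Qb] ↥(laurentBaseChange Qb F₀')
  coe_α : ∀ x, ((α x : ↥(laurentBaseChange Qb F₀')) : LaurentSeries Qb) = (x : LaurentSeries Qb)
  coe_β : ∀ x, ((β x : ↥(laurentBaseChange Qb F₀')) : LaurentSeries Qb) =
    qExpand Qb p (x : LaurentSeries Qb)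
  hαi : α.toRingHom.IsIntegral
  hβi : β.toRingHom.IsIntegral
  hP' : HasPrincipalDivisors Qb ↥(laurentBaseChange Qb F₀')
  hFI : FundamentalIdentityAlong Qb β hβi
  hfin : FiniteAlong Qb α
  hN : NormFormulaAlong Qb α hfin
  /-- the diamond automorphism -/
  dia : ↥(laurentBaseChange Qb F₀) ≃ₐ[Qb] ↥(laurentBaseChange Qb F₀)
  dia_jF : dia C.jF = C.jF
  dia_mem_O : ∀ f, dia f ∈ C.D.O ↔ f ∈ C.D.O
  /-- its reduction -/
  εk : ↥Fk ≃ₐ[IsLocalRing.ResidueField A] ↥Fk
  red_dia : ∀ f, f ∈ C.D.O → C.D.redF (dia f) = εk (C.D.redF f)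
  /-- `εk` commutes with the coefficientwise automorphisms (in particular with Frobenius) -/
  εk_res : ∀ (τ : RingAut (IsLocalRing.ResidueField A)) (x : ↥Fk),
    εk (C.resAut τ • x) = C.resAut τ • εk x
  /-- the generating set -/
  S : Set ↥(laurentBaseChange Qb F₀)
  S_int : ∀ f ∈ S, ∃ (a : LaurentSeries A) (ha : V.toL A a ∈ laurentBaseChange Qb F₀),
    V.toK A a ≠ 0 ∧ f = QRed.elemL a ha
  S_dia : ∀ f ∈ S, dia f ∈ S
  S_gen : ∀ f : ↥(laurentBaseChange Qb F₀), f ≠ 0 → ∃ c : Qb, c ≠ 0 ∧ ∃ a ∈ S, ∃ b ∈ S,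
    algebraMap Qb ↥(laurentBaseChange Qb F₀) c * f * b = a
  /-- the norm expansion -/
  ζ : Qbˣ
  hζ : IsPrimitiveRoot ζ p
  hNE : ∀ f : ↥(laurentBaseChange Qb F₀),
    qExpand Qb p ((normAlong α (β f) : ↥(laurentBaseChange Qb F₀)) : LaurentSeries Qb) =
      qExpand Qb (p * p) (f : LaurentSeries Qb) *
        ∏ i ∈ Finset.range p, twist (ζ ^ i) ((dia f : ↥(laurentBaseChange Qb F₀)) : LaurentSeries Qb)

namespace ESData

variable {A : ValuationSubring Qb} {p : ℕ} [Fact p.Prime] [NeZero p]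
  {F₀ F₀' : IntermediateField ℚ (LaurentSeries ℚ)}
  {Fk : IntermediateField (IsLocalRing.ResidueField A) (LaurentSeries (IsLocalRing.ResidueField A))}
  (E : ESData A p F₀ F₀' Fk)

local notation "kA" => IsLocalRing.ResidueField A
set_option quotPrecheck false in
local notation "FB" => ↥(laurentBaseChange Qb F₀)
set_option quotPrecheck false in
local notation "FB'" => ↥(laurentBaseChange Qb F₀')

include E in
theorem charP_kA : CharP (IsLocalRing.ResidueField A) p := Gink.charP_kRes A E.hA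

include E in
theorem expChar_kA : ExpChar (IsLocalRing.ResidueField A) p := C0.expChar_kRes E.hA

include E in
theorem perfectRing_kA :
    haveI := E.expChar_kA
    PerfectRing (IsLocalRing.ResidueField A) p := C0.perfectRing_kRes E.hA

/-- the coefficientwise Frobenius of `Fk` -/
def Fr : SemilinearAut (IsLocalRing.ResidueField A) ↥Fk :=
  haveI := E.expChar_kA
  haveI := E.perfectRing_kA
  E.C.frobAut p

/-- the reduction of the diamond as a semilinear automorphism -/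
def εS : SemilinearAut (IsLocalRing.ResidueField A) ↥Fk := SemilinearAut.ofAlgAut E.εk

/-- the diamond as a semilinear automorphism -/
def diaS : SemilinearAut Qb FB := SemilinearAut.ofAlgAut E.dia

theorem coe_Fr_smul (x : ↥Fk) :
    haveI := E.expChar_kA
    ((E.Fr • x : ↥Fk) : LaurentSeries kA) =
      coeffMap (frobenius kA p) (x : LaurentSeries kA) := by
  haveI := E.expChar_kA
  haveI := E.perfectRing_kA
  exact E.C.coe_frobAut_smul p x

theorem εS_smul (x : ↥Fk) : E.εS • x = E.εk x := rfl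

theorem diaS_smul (x : FB) : E.diaS • x = E.dia x := rfl

set_option maxHeartbeats 800000 in
/-- **the norm congruence** on the generating set. -/
theorem norm_congruence (f : FB) (hf : f ∈ E.S) :
    E.Fr • E.C.D.redF (normAlong E.α (E.β f)) =
      ((1 : SemilinearAut kA ↥Fk) • E.C.D.redF f) ^ p * (E.Fr * E.Fr * E.εS) • E.C.D.redF f := by
  haveI := E.charP_kA
  haveI := E.expChar_kA
  haveI := E.perfectRing_kA
  obtain ⟨a, ha, hka, hfa⟩ := E.S_int f hf
  obtain ⟨a', ha', hka', hfa'⟩ := E.S_int _ (E.S_dia _ hf)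
  have hne := E.hNE f
  have e1 : ((f : FB) : LaurentSeries Qb) = V.toL A a := by rw [hfa]; rfl
  have e2 : ((E.dia f : FB) : LaurentSeries Qb) = V.toL A a' := by rw [hfa']; rfl
  rw [e1, e2] at hne
  obtain ⟨b, hb1, hb2⟩ := exists_norm_reduction_series' A E.hA E.hζ a a' _ hne
  have hbmem : V.toL A b ∈ laurentBaseChange Qb F₀ := by
    rw [hb1]; exact (normAlong E.α (E.β f)).2
  have hν : normAlong E.α (E.β f) = QRed.elemL b hbmem := Subtype.ext hb1.symm
  have hfO : f ∈ E.C.D.O := by rw [hfa]; exact E.C.elemL_mem_O a ha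
  have hred : ((E.C.D.redF f : ↥Fk) : LaurentSeries kA) = V.toK A a := by
    rw [hfa]; exact E.C.coe_redF_elemL a ha
  have hred' : ((E.εk (E.C.D.redF f) : ↥Fk) : LaurentSeries kA) = V.toK A a' := by
    rw [← E.red_dia f hfO, hfa']; exact E.C.coe_redF_elemL a' ha'
  have h3 : ((E.Fr • E.C.D.redF (normAlong E.α (E.β f)) : ↥Fk) : LaurentSeries kA) =
      coeffMap (frobenius kA p) (V.toK A b) := by
    rw [E.coe_Fr_smul, hν, E.C.coe_redF_elemL]
  have h4 : ((E.Fr • E.Fr • E.εk (E.C.D.redF f) : ↥Fk) : LaurentSeries kA) =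
      coeffMap (frobenius kA p) (coeffMap (frobenius kA p) (V.toK A a')) := by
    rw [E.coe_Fr_smul, E.coe_Fr_smul, hred']
  have h6 : (((E.C.D.redF f) ^ p * (E.Fr • E.Fr • E.εk (E.C.D.redF f)) : ↥Fk) : LaurentSeries kA) =
      ((E.C.D.redF f : ↥Fk) : LaurentSeries kA) ^ p *
        ((E.Fr • E.Fr • E.εk (E.C.D.redF f) : ↥Fk) : LaurentSeries kA) := rfl
  have h5 : E.Fr • E.C.D.redF (normAlong E.α (E.β f)) =
      (E.C.D.redF f) ^ p * (E.Fr • E.Fr • E.εk (E.C.D.redF f)) :=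
    Subtype.ext (h3.trans (hb2.trans ((congrArg₂ (fun x y : LaurentSeries kA => x ^ p * y)
      hred h4).symm.trans h6.symm)))
  exact h5

/-! ### the modular equation at level `p` -/

theorem val_comp_iotaFld :
    (algebraMap FB' (LaurentSeries Qb)).comp (iotaFld FB') =
      (HahnSeries.C : Qb →+* LaurentSeries Qb).comp (Gink.intToQbar : Zb →+* Qb) := by
  apply RingHom.ext
  intro c
  show algebraMap Qb (LaurentSeries Qb) (Gink.intToQbar c) = _
  rw [Kummer.algebraMap_laurent_eq_C]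
  rfl

theorem natCast_ne_zero_Qb : ((p : ℕ) : Qb) ≠ 0 := Nat.cast_ne_zero.mpr (NeZero.ne p)

/-- `Φ_p(β j, α j) = 0` in `F'` -/
theorem biEval₂_beta_alpha :
    biEval₂ (iotaFld FB') (phiZ p) (E.β E.C.jF) (E.α E.C.jF) = 0 := by
  apply (algebraMap FB' (LaurentSeries Qb)).injective
  rw [map_biEval₂, val_comp_iotaFld, map_zero]
  show biEval₂ _ (phiZ p) ((E.β E.C.jF : FB') : LaurentSeries Qb)
    ((E.α E.C.jF : FB') : LaurentSeries Qb) = 0
  rw [E.coe_β, E.coe_α, E.C.coe_jF]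
  exact biEval₂_qExpand_jqModC _ natCast_ne_zero_Qb

/-- `Φ_p(α j, β j) = 0` in `F'` -/
theorem biEval₂_alpha_beta :
    biEval₂ (iotaFld FB') (phiZ p) (E.α E.C.jF) (E.β E.C.jF) = 0 := by
  apply (algebraMap FB' (LaurentSeries Qb)).injective
  rw [map_biEval₂, val_comp_iotaFld, map_zero]
  show biEval₂ _ (phiZ p) ((E.α E.C.jF : FB') : LaurentSeries Qb)
    ((E.β E.C.jF : FB') : LaurentSeries Qb) = 0
  rw [E.coe_β, E.coe_α, E.C.coe_jF]
  exact biEval₂_jqModC_qExpand _ natCast_ne_zero_Qb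

/-! ### the defect vanishes -/

theorem εk_redF_jF : E.εk (E.C.D.redF E.C.jF) = E.C.D.redF E.C.jF := by
  rw [← E.red_dia _ E.C.jF_mem_O, E.dia_jF]

theorem Fr_smul_redF_jF : E.Fr • E.C.D.redF E.C.jF = E.C.D.redF E.C.jF := by
  haveI := E.expChar_kA
  haveI := E.perfectRing_kA
  exact E.C.frobAut_smul_redF_jF p

theorem baseAut_Fr_apply (c : kA) : SemilinearAut.baseAut E.Fr c = c ^ p := by
  haveI := E.expChar_kA
  haveI := E.perfectRing_kA
  show frobeniusEquiv kA p c = c ^ p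
  rw [frobeniusEquiv_apply, frobenius_def]

/-- the Eichler–Shimura defect of the data -/
def defect : Divisor Qb FB →+ Divisor kA ↥Fk :=
  haveI := E.hP'
  esDefectD E.C.D E.β E.α E.hβi E.hαi E.Fr (E.Fr * E.Fr * E.εS) 1 p

set_option maxHeartbeats 800000 in
/-- **the Eichler–Shimura defect vanishes.** -/
theorem defect_eq_zero : E.defect = 0 := by
  haveI := E.hP'
  haveI := E.C.hF.hasPrincipalDivisors
  haveI := E.C.hFk.hasPrincipalDivisors
  haveI := E.charP_kA
  haveI : Infinite kA := IsAlgClosed.instInfinite (K := kRes A)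
  have hdegpos : ∀ Q : Place kA ↥Fk, 0 < Q.deg := fun Q => by
    rw [E.C.hFk.deg_eq_one]; exact one_pos
  have hhy : (E.Fr * E.Fr * E.εS) • E.C.D.redF E.C.jF = E.C.D.redF E.C.jF := by
    show E.Fr • E.Fr • E.εk (E.C.D.redF E.C.jF) = _
    rw [E.εk_redF_jF, E.Fr_smul_redF_jF, E.Fr_smul_redF_jF]
  have hK : KroneckerAt E.C.D E.β E.α E.hβi E.hαi E.Fr E.C.jF :=
    kroneckerAt_of_modularEquation E.C.D E.β E.α E.hβi E.hαi E.Fr E.C.hF.deg_eq_one hdegpos
      E.C.jF_mem_O E.C.jF_ne_const E.C.redF_jF_ne_const E.C.hdeg E.baseAut_Fr_apply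
      E.biEval₂_beta_alpha E.biEval₂_alpha_beta
  refine esDefectD_eq_zero E.C.D E.β E.α E.hβi E.hαi E.Fr (E.Fr * E.Fr * E.εS) 1 p
    E.Fr_smul_redF_jF hhy (one_smul _ _) rfl rfl hK E.C.hOB E.C.hF E.C.hFk E.C.jF_mem_O
    E.C.jF_ne_const E.C.redF_jF_ne_const E.C.hdeg ?_
  intro f hf Df hDf
  refine esDefectD_principal E.C.D E.β E.α E.hβi E.hαi E.Fr (E.Fr * E.Fr * E.εS) 1 p E.hfin E.hN
    E.S E.S_gen ?_ (fun a ha => E.norm_congruence a ha) f hf Df hDf
  intro a ha
  obtain ⟨a₀, ha₀, hka, rfl⟩ := E.S_int a ha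
  exact E.C.redF_elemL_ne_zero ha₀ hka

/-! ### the relation on `Pic⁰` -/

/-- the Hecke correspondence `T = α_* β^*` on `Pic⁰(F)` -/
def TJ : Pic0 Qb FB →+ Pic0 Qb FB :=
  haveI := E.hP'
  Pic0.correspondence E.β E.α E.hβi E.hαi E.hFI E.hfin E.hN

/-- the specialization map of the data -/
def spJ : Pic0 Qb FB →+ Pic0 kA ↥Fk :=
  haveI := E.C.hF.hasPrincipalDivisors
  haveI := E.C.hFk.hasPrincipalDivisors
  sp E.C.D

/-- **Eichler–Shimura on `Pic⁰`**: `Fr sp(T w) = Fr Fr εk sp(w) + p sp(w)`. -/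
theorem es_pic0 (w : Pic0 Qb FB) :
    haveI := E.C.hFk.hasPrincipalDivisors
    E.Fr • E.spJ (E.TJ w) = (E.Fr * E.Fr * E.εS) • E.spJ w + p • E.spJ w := by
  haveI := E.hP'
  haveI := E.C.hF.hasPrincipalDivisors
  haveI := E.C.hFk.hasPrincipalDivisors
  have h := es_pic0_of_esDefectD_eq_zero E.C.D E.β E.α E.hβi E.hαi E.Fr (E.Fr * E.Fr * E.εS) 1 p
    E.hFI E.hfin E.hN E.defect_eq_zero w
  rw [one_smul] at h
  exact h

/-- the diamond commutes with the specialization -/
theorem spJ_dia (x : Pic0 Qb FB) :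
    haveI := E.C.hF.hasPrincipalDivisors
    haveI := E.C.hFk.hasPrincipalDivisors
    E.spJ (E.diaS • x) = E.εS • E.spJ x := by
  haveI := E.C.hF.hasPrincipalDivisors
  haveI := E.C.hFk.hasPrincipalDivisors
  exact sp_smul E.C.D E.C.hOB E.C.hF E.C.hFk E.C.jF_mem_O E.C.redF_jF_ne_zero E.C.hdeg
    (B3.degree_polesOf_pos_of_nonconst E.C.hF E.C.jF_ne_const) E.diaS E.εS
    (fun f => E.dia_mem_O f) (fun f hf => E.red_dia f hf) E.dia_jF x

/-- `εk` commutes with the coefficientwise Frobenius, in `SemilinearAut k Fk` -/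
theorem Fr_mul_εS : E.Fr * E.εS = E.εS * E.Fr := by
  haveI := E.expChar_kA
  haveI := E.perfectRing_kA
  refine Subtype.ext (Prod.ext (RingEquiv.ext fun x => ?_) ?_)
  · show E.Fr • E.εk x = E.εk (E.Fr • x)
    exact (E.εk_res (frobeniusEquiv kA p) x).symm
  · show SemilinearAut.baseAut E.Fr * 1 = 1 * SemilinearAut.baseAut E.Fr
    rw [mul_one, one_mul]

/-- injectivity of the specialization on the `t`-power torsion, `t` invertible in `k` -/
theorem spJ_injective_on_torsion (t : ℕ) (ht : (t : kA) ≠ 0) (x : Pic0 Qb FB)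
    (hx : ∃ n : ℕ, t ^ n • x = 0) (h0 : E.spJ x = 0) : x = 0 := by
  haveI := E.C.hF.hasPrincipalDivisors
  haveI := E.C.hFk.hasPrincipalDivisors
  obtain ⟨n, hn⟩ := hx
  refine sp_eq_zero_imp E.C.D E.C.hOB (rankOne_of_liesOverPrime A E.hA) E.C.hF E.C.hFk (t ^ n) ?_ x
    hn h0
  rw [Nat.cast_pow]
  exact pow_ne_zero n ht

include E in
/-- **inertia at `A` acts trivially on the `t`-power torsion of `Pic⁰(F)`.** -/
theorem inertia_trivial (t : ℕ) (ht : (t : kA) ≠ 0) (σ : Qb ≃ₐ[ℚ] Qb)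
    (hσ : σ ∈ A.inertiaSubgroupIn ℚ) (x : Pic0 Qb FB) (hx : ∃ n : ℕ, t ^ n • x = 0) :
    σ • x = x :=
  smul_eq_of_sp_invariant t E.spJ (E.spJ_injective_on_torsion t ht) σ
    (fun y => E.C.sp_inertia σ hσ y) x hx

set_option maxHeartbeats 800000 in
/-- **the Frobenius relation**: for a Frobenius element `σ` at `A` and `x ∈ Pic⁰(F)` of `t`-power
order, `t` invertible in `k`:  `σ² (dia x) - T (σ x) + p x = 0`. -/
theorem frobenius_relation (t : ℕ) (ht : (t : kA) ≠ 0) (σ : Qb ≃ₐ[ℚ] Qb)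
    (hσ : A.IsFrobeniusAt σ p) (x : Pic0 Qb FB) (hx : ∃ n : ℕ, t ^ n • x = 0) :
    σ • σ • (E.diaS • x) - E.TJ (σ • x) + p • x = 0 := by
  haveI := E.C.hF.hasPrincipalDivisors
  haveI := E.C.hFk.hasPrincipalDivisors
  haveI := E.expChar_kA
  haveI := E.perfectRing_kA
  have key := frobenius_quadratic (G := Qb ≃ₐ[ℚ] Qb) t p E.spJ (E.spJ_injective_on_torsion t ht)
    E.TJ (DistribSMul.toAddMonoidHom (Pic0 Qb FB) E.diaS) (AddMonoidHom.id _)
    (DistribSMul.toAddMonoidHom (Pic0 kA ↥Fk) E.Fr)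
    (DistribSMul.toAddMonoidHom (Pic0 kA ↥Fk) E.εS) (AddMonoidHom.id _)
    (fun y => (mul_smul E.Fr E.εS y).symm.trans
      ((congrArg (fun g : SemilinearAut kA ↥Fk => g • y) E.Fr_mul_εS).trans (mul_smul E.εS E.Fr y)))
    (fun y => rfl) (fun y => E.spJ_dia y) (fun y => rfl) σ
    (fun y => E.C.sp_frobenius σ hσ y)
    (fun w => (E.es_pic0 w).trans (congrArg (fun z => z + p • E.spJ w)
      ((mul_smul (E.Fr * E.Fr) E.εS (E.spJ w)).trans (mul_smul E.Fr E.Fr (E.εS • E.spJ w))))) x hx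
  exact key

end ESData

end Fermat.Agent.S48lib.X1.ES
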