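/-
S48lib / X1 / ES / Dia  (lead)

**An automorphism of `F` preserving the Gauss ring induces an automorphism of the residue field**,
and the assembly of `ESData` from a reduction context, the degeneracy data and a diamond
automorphism, with the minimal instance-level inputs:

* `hO`   : `dia f ∈ O ↔ f ∈ O`;
* `hres` : the induced automorphism `εk` of `Fk` commutes with the coefficientwise automorphisms;
* `hgen` : every element of `O` is a quotient `a / b` of elements all of whose `dia`-translates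
  are `A`-integral `q`-expansions, `b` with nonzero reduction.
-/
import Mathlib
import Fermat.Agent.S48lib.X1.ES.Main

set_option autoImplicit false
set_option linter.unusedSectionVars false
set_option linter.style.haveILetI false

noncomputable section

namespace Fermat.Agent.S48lib.X1.ES

open AlgebraicCurve ModularCurve Fermat.Agent.S18lib Fermat.Agent.S28lib Fermat.Agent.S37lib
  Fermat.Agent.S37lib.ES Fermat.Agent.S37lib.ConjNorm

local notation "Qb" => AlgebraicClosure ℚ

namespace QRed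

variable {A : ValuationSubring Qb} {F₀ : IntermediateField ℚ (LaurentSeries ℚ)}
  {Fk : IntermediateField (IsLocalRing.ResidueField A) (LaurentSeries (IsLocalRing.ResidueField A))}
  (C : QRed A F₀ Fk)

local notation "kA" => IsLocalRing.ResidueField A
set_option quotPrecheck false in
local notation "FB" => ↥(laurentBaseChange Qb F₀)

/-- the kernel of the reduction is the maximal ideal of `O` -/
theorem ker_red : RingHom.ker C.D.red = IsLocalRing.maximalIdeal C.D.O := by
  haveI : (RingHom.ker C.D.red).IsMaximal := RingHom.ker_isMaximal_of_surjective _ C.D.red_surjective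
  exact IsLocalRing.eq_maximalIdeal inferInstance

theorem red_eq_zero_iff (x : C.D.O) : C.D.red x = 0 ↔ ¬ IsUnit x := by
  rw [← RingHom.mem_ker, C.ker_red, IsLocalRing.mem_maximalIdeal, mem_nonunits_iff]

section Induced

variable (dia : ↥(laurentBaseChange Qb F₀) ≃ₐ[Qb] ↥(laurentBaseChange Qb F₀))
  (hO : ∀ f, dia f ∈ C.D.O ↔ f ∈ C.D.O)

include hO in
theorem symm_mem_O_iff (f : FB) : dia.symm f ∈ C.D.O ↔ f ∈ C.D.O := by
  rw [← hO (dia.symm f), dia.apply_symm_apply]

/-- the restriction of `dia` to `O` -/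
def diaO : C.D.O ≃+* C.D.O where
  toFun x := ⟨dia x, (hO x).2 x.2⟩
  invFun x := ⟨dia.symm x, (C.symm_mem_O_iff dia hO x).2 x.2⟩
  left_inv x := Subtype.ext (dia.symm_apply_apply x)
  right_inv x := Subtype.ext (dia.apply_symm_apply x)
  map_mul' x y := Subtype.ext (map_mul dia (x : FB) (y : FB))
  map_add' x y := Subtype.ext (map_add dia (x : FB) (y : FB))

theorem coe_diaO (x : C.D.O) : ((C.diaO dia hO x : C.D.O) : FB) = dia x := rfl

theorem red_diaO_eq_zero (x : C.D.O) (hx : C.D.red x = 0) : C.D.red (C.diaO dia hO x) = 0 := by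
  rw [red_eq_zero_iff] at hx ⊢
  intro hu
  apply hx
  have := hu.map (C.diaO dia hO).symm
  rwa [RingEquiv.symm_apply_apply] at this

/-- the ring homomorphism induced on the residue field -/
def redHom : ↥Fk →+* ↥Fk :=
  RingHom.liftOfRightInverse C.D.red (Function.surjInv C.D.red_surjective)
    (Function.rightInverse_surjInv C.D.red_surjective)
    ⟨C.D.red.comp (C.diaO dia hO).toRingHom, fun x hx => by
      rw [RingHom.mem_ker] at hx ⊢
      exact C.red_diaO_eq_zero dia hO x hx⟩

theorem redHom_red (x : C.D.O) : C.redHom dia hO (C.D.red x) = C.D.red (C.diaO dia hO x) :=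
  RingHom.liftOfRightInverse_comp_apply _ _ _ _ x

theorem redHom_redF (f : ↥(laurentBaseChange Qb F₀)) (hf : f ∈ C.D.O) :
    C.redHom dia hO (C.D.redF f) = C.D.redF (dia f) := by
  rw [C.D.redF_of_mem hf, C.D.redF_of_mem ((hO f).2 hf), redHom_red]
  rfl

theorem redHom_algebraMap (c : kA) :
    C.redHom dia hO (algebraMap kA ↥Fk c) = algebraMap kA ↥Fk c := by
  obtain ⟨a, rfl⟩ := IsLocalRing.residue_surjective c
  have hmem : algebraMap Qb ↥(laurentBaseChange Qb F₀) (a : Qb) ∈ C.D.O :=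
    (C.D.algebraMap_mem_iff _).2 a.2
  rw [← C.D.red_algebraMap a hmem, redHom_red]
  congr 1
  apply Subtype.ext
  rw [coe_diaO]
  exact dia.commutes _

end Induced

/-- the subgroup of automorphisms preserving `O` -/
def stabO : Subgroup (↥(laurentBaseChange Qb F₀) ≃ₐ[Qb] ↥(laurentBaseChange Qb F₀)) where
  carrier := {g | ∀ f, g f ∈ C.D.O ↔ f ∈ C.D.O}
  one_mem' := fun f => Iff.rfl
  mul_mem' := fun {g h} hg hh f => by
    rw [AlgEquiv.mul_apply, hg, hh]
  inv_mem' := fun {g} hg f => by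
    have := hg (g⁻¹ f)
    rw [show g (g⁻¹ f) = f from g.apply_symm_apply f] at this
    exact this.symm

theorem mem_stabO {g : ↥(laurentBaseChange Qb F₀) ≃ₐ[Qb] ↥(laurentBaseChange Qb F₀)} :
    g ∈ C.stabO ↔ ∀ f, g f ∈ C.D.O ↔ f ∈ C.D.O := Iff.rfl

section Aut

variable (dia : ↥(laurentBaseChange Qb F₀) ≃ₐ[Qb] ↥(laurentBaseChange Qb F₀))
  (hO : ∀ f, dia f ∈ C.D.O ↔ f ∈ C.D.O)

theorem redHom_symm_redHom (x : ↥Fk) :
    C.redHom dia.symm (C.symm_mem_O_iff dia hO) (C.redHom dia hO x) = x := by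
  obtain ⟨y, rfl⟩ := C.D.red_surjective x
  rw [redHom_red, redHom_red]
  congr 1
  exact Subtype.ext (dia.symm_apply_apply _)

theorem redHom_redHom_symm (x : ↥Fk) :
    C.redHom dia hO (C.redHom dia.symm (C.symm_mem_O_iff dia hO) x) = x := by
  obtain ⟨y, rfl⟩ := C.D.red_surjective x
  rw [redHom_red, redHom_red]
  congr 1
  exact Subtype.ext (dia.apply_symm_apply _)

/-- **the automorphism of the residue field induced by an automorphism preserving `O`** -/
def redAut : ↥Fk ≃ₐ[kA] ↥Fk :=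
  AlgEquiv.ofRingEquiv
    (f := RingEquiv.ofRingHom (C.redHom dia hO) (C.redHom dia.symm (C.symm_mem_O_iff dia hO))
      (RingHom.ext fun x => C.redHom_redHom_symm dia hO x)
      (RingHom.ext fun x => C.redHom_symm_redHom dia hO x))
    (fun c => C.redHom_algebraMap dia hO c)

theorem redAut_apply (x : ↥Fk) : C.redAut dia hO x = C.redHom dia hO x := rfl

theorem redF_dia (f : ↥(laurentBaseChange Qb F₀)) (hf : f ∈ C.D.O) :
    C.D.redF (dia f) = C.redAut dia hO (C.D.redF f) :=
  (C.redHom_redF dia hO f hf).symm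

include hO in
theorem redF_dia_ne_zero (f : ↥(laurentBaseChange Qb F₀)) (hf : f ∈ C.D.O)
    (h : C.D.redF f ≠ 0) : C.D.redF (dia f) ≠ 0 := by
  rw [C.redF_dia dia hO f hf]
  exact (map_ne_zero_iff _ (C.redAut dia hO).injective).2 h

end Aut

/-- `A`-integral elements with nonzero reduction -/
def IsIntNZ (f : ↥(laurentBaseChange Qb F₀)) : Prop :=
  ∃ (a : LaurentSeries A) (ha : V.toL A a ∈ laurentBaseChange Qb F₀),
    V.toK A a ≠ 0 ∧ f = elemL a ha

/-- `A`-integral elements -/
def IsInt (f : ↥(laurentBaseChange Qb F₀)) : Prop :=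
  ∃ (a : LaurentSeries A) (ha : V.toL A a ∈ laurentBaseChange Qb F₀), f = elemL a ha

theorem IsInt.mem_O {f : ↥(laurentBaseChange Qb F₀)} (h : IsInt (A := A) f) : f ∈ C.D.O := by
  obtain ⟨a, ha, rfl⟩ := h
  exact C.elemL_mem_O a ha

theorem isIntNZ_of_isInt {f : ↥(laurentBaseChange Qb F₀)} (h : IsInt (A := A) f)
    (hne : C.D.redF f ≠ 0) : IsIntNZ (A := A) f := by
  obtain ⟨a, ha, rfl⟩ := h
  refine ⟨a, ha, fun h0 => hne ?_, rfl⟩
  apply Subtype.ext
  rw [C.coe_redF_elemL a ha, h0]
  rfl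

/-! ### `A`-integral elements form a subring -/

theorem isInt_one : IsInt (A := A) (1 : ↥(laurentBaseChange Qb F₀)) :=
  ⟨1, by rw [map_one]; exact one_mem _, Subtype.ext (by rw [coe_elemL, map_one]; rfl)⟩

theorem isInt_zero : IsInt (A := A) (0 : ↥(laurentBaseChange Qb F₀)) :=
  ⟨0, by rw [map_zero]; exact zero_mem _, Subtype.ext (by rw [coe_elemL, map_zero]; rfl)⟩

theorem IsInt.mul {f g : ↥(laurentBaseChange Qb F₀)} (hf : IsInt (A := A) f)
    (hg : IsInt (A := A) g) : IsInt (A := A) (f * g) := by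
  obtain ⟨a, ha, rfl⟩ := hf
  obtain ⟨b, hb, rfl⟩ := hg
  refine ⟨a * b, by rw [map_mul]; exact mul_mem ha hb, Subtype.ext ?_⟩
  rw [coe_elemL, map_mul]
  rfl

theorem IsInt.add {f g : ↥(laurentBaseChange Qb F₀)} (hf : IsInt (A := A) f)
    (hg : IsInt (A := A) g) : IsInt (A := A) (f + g) := by
  obtain ⟨a, ha, rfl⟩ := hf
  obtain ⟨b, hb, rfl⟩ := hg
  refine ⟨a + b, by rw [map_add]; exact add_mem ha hb, Subtype.ext ?_⟩
  rw [coe_elemL, map_add]
  rfl

theorem isInt_sum {ι : Type*} (s : Finset ι) (f : ι → ↥(laurentBaseChange Qb F₀))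
    (h : ∀ i ∈ s, IsInt (A := A) (f i)) : IsInt (A := A) (∑ i ∈ s, f i) := by
  classical
  induction s using Finset.induction_on with
  | empty => rw [Finset.sum_empty]; exact isInt_zero
  | insert i s hi ih =>
    rw [Finset.sum_insert hi]
    exact (h i (Finset.mem_insert_self i s)).add
      (ih fun j hj => h j (Finset.mem_insert_of_mem hj))

theorem isInt_prod {ι : Type*} (s : Finset ι) (f : ι → ↥(laurentBaseChange Qb F₀))
    (h : ∀ i ∈ s, IsInt (A := A) (f i)) : IsInt (A := A) (∏ i ∈ s, f i) := by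
  classical
  induction s using Finset.induction_on with
  | empty => rw [Finset.prod_empty]; exact isInt_one
  | insert i s hi ih =>
    rw [Finset.prod_insert hi]
    exact (h i (Finset.mem_insert_self i s)).mul
      (ih fun j hj => h j (Finset.mem_insert_of_mem hj))

/-! ### the frame hypothesis -/

section Frame

variable (dia : ↥(laurentBaseChange Qb F₀) ≃ₐ[Qb] ↥(laurentBaseChange Qb F₀))

/-- all `dia`-translates are `A`-integral -/
def IsIntStable (f : ↥(laurentBaseChange Qb F₀)) : Prop :=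
  ∀ m : ℤ, IsInt (A := A) ((dia ^ m) f)

/-- a quotient of `dia`-fixed `A`-integral elements, the denominator with nonzero reduction -/
def IsBase (c : ↥(laurentBaseChange Qb F₀)) : Prop :=
  ∃ a b : ↥(laurentBaseChange Qb F₀), IsInt (A := A) a ∧ IsInt (A := A) b ∧ dia a = a ∧ dia b = b ∧
    C.D.redF b ≠ 0 ∧ c * b = a

/-- **the frame hypothesis**: every element of `O` is a combination, with base coefficients, of
elements with `A`-integral `dia`-translates. -/
def HasFrame : Prop :=
  ∀ x ∈ C.D.O, ∃ (n : ℕ) (c t : Fin n → ↥(laurentBaseChange Qb F₀)),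
    (∀ i, C.IsBase dia (c i)) ∧ (∀ i, IsIntStable (A := A) dia (t i)) ∧ x = ∑ i, c i * t i

variable {dia}

theorem zpow_fixed {a : ↥(laurentBaseChange Qb F₀)} (ha : dia a = a) (m : ℤ) : (dia ^ m) a = a := by
  have hmem : dia ∈ MulAction.stabilizer
      (↥(laurentBaseChange Qb F₀) ≃ₐ[Qb] ↥(laurentBaseChange Qb F₀)) a := ha
  exact (Subgroup.zpow_mem _ hmem m : _)

theorem isIntStable_of_fixed {a : ↥(laurentBaseChange Qb F₀)} (ha : dia a = a)
    (hi : IsInt (A := A) a) : IsIntStable (A := A) dia a := fun m => by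
  rw [zpow_fixed ha m]; exact hi

theorem IsIntStable.mul {f g : ↥(laurentBaseChange Qb F₀)} (hf : IsIntStable (A := A) dia f)
    (hg : IsIntStable (A := A) dia g) : IsIntStable (A := A) dia (f * g) := fun m => by
  rw [map_mul]; exact (hf m).mul (hg m)

theorem isIntStable_sum {ι : Type*} (s : Finset ι) (f : ι → ↥(laurentBaseChange Qb F₀))
    (h : ∀ i ∈ s, IsIntStable (A := A) dia (f i)) : IsIntStable (A := A) dia (∑ i ∈ s, f i) :=
  fun m => by
    rw [map_sum]; exact isInt_sum s _ fun i hi => h i hi m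

theorem isIntStable_prod {ι : Type*} (s : Finset ι) (f : ι → ↥(laurentBaseChange Qb F₀))
    (h : ∀ i ∈ s, IsIntStable (A := A) dia (f i)) : IsIntStable (A := A) dia (∏ i ∈ s, f i) :=
  fun m => by
    rw [map_prod]; exact isInt_prod s _ fun i hi => h i hi m

theorem IsIntStable.isInt {f : ↥(laurentBaseChange Qb F₀)} (hf : IsIntStable (A := A) dia f) :
    IsInt (A := A) f := by
  have := hf 0
  rwa [zpow_zero] at this

theorem IsIntStable.map_dia {f : ↥(laurentBaseChange Qb F₀)} (hf : IsIntStable (A := A) dia f) :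
    IsIntStable (A := A) dia (dia f) := fun m => by
  have := hf (m + 1)
  rwa [zpow_add_one, AlgEquiv.mul_apply] at this

theorem IsIntStable.zpow {f : ↥(laurentBaseChange Qb F₀)} (hf : IsIntStable (A := A) dia f)
    (j : ℤ) : IsIntStable (A := A) dia ((dia ^ j) f) := fun m => by
  have := hf (m + j)
  rwa [zpow_add, AlgEquiv.mul_apply] at this

theorem IsBase.mem_O {c : ↥(laurentBaseChange Qb F₀)} (hc : C.IsBase dia c) : c ∈ C.D.O := by
  obtain ⟨a, b, ha, hb, -, -, hne, hcb⟩ := hc
  have hbO := hb.mem_O C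
  have haO := ha.mem_O C
  have hb0 : b ≠ 0 := by
    rintro rfl
    apply hne
    rw [C.D.redF_of_mem hbO]
    exact map_zero _
  -- `b` is a unit of `O`
  have hunit : IsUnit (⟨b, hbO⟩ : C.D.O) := by
    by_contra h
    apply hne
    rw [C.D.redF_of_mem hbO]
    exact (C.red_eq_zero_iff _).2 h
  obtain ⟨u, hu⟩ := hunit
  have hinv : b⁻¹ ∈ C.D.O := by
    have h1 : ((u⁻¹ : (C.D.O)ˣ) : C.D.O) * ⟨b, hbO⟩ = 1 := by rw [← hu]; exact u.inv_mul
    have h2 : (((u⁻¹ : (C.D.O)ˣ) : C.D.O) : ↥(laurentBaseChange Qb F₀)) * b = 1 :=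
      congrArg Subtype.val h1
    have h3 : b⁻¹ = (((u⁻¹ : (C.D.O)ˣ) : C.D.O) : ↥(laurentBaseChange Qb F₀)) :=
      (eq_inv_of_mul_eq_one_left h2).symm
    rw [h3]
    exact (((u⁻¹ : (C.D.O)ˣ) : C.D.O)).2
  have : c = a * b⁻¹ := by
    rw [← hcb, mul_assoc, mul_inv_cancel₀ hb0, mul_one]
  rw [this]
  exact C.D.O.mul_mem _ _ haO hinv

theorem IsBase.dia_eq {c : ↥(laurentBaseChange Qb F₀)} (hc : C.IsBase dia c) : dia c = c := by
  obtain ⟨a, b, -, hb, hda, hdb, hne, hcb⟩ := hc
  have hb0 : b ≠ 0 := by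
    rintro rfl
    apply hne
    rw [C.D.redF_of_mem (hb.mem_O C)]
    exact map_zero _
  have h1 : dia c * b = c * b := by
    have := congrArg dia hcb
    rw [map_mul, hda, hdb] at this
    rw [this, hcb]
  exact mul_right_cancel₀ hb0 h1

section FrameConsequences

variable (hfr : C.HasFrame dia)

include hfr in
theorem dia_mem_O_of_mem {x : ↥(laurentBaseChange Qb F₀)} (hx : x ∈ C.D.O) : dia x ∈ C.D.O := by
  obtain ⟨n, c, t, hc, ht, rfl⟩ := hfr x hx
  rw [map_sum]
  refine sum_mem fun i _ => ?_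
  rw [map_mul, (hc i).dia_eq C]
  refine C.D.O.mul_mem _ _ ((hc i).mem_O C) ?_
  have := (ht i 1).mem_O C
  rwa [zpow_one] at this

include hfr in
theorem symm_mem_O_of_mem {x : ↥(laurentBaseChange Qb F₀)} (hx : x ∈ C.D.O) :
    dia.symm x ∈ C.D.O := by
  obtain ⟨n, c, t, hc, ht, rfl⟩ := hfr x hx
  rw [map_sum]
  refine sum_mem fun i _ => ?_
  have hcs : dia.symm (c i) = c i := by
    conv_lhs => rw [← (hc i).dia_eq C]
    exact dia.symm_apply_apply _
  rw [map_mul, hcs]
  refine C.D.O.mul_mem _ _ ((hc i).mem_O C) ?_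
  have := (ht i (-1)).mem_O C
  rwa [zpow_neg_one] at this

include hfr in
/-- **the frame hypothesis implies that `dia` preserves `O`** -/
theorem dia_mem_O_iff (f : ↥(laurentBaseChange Qb F₀)) : dia f ∈ C.D.O ↔ f ∈ C.D.O := by
  refine ⟨fun h => ?_, fun h => C.dia_mem_O_of_mem hfr h⟩
  have := C.symm_mem_O_of_mem hfr h
  rwa [dia.symm_apply_apply] at this

include hfr in
theorem zpow_mem_O_iff (m : ℤ) (f : ↥(laurentBaseChange Qb F₀)) :
    (dia ^ m) f ∈ C.D.O ↔ f ∈ C.D.O := by
  have h1 : dia ∈ C.stabO := C.dia_mem_O_iff hfr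
  exact (Subgroup.zpow_mem _ h1 m : dia ^ m ∈ C.stabO) f

/-- the generating set: elements all of whose `dia`-translates are `A`-integral with nonzero
reduction -/
def genSet (dia : ↥(laurentBaseChange Qb F₀) ≃ₐ[Qb] ↥(laurentBaseChange Qb F₀)) :
    Set ↥(laurentBaseChange Qb F₀) :=
  {f | ∀ m : ℤ, IsIntNZ (A := A) ((dia ^ m) f)}

theorem genSet_int {f : ↥(laurentBaseChange Qb F₀)} (hf : f ∈ genSet (A := A) dia) :
    ∃ (a : LaurentSeries A) (ha : V.toL A a ∈ laurentBaseChange Qb F₀),
      V.toK A a ≠ 0 ∧ f = elemL a ha := by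
  have := hf 0
  rwa [zpow_zero] at this

theorem genSet_dia {f : ↥(laurentBaseChange Qb F₀)} (hf : f ∈ genSet (A := A) dia) :
    dia f ∈ genSet (A := A) dia := fun m => by
  have := hf (m + 1)
  rwa [zpow_add_one, AlgEquiv.mul_apply] at this

include hfr in
theorem mem_genSet_of_isIntStable {f : ↥(laurentBaseChange Qb F₀)}
    (hf : IsIntStable (A := A) dia f) (hne : C.D.redF f ≠ 0) : f ∈ genSet (A := A) dia := fun m => by
  refine C.isIntNZ_of_isInt (hf m) ?_
  exact C.redF_dia_ne_zero (dia ^ m) (C.zpow_mem_O_iff hfr m) f (hf.isInt.mem_O C) hne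

include hfr in
/-- **the generating set generates `F^×` modulo constants** -/
theorem genSet_gen (f : ↥(laurentBaseChange Qb F₀)) (hf : f ≠ 0) : ∃ c : Qb, c ≠ 0 ∧
    ∃ a ∈ genSet (A := A) dia, ∃ b ∈ genSet (A := A) dia,
      algebraMap Qb ↥(laurentBaseChange Qb F₀) c * f * b = a := by
  classical
  obtain ⟨c, hc, u, hu⟩ := C.D.exists_const_mul_isUnit f hf
  refine ⟨c, hc, ?_⟩
  have huO : ((u : C.D.O) : ↥(laurentBaseChange Qb F₀)) ∈ C.D.O := (u : C.D.O).2
  have hured : C.D.redF ((u : C.D.O) : ↥(laurentBaseChange Qb F₀)) ≠ 0 := by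
    rw [C.D.redF_of_mem huO]
    exact C.D.red_unit_ne_zero u
  obtain ⟨n, cc, t, hcc, ht, hsum⟩ := hfr _ huO
  choose a b ha hb hda hdb hne hcb using hcc
  -- the common denominator
  set B : ↥(laurentBaseChange Qb F₀) := ∏ j, b j with hB
  set Anum : ↥(laurentBaseChange Qb F₀) :=
    ∑ i, a i * (∏ j ∈ Finset.univ.erase i, b j) * t i with hAnum
  have hbst : ∀ j, IsIntStable (A := A) dia (b j) := fun j => isIntStable_of_fixed (hdb j) (hb j)
  have hast : ∀ j, IsIntStable (A := A) dia (a j) := fun j => isIntStable_of_fixed (hda j) (ha j)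
  have hBst : IsIntStable (A := A) dia B := isIntStable_prod _ _ fun j _ => hbst j
  have hAst : IsIntStable (A := A) dia Anum :=
    isIntStable_sum _ _ fun i _ =>
      ((hast i).mul (isIntStable_prod _ _ fun j _ => hbst j)).mul (ht i)
  have hBred : C.D.redF B ≠ 0 := by
    have key : ∀ s : Finset (Fin n), (∏ j ∈ s, b j) ∈ C.D.O ∧ C.D.redF (∏ j ∈ s, b j) ≠ 0 := by
      intro s
      induction s using Finset.induction_on with
      | empty =>
        rw [Finset.prod_empty]
        exact ⟨C.D.O.one_mem, by rw [RedDatum.redF_one]; exact one_ne_zero⟩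
      | insert i s hi ih =>
        rw [Finset.prod_insert hi]
        refine ⟨C.D.O.mul_mem _ _ ((hb i).mem_O C) ih.1, ?_⟩
        rw [C.D.redF_mul ((hb i).mem_O C) ih.1]
        exact mul_ne_zero (hne i) ih.2
    exact (key Finset.univ).2
  have hrel : ((u : C.D.O) : ↥(laurentBaseChange Qb F₀)) * B = Anum := by
    rw [hsum, Finset.sum_mul]
    refine Finset.sum_congr rfl fun i _ => ?_
    rw [hB, ← Finset.mul_prod_erase Finset.univ b (Finset.mem_univ i), ← hcb i]
    ring
  have hAred : C.D.redF Anum ≠ 0 := by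
    rw [← hrel, C.D.redF_mul huO (hBst.isInt.mem_O C)]
    exact mul_ne_zero hured hBred
  refine ⟨Anum, C.mem_genSet_of_isIntStable hfr hAst hAred, B,
    C.mem_genSet_of_isIntStable hfr hBst hBred, ?_⟩
  rw [hu, hrel]

end FrameConsequences

end Frame

end QRed

namespace ESData

variable {A : ValuationSubring Qb} {p : ℕ} [Fact p.Prime] [NeZero p]
  {F₀ F₀' : IntermediateField ℚ (LaurentSeries ℚ)}
  {Fk : IntermediateField (IsLocalRing.ResidueField A) (LaurentSeries (IsLocalRing.ResidueField A))}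

/-- **assembly of the Eichler–Shimura data** from a reduction context, the degeneracy maps, and a
diamond automorphism satisfying the frame hypothesis and commuting (after reduction) with the
coefficientwise automorphisms. -/
def ofDia (hA : A.LiesOverPrime p) (C : QRed A F₀ Fk)
    (α β : ↥(laurentBaseChange Qb F₀) →ₐ[Qb] ↥(laurentBaseChange Qb F₀'))
    (coe_α : ∀ x, ((α x : ↥(laurentBaseChange Qb F₀')) : LaurentSeries Qb) = (x : LaurentSeries Qb))
    (coe_β : ∀ x, ((β x : ↥(laurentBaseChange Qb F₀')) : LaurentSeries Qb) =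
      qExpand Qb p (x : LaurentSeries Qb))
    (hαi : α.toRingHom.IsIntegral) (hβi : β.toRingHom.IsIntegral)
    (hP' : HasPrincipalDivisors Qb ↥(laurentBaseChange Qb F₀'))
    (hFI : FundamentalIdentityAlong Qb β hβi) (hfin : FiniteAlong Qb α)
    (hN : NormFormulaAlong Qb α hfin)
    (dia : ↥(laurentBaseChange Qb F₀) ≃ₐ[Qb] ↥(laurentBaseChange Qb F₀))
    (dia_jF : dia C.jF = C.jF) (hfr : C.HasFrame dia)
    (hres : ∀ (τ : RingAut (IsLocalRing.ResidueField A)) (x : ↥Fk),
      C.redAut dia (C.dia_mem_O_iff hfr) (C.resAut τ • x) =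
        C.resAut τ • C.redAut dia (C.dia_mem_O_iff hfr) x)
    (ζ : Qbˣ) (hζ : IsPrimitiveRoot ζ p)
    (hNE : ∀ f : ↥(laurentBaseChange Qb F₀),
      qExpand Qb p ((normAlong α (β f) : ↥(laurentBaseChange Qb F₀)) : LaurentSeries Qb) =
        qExpand Qb (p * p) (f : LaurentSeries Qb) *
          ∏ i ∈ Finset.range p,
            twist (ζ ^ i) ((dia f : ↥(laurentBaseChange Qb F₀)) : LaurentSeries Qb)) :
    ESData A p F₀ F₀' Fk where
  hA := hA
  C := C
  α := α
  β := β
  coe_α := coe_α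
  coe_β := coe_β
  hαi := hαi
  hβi := hβi
  hP' := hP'
  hFI := hFI
  hfin := hfin
  hN := hN
  dia := dia
  dia_jF := dia_jF
  dia_mem_O := C.dia_mem_O_iff hfr
  εk := C.redAut dia (C.dia_mem_O_iff hfr)
  red_dia := fun f hf => C.redF_dia dia (C.dia_mem_O_iff hfr) f hf
  εk_res := hres
  S := QRed.genSet dia
  S_int := fun _ hf => QRed.genSet_int hf
  S_dia := fun _ hf => QRed.genSet_dia hf
  S_gen := C.genSet_gen hfr
  ζ := ζ
  hζ := hζ
  hNE := hNE

end ESData

end Fermat.Agent.S48lib.X1.ES
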