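/-
S48lib / X1 / ES / ResDia  (helper7)

**(R) for the residue model `FRes1 A M`** (block P7, instance level): the reduction `εk` of a
diamond operator `⟨δ⟩` commutes with the coefficientwise automorphisms of the residue field.

For a reduction context `C : QRed A (F1 M) (FRes1 A M)` and a `k`-algebra automorphism `εk` of
`FRes1 A M` with `redF (⟨δ⟩ f) = εk (redF f)` on the Gauss ring:
* `redF_tauB`, `redF_jF_eq` : the generators `τ_(0,b)`, `j` reduce to `τ̄_(0,b)`, `j̄`;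
* `epsk_jRes1`, `epsk_tauRes1` : `εk j̄ = j̄`, `εk τ̄_(0,b) = τ̄_(0, b δ₁₁)`;
* `resAut_smul_jRes1`, `exists_resAut_smul_tauRes1` : `τ j̄ = j̄`, `τ τ̄_(0,b) = τ̄_(0, s b)`;
* `epsk_res_FRes1` : `εk (τ • x) = τ • εk x`  (the field `εk_res` of `ESData`).
-/
import Mathlib
import Fermat.Agent.S48lib.X1.ES.Main
import Fermat.Agent.S48lib.X1.Field.Res
import Fermat.Agent.S48lib.X1.HeckeJ.DiamondF1

set_option autoImplicit false
set_option linter.unusedSectionVars false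
set_option linter.style.haveILetI false

noncomputable section

namespace Fermat.Agent.S48lib.X1.ES

open AlgebraicCurve ModularCurve Fermat.Agent.S18lib Fermat.Agent.S48lib.X1.HeckeJ
open scoped MatrixGroups

local notation "Qb" => AlgebraicClosure ℚ

/-- two ring homs out of `K(S)` into a field that agree on `K` and on `S` are equal -/
theorem ringHom_eq_of_adjoin {K E R : Type*} [Field K] [Field E] [Algebra K E] [Field R]
    (S : Set E) (f g : ↥(IntermediateField.adjoin K S) →+* R)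
    (hK : ∀ c : K, f (algebraMap K ↥(IntermediateField.adjoin K S) c) =
      g (algebraMap K ↥(IntermediateField.adjoin K S) c))
    (hS : ∀ (x : E) (hx : x ∈ S), f ⟨x, IntermediateField.subset_adjoin K S hx⟩ =
      g ⟨x, IntermediateField.subset_adjoin K S hx⟩) : f = g := by
  refine RingHom.ext fun y => ?_
  obtain ⟨x, hx⟩ := y
  induction hx using IntermediateField.adjoin_induction with
  | mem x hx => exact hS x hx
  | algebraMap c => exact hK c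
  | add x y hx hy ihx ihy =>
    have e : (⟨x + y, add_mem hx hy⟩ : ↥(IntermediateField.adjoin K S)) = ⟨x, hx⟩ + ⟨y, hy⟩ := rfl
    rw [e, map_add, map_add, ihx, ihy]
  | inv x hx ih =>
    have e : (⟨x⁻¹, inv_mem hx⟩ : ↥(IntermediateField.adjoin K S)) = (⟨x, hx⟩)⁻¹ := rfl
    rw [e, map_inv₀, map_inv₀, ih]
  | mul x y hx hy ihx ihy =>
    have e : (⟨x * y, mul_mem hx hy⟩ : ↥(IntermediateField.adjoin K S)) = ⟨x, hx⟩ * ⟨y, hy⟩ := rfl
    rw [e, map_mul, map_mul, ihx, ihy]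

/-- two ring automorphisms of the explicit model `L(j, τ_(0,b))` commute as soon as they commute
on `L`, on `j` and on the `τ_(0,b)` -/
theorem comm_of_genL {L : Type*} [Field L] (M : ℕ) (ζ : Lˣ)
    (e₁ e₂ : ↥(genL L M ζ) ≃+* ↥(genL L M ζ))
    (hK : ∀ c : L, e₁ (e₂ (algebraMap L ↥(genL L M ζ) c)) = e₂ (e₁ (algebraMap L ↥(genL L M ζ) c)))
    (hj : e₁ (e₂ ⟨jqModC L, jqModC_mem_genL L M ζ⟩) = e₂ (e₁ ⟨jqModC L, jqModC_mem_genL L M ζ⟩))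
    (hτ : ∀ (b : ℤ) (hb : ¬ (M : ℤ) ∣ b), e₁ (e₂ ⟨tauqL L M ζ b, tauqL_mem_genL L M ζ hb⟩) =
      e₂ (e₁ ⟨tauqL L M ζ b, tauqL_mem_genL L M ζ hb⟩)) (x : ↥(genL L M ζ)) :
    e₁ (e₂ x) = e₂ (e₁ x) := by
  have key : (e₁ : ↥(genL L M ζ) →+* ↥(genL L M ζ)).comp (e₂ : ↥(genL L M ζ) →+* ↥(genL L M ζ)) =
      (e₂ : ↥(genL L M ζ) →+* ↥(genL L M ζ)).comp (e₁ : ↥(genL L M ζ) →+* ↥(genL L M ζ)) := by
    refine ringHom_eq_of_adjoin (genSet L M ζ) _ _ hK (fun y hy => ?_)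
    rcases hy with rfl | ⟨b, hb, rfl⟩
    · exact hj
    · exact hτ b hb
  exact congrArg (fun f : ↥(genL L M ζ) →+* ↥(genL L M ζ) => f x) key

section FRes1

variable {A : ValuationSubring Qb} {M : ℕ} [NeZero M] {p : ℕ} [Fact p.Prime]

local notation "kA" => IsLocalRing.ResidueField A

variable (C : QRed A (F1 M) (FRes1 A M))

/-- `τ_(0,b)` is `A`-integral -/
theorem toL_tauqA_mem (hA : A.LiesOverPrime p) (hpM : ¬ p ∣ M) {b : ℤ} (hb : ¬ (M : ℤ) ∣ b) :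
    V.toL A (tauqA hA hpM b) ∈ laurentBaseChange Qb (F1 M) := by
  rw [toL_tauqA]
  exact tauqL_mem_FBar1 M hb

theorem tauB_eq_elemL (hA : A.LiesOverPrime p) (hpM : ¬ p ∣ M) {b : ℤ} (hb : ¬ (M : ℤ) ∣ b) :
    tauB hb = QRed.elemL (tauqA hA hpM b) (toL_tauqA_mem hA hpM hb) :=
  Subtype.ext (toL_tauqA hA hpM b).symm

theorem tauB_mem_O (hA : A.LiesOverPrime p) (hpM : ¬ p ∣ M) {b : ℤ} (hb : ¬ (M : ℤ) ∣ b) :
    tauB hb ∈ C.D.O := by
  rw [tauB_eq_elemL hA hpM hb]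
  exact C.elemL_mem_O _ _

/-- **the generator `τ_(0,b)` reduces to `τ̄_(0,b)`** -/
theorem redF_tauB (hA : A.LiesOverPrime p) (hpM : ¬ p ∣ M) {b : ℤ} (hb : ¬ (M : ℤ) ∣ b) :
    C.D.redF (tauB hb) = tauRes1 A M b hb := by
  apply Subtype.ext
  rw [tauB_eq_elemL hA hpM hb, C.coe_redF_elemL, toK_tauqA hA hpM b]
  rfl

/-- `j` reduces to `j̄` -/
theorem redF_jF_eq : C.D.redF C.jF = jRes1 A M :=
  Subtype.ext C.coe_redF_jF

theorem jF_eq_jBq : C.jF = jBq (F1 M) (jq_mem_F1 M) := Subtype.ext rfl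

/-- the reduced diamond fixes `j̄` -/
theorem epsk_jRes1 (δ : SL(2, ℤ)) (hδ : (M : ℤ) ∣ δ 1 0)
    (εk : ↥(FRes1 A M) ≃ₐ[kA] ↥(FRes1 A M))
    (red_dia : ∀ f, f ∈ C.D.O → C.D.redF (diaF1 δ hδ f) = εk (C.D.redF f)) :
    εk (jRes1 A M) = jRes1 A M := by
  rw [← redF_jF_eq C, ← red_dia _ C.jF_mem_O, jF_eq_jBq C, diaF1_jBq]

/-- **the reduced diamond on generators**: `εk τ̄_(0,b) = τ̄_(0, b δ₁₁)` -/
theorem epsk_tauRes1 (δ : SL(2, ℤ)) (hδ : (M : ℤ) ∣ δ 1 0)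
    (εk : ↥(FRes1 A M) ≃ₐ[kA] ↥(FRes1 A M))
    (red_dia : ∀ f, f ∈ C.D.O → C.D.redF (diaF1 δ hδ f) = εk (C.D.redF f))
    (hA : A.LiesOverPrime p) (hpM : ¬ p ∣ M) {b : ℤ} (hb : ¬ (M : ℤ) ∣ b) :
    εk (tauRes1 A M b hb) = tauRes1 A M (b * δ 1 1) (not_dvd_mul_right hδ hb) := by
  rw [← redF_tauB C hA hpM hb, ← red_dia _ (tauB_mem_O C hA hpM hb), diaF1_tauB,
    redF_tauB C hA hpM]

/-- coefficientwise automorphisms fix `j̄` -/
theorem resAut_smul_jRes1 (τ : RingAut kA) : C.resAut τ • jRes1 A M = jRes1 A M := by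
  apply Subtype.ext
  rw [C.coe_resAut_smul, coe_jRes1, coeffMap_jqModC]

/-- coefficientwise automorphisms permute the `τ̄_(0,b)`: `τ τ̄_(0,b) = τ̄_(0, s b)` where
`τ ζ̄ = ζ̄^s` -/
theorem exists_resAut_smul_tauRes1 (hA : A.LiesOverPrime p) (hpM : ¬ p ∣ M) (τ : RingAut kA) :
    ∃ s : ℤ, IsCoprime s (M : ℤ) ∧ ∀ (b : ℤ) (hb : ¬ (M : ℤ) ∣ b) (hb' : ¬ (M : ℤ) ∣ s * b),
      C.resAut τ • tauRes1 A M b hb = tauRes1 A M (s * b) hb' := by
  obtain ⟨s, hs, hτ⟩ := exists_map_eq_zpow (isPrimitiveRoot_zRes (M := M) hA hpM)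
    ((τ : kA ≃+* kA) : kA →+* kA)
  refine ⟨s, hs, fun b hb hb' => Subtype.ext ?_⟩
  rw [C.coe_resAut_smul, coe_tauRes1, coe_tauRes1, coeffMap_tauqL_zRes _ hτ]

theorem resRingAut_eq_smul (τ : RingAut kA) (x : ↥(FRes1 A M)) :
    C.resRingAut τ x = C.resAut τ • x := rfl

theorem epsk_res_algebraMap (εk : ↥(FRes1 A M) ≃ₐ[kA] ↥(FRes1 A M)) (τ : RingAut kA) (c : kA) :
    εk (C.resRingAut τ (algebraMap kA ↥(FRes1 A M) c)) =
      C.resRingAut τ (εk (algebraMap kA ↥(FRes1 A M) c)) := by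
  rw [C.resRingAut_algebraMap, εk.commutes, εk.commutes, C.resRingAut_algebraMap]

theorem epsk_res_jRes1 (δ : SL(2, ℤ)) (hδ : (M : ℤ) ∣ δ 1 0)
    (εk : ↥(FRes1 A M) ≃ₐ[kA] ↥(FRes1 A M))
    (red_dia : ∀ f, f ∈ C.D.O → C.D.redF (diaF1 δ hδ f) = εk (C.D.redF f)) (τ : RingAut kA) :
    εk (C.resRingAut τ (jRes1 A M)) = C.resRingAut τ (εk (jRes1 A M)) := by
  rw [resRingAut_eq_smul C τ (jRes1 A M), resAut_smul_jRes1 C τ, epsk_jRes1 C δ hδ εk red_dia,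
    resRingAut_eq_smul C τ (jRes1 A M), resAut_smul_jRes1 C τ]

theorem epsk_res_tauRes1 (hA : A.LiesOverPrime p) (hpM : ¬ p ∣ M) (δ : SL(2, ℤ))
    (hδ : (M : ℤ) ∣ δ 1 0) (εk : ↥(FRes1 A M) ≃ₐ[kA] ↥(FRes1 A M))
    (red_dia : ∀ f, f ∈ C.D.O → C.D.redF (diaF1 δ hδ f) = εk (C.D.redF f)) (τ : RingAut kA)
    (b : ℤ) (hb : ¬ (M : ℤ) ∣ b) :
    εk (C.resRingAut τ (tauRes1 A M b hb)) = C.resRingAut τ (εk (tauRes1 A M b hb)) := by
  have hex := exists_resAut_smul_tauRes1 C hA hpM τ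
  obtain ⟨s, hex⟩ := hex
  obtain ⟨hs, hτ⟩ := hex
  rw [resRingAut_eq_smul C τ (tauRes1 A M b hb), hτ b hb (not_dvd_mul_of_isCoprime hs hb),
    epsk_tauRes1 C δ hδ εk red_dia hA hpM (not_dvd_mul_of_isCoprime hs hb),
    epsk_tauRes1 C δ hδ εk red_dia hA hpM hb,
    resRingAut_eq_smul C τ (tauRes1 A M (b * δ 1 1) (not_dvd_mul_right hδ hb)),
    hτ (b * δ 1 1) (not_dvd_mul_right hδ hb)
      (not_dvd_mul_of_isCoprime hs (not_dvd_mul_right hδ hb))]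
  apply Subtype.ext
  rw [coe_tauRes1, coe_tauRes1, mul_assoc]

/-- **(R): the reduced diamond commutes with the coefficientwise automorphisms of `k`.** -/
theorem epsk_res_FRes1 (hA : A.LiesOverPrime p) (hpM : ¬ p ∣ M) (δ : SL(2, ℤ))
    (hδ : (M : ℤ) ∣ δ 1 0) (εk : ↥(FRes1 A M) ≃ₐ[kA] ↥(FRes1 A M))
    (red_dia : ∀ f, f ∈ C.D.O → C.D.redF (diaF1 δ hδ f) = εk (C.D.redF f))
    (τ : RingAut kA) (x : ↥(FRes1 A M)) :
    εk (C.resAut τ • x) = C.resAut τ • εk x :=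
  comm_of_genL M (zRes A M) εk.toRingEquiv (C.resRingAut τ) (epsk_res_algebraMap C εk τ)
    (epsk_res_jRes1 C δ hδ εk red_dia τ) (epsk_res_tauRes1 C hA hpM δ hδ εk red_dia τ) x

end FRes1

end Fermat.Agent.S48lib.X1.ES
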