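/-
S48lib / X1 / ES / StmtDry  (helper7)

**Statement-level dry run of the final assembly of `W2Gal`** (blocks P5 → P6 → P7 → P8): what is
still a hypothesis, in the exact binder shapes of the consumers, so that the last step is a
one-liner when the producers land.

* `hasFrame_of_frame` : lead's `QRed.HasFrame` from helper2's `exists_base_repr_of_mem_O`
  (generic in the frame);
* `esDataAt_of_qRed` : **the P7 instance** (`ESData.ofDia` fed with helper6's `qExpand_norm_diaF1`,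
  the standard Hecke datum, `hasFrame_of_frame` and `epsk_res_FRes1`): a reduction context whose
  Gauss datum has a frame over `j` with `B`-integral diamond translates gives `Gal.ESDataAt M p B`;
* `esDataAt_of_p5` : the chain P6 (helper4's `Red.exists_qRed_FRes1`) + P7;
* `P5Stmt` : the outputs of P5 (helper8/helper3 `Igusa/Inert`), (hM) (helper1 `Red/PoleInst`) and
  the separability bridge (helper4) still to be delivered, as ONE statement;
* `esStmt_of_p5Stmt` : `P5Stmt → ∀ M p B, Gal.ESDataAt M p B`  (= lead's `LeadGlue.ESStmt`).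
-/
import Mathlib
import Fermat.Agent.S48lib.X1.ES.Dia
import Fermat.Agent.S48lib.X1.ES.ResDia
import Fermat.Agent.S48lib.X1.Red.QRedF1Inst
import Fermat.Agent.S48lib.X1.Gal.UnramES

set_option autoImplicit false
set_option linter.unusedSectionVars false
set_option linter.style.haveILetI false

noncomputable section

namespace Fermat.Agent.S48lib.X1.ES.Dry

open AlgebraicCurve ModularCurve IntermediateField
open Fermat.Agent.S18lib Fermat.Agent.S48lib.X1.HeckeJ Fermat.Agent.S48lib.X1.Igusa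
open Fermat.Agent.S48lib.X1.ES
open scoped MatrixGroups

local notation "Qb" => AlgebraicClosure ℚ

/-! ### lead's frame hypothesis from a Gauss frame over `j` -/

section Frame

variable {A : ValuationSubring Qb} {F₀ : IntermediateField ℚ (LaurentSeries ℚ)}
  {Fk : IntermediateField (IsLocalRing.ResidueField A) (LaurentSeries (IsLocalRing.ResidueField A))}

theorem isInt_of_mem_intSubring {a : ↥(laurentBaseChange Qb F₀)}
    (ha : a ∈ Equiv.intSubring A F₀) : QRed.IsInt (A := A) a := by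
  obtain ⟨s, hs⟩ := ha
  exact ⟨s, by rw [hs]; exact a.2, Subtype.ext hs.symm⟩

theorem mem_intSubring_of_isInt {a : ↥(laurentBaseChange Qb F₀)}
    (ha : QRed.IsInt (A := A) a) : a ∈ Equiv.intSubring A F₀ := by
  obtain ⟨s, hs, rfl⟩ := ha
  exact ⟨s, rfl⟩

/-- **`QRed.HasFrame` from a frame of the Gauss datum over `j`** whose members have `A`-integral
`dia`-translates (helper2's `exists_base_repr_of_mem_O`). -/
theorem hasFrame_of_frame (C : QRed A F₀ Fk)
    (dia : ↥(laurentBaseChange Qb F₀) ≃ₐ[Qb] ↥(laurentBaseChange Qb F₀)) (hj : dia C.jF = C.jF)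
    {n : ℕ} {θ : Fin n → ↥(laurentBaseChange Qb F₀)}
    (hfr : WFrame.IsFrameFamily C.D.toGaussDatum C.jF θ)
    (hst : ∀ i, QRed.IsIntStable (A := A) dia (θ i)) : C.HasFrame dia := by
  intro x hx
  obtain ⟨c, hxc, hc⟩ := Equiv.exists_base_repr_of_mem_O C.D.toGaussDatum (y := C.jF) rfl hfr x hx
  refine ⟨n, c, θ, fun i => ?_, hst, hxc⟩
  obtain ⟨a, b, ha, hb, hne, hcb, hφ⟩ := hc i
  have h2 := hφ (dia : ↥(laurentBaseChange Qb F₀) →ₐ[Qb] ↥(laurentBaseChange Qb F₀)) hj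
  exact ⟨a, b, isInt_of_mem_intSubring ha, isInt_of_mem_intSubring hb, h2.1, h2.2, hne, hcb⟩

end Frame

variable {M : ℕ} [NeZero M] {p : ℕ} [Fact p.Prime] {B : ValuationSubring Qb}

local notation "kB" => IsLocalRing.ResidueField B

/-! ### the P7 instance -/

/-- a primitive `p`-th root of unity in `ℚ̄ˣ` -/
theorem exists_primitiveRoot_units (p : ℕ) [NeZero p] : ∃ ζ : Qbˣ, IsPrimitiveRoot ζ p := by
  obtain ⟨ζ0, hζ0⟩ := HasEnoughRootsOfUnity.exists_primitiveRoot Qb p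
  exact ⟨(hζ0.isUnit (NeZero.ne p)).unit, IsPrimitiveRoot.coe_units_iff.mp hζ0⟩

/-- **P7 instance**: the Eichler–Shimura data of `F₁(M)` at `B ∣ p ∤ M` from a reduction context
whose Gauss datum has a frame over `j` with `B`-integral diamond translates. -/
theorem esDataAt_of_qRed [NeZero p] (hM : 1 < M) (hB : B.LiesOverPrime p) (hpM : ¬ p ∣ M)
    (C : QRed B (F1 M) (FRes1 B M)) {y : FBq (F1 M)} (hy : (y : LaurentSeries Qb) = jqModC Qb)
    {n : ℕ} {θ : Fin n → FBq (F1 M)}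
    (hfr : WFrame.IsFrameFamily C.D.toGaussDatum y θ)
    (hst : ∀ (δ : SL(2, ℤ)) (hδ : (M : ℤ) ∣ δ 1 0) (i : Fin n),
      QRed.IsIntStable (A := B) (diaF1 δ hδ) (θ i)) :
    Gal.ESDataAt M p B := by
  have hyj : y = C.jF := Subtype.ext hy
  subst hyj
  have hcop : IsCoprime (p : ℤ) (M : ℤ) := by
    rw [Int.isCoprime_iff_gcd_eq_one, Int.gcd_natCast_natCast]
    exact (Nat.Prime.coprime_iff_not_dvd Fact.out).mpr hpM
  obtain ⟨u, v, huv⟩ := hcop
  have hd : IsCoprime u (M : ℤ) := ⟨(p : ℤ), v, by linear_combination huv⟩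
  obtain ⟨δ, h10, h11⟩ := exists_delta (M := M) hd
  have h0 : (M : ℤ) ∣ δ 1 0 := by rw [h10]
  have h1 : (M : ℤ) ∣ (p : ℤ) * δ 1 1 - 1 := ⟨-v, by rw [h11]; linear_combination huv⟩
  obtain ⟨ζ, hζ⟩ := exists_primitiveRoot_units p
  have hQ : IsQModel (F1 M) := isQModel_F1
  have hjF : diaF1 δ h0 C.jF = C.jF := by
    rw [jF_eq_jBq C]
    exact diaF1_jBq δ h0
  have hfr' : C.HasFrame (diaF1 δ h0) := hasFrame_of_frame C (diaF1 δ h0) hjF hfr (hst δ h0)
  haveI := (hQ.levelP p).hasPrincipalDivisors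
  exact ⟨FRes1 B M,
    ESData.ofDia hB C (alphaBar Qb (F1 M) p) (betaBar Qb (F1 M) p)
      (fun x => coe_alphaBar Qb (F1 M) p x) (fun x => coe_betaBar Qb (F1 M) p x)
      (alphaBar_isIntegral hQ p) (betaBar_isIntegral hQ p) (hQ.levelP p).hasPrincipalDivisors
      (fundamentalIdentityAlong_beta hQ p) (finiteAlong_alpha hQ p) (normFormulaAlong_alpha hQ p)
      (diaF1 δ h0) hjF hfr'
      (fun τ x => epsk_res_FRes1 C hB hpM δ h0 (C.redAut (diaF1 δ h0) (C.dia_mem_O_iff hfr'))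
        (fun f hf => C.redF_dia (diaF1 δ h0) (C.dia_mem_O_iff hfr') f hf) τ x)
      ζ hζ (fun f => qExpand_norm_diaF1 hM hpM h0 (Or.inl h1) f hζ),
    δ, h0, h1, rfl⟩

/-! ### the whole chain -/

/-- **P5 + (hM) ⇒ Eichler–Shimura data** at `(M, p, B)`. -/
theorem esDataAt_of_p5 [NeZero p] (h49 : 4 ∣ M ∨ 9 ∣ M) (hB : B.LiesOverPrime p) (hpM : ¬ p ∣ M)
    (G' : GaussDatum B (FBq (F1 M)) ↥(FRes1 B M))
    (hcompat : SeriesCompat G' (Equiv.inclQ (F1 M)) (Equiv.inclK (FRes1 B M)))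
    {y : FBq (F1 M)} (hy : (y : LaurentSeries Qb) = jqModC Qb)
    {n : ℕ} {θ : Fin n → FBq (F1 M)} (hθ : ∀ i, θ i ∈ Equiv.intSubring B (F1 M))
    (hfr : WFrame.IsFrameFamily G' y θ)
    [Algebra.IsSeparable kB⟮G'.redF y⟯ ↥(FRes1 B M)]
    (hc : Nat.card (Tame.polesOf (K := kB) (G'.redF y)) ≤ Red.cuspCount1 M)
    (hst : ∀ (δ : SL(2, ℤ)) (hδ : (M : ℤ) ∣ δ 1 0) (i : Fin n),
      QRed.IsIntStable (A := B) (diaF1 δ hδ) (θ i)) :
    Gal.ESDataAt M p B := by
  obtain ⟨C, hC, -⟩ := Red.exists_qRed_FRes1 hB hpM h49 G' hcompat hy hθ hfr hc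
  have hM : 1 < M := lt_of_lt_of_le (by norm_num) (Red.four_le_of_dvd h49)
  refine esDataAt_of_qRed hM hB hpM C hy (θ := θ) ?_ hst
  rw [hC]
  exact hfr

/-- the outputs of P5 (helper8/helper3), (hM) (helper1) and the separability bridge (helper4) still
to be delivered, as one statement -/
def P5Stmt : Prop :=
  ∀ (M : ℕ) [NeZero M], (4 ∣ M ∨ 9 ∣ M) → ∀ (p : ℕ) [Fact p.Prime], ¬ p ∣ M →
    ∀ B : ValuationSubring Qb, B.LiesOverPrime p →
      ∃ (G' : GaussDatum B (FBq (F1 M)) ↥(FRes1 B M)) (y : FBq (F1 M)) (n : ℕ)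
        (θ : Fin n → FBq (F1 M)),
        (y : LaurentSeries Qb) = jqModC Qb ∧
        (∀ i, θ i ∈ Equiv.intSubring B (F1 M)) ∧
        SeriesCompat G' (Equiv.inclQ (F1 M)) (Equiv.inclK (FRes1 B M)) ∧
        WFrame.IsFrameFamily G' y θ ∧
        Algebra.IsSeparable (IsLocalRing.ResidueField B)⟮G'.redF y⟯ ↥(FRes1 B M) ∧
        Nat.card (Tame.polesOf (K := IsLocalRing.ResidueField B) (G'.redF y)) ≤
          Red.cuspCount1 M ∧
        ∀ (δ : SL(2, ℤ)) (hδ : (M : ℤ) ∣ δ 1 0) (i : Fin n),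
          QRed.IsIntStable (A := B) (diaF1 δ hδ) (θ i)

/-- **`P5Stmt` ⇒ lead's `ESStmt`** (`LeadGlue/S48Dry`): S48 follows from `P5Stmt` alone. -/
theorem esStmt_of_p5Stmt (h : P5Stmt) (M : ℕ) [NeZero M] (h49 : 4 ∣ M ∨ 9 ∣ M) (p : ℕ)
    [Fact p.Prime] [NeZero p] (hpM : ¬ p ∣ M) (B : ValuationSubring Qb)
    (hB : B.LiesOverPrime p) : Gal.ESDataAt M p B := by
  obtain ⟨G', y, n, θ, hy, hθ, hcompat, hfr, hsep, hc, hst⟩ := h M h49 p hpM B hB
  haveI := hsep
  exact esDataAt_of_p5 h49 hB hpM G' hcompat hy hθ hfr hc hst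

end Fermat.Agent.S48lib.X1.ES.Dry
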