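/-
S48lib / X1 / ES / FrameStable  (helper7)

**The frame of the Igusa step has `B`-integral diamond translates** — the last clause (`hst`) of
`ES.esDataAt_of_p5`, for the frame `I.frameFam θ₁ = (θ₁ i · τ^j)` of an inert input
`I : InertInput G₁ (FB1 M) Fk'` over `ℚ̄(j) = FBar 1` with generator `I.t = τ_(0,b)`:

* `diaF1_of_mem_adjoin`, `diaF1_inclF1` : the diamond fixes `ℚ̄(j)`;
* `isIntStable_inclF1` : integral elements of `ℚ̄(j)` are `IsIntStable`;
* `isIntStable_frameFam_F1` : `θ₁ i` integral, `I.t = τ_(0,b)` ⇒ every `I.frameFam θ₁ m` is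
  `IsIntStable` under every diamond;
* `esDataAt_of_inert` : **P5-output (`InertInput` + `SeriesCompat` + separability + pole bound) ⇒
  `Gal.ESDataAt M p B`**, in the binder shape of helper4's `Red.exists_qRed_FRes1_of_inert`.
-/
import Mathlib
import Fermat.Agent.S48lib.X1.ES.StmtDry
import Fermat.Agent.S48lib.X1.HeckeJ.DiaInt
import Fermat.Agent.S48lib.X1.Igusa.Inert
import Fermat.Agent.S18lib.Weak.InertFrame

set_option autoImplicit false
set_option linter.unusedSectionVars false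
set_option linter.style.haveILetI false

noncomputable section

namespace Fermat.Agent.S48lib.X1.ES.Dry

open AlgebraicCurve ModularCurve IntermediateField
open Fermat.Agent.S18lib Fermat.Agent.S48lib.X1.HeckeJ Fermat.Agent.S48lib.X1.Igusa
open Fermat.Agent.S48lib.X1.ES
open Fermat.Agent.ProgramR Fermat.Agent.ProgramR.BarField
open scoped MatrixGroups

local notation "Qb" => AlgebraicClosure ℚ

variable {M : ℕ} [NeZero M]

attribute [local instance] Igusa.algebraF1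

/-! ### the diamond fixes `ℚ̄(j)` -/

theorem jB_eq_jBq : jB Qb (jq_mem_F1 M) = jBq (F1 M) (jq_mem_F1 M) := Subtype.ext rfl

/-- the diamond fixes `ℚ̄(j) ⊆ FBar₁(M)` -/
theorem diaF1_of_mem_adjoin (δ : SL(2, ℤ)) (hδ : (M : ℤ) ∣ δ 1 0) {z : FB1 M}
    (hz : z ∈ Qb⟮jB Qb (jq_mem_F1 M)⟯) : diaF1 δ hδ z = z := by
  induction hz using IntermediateField.adjoin_induction with
  | mem x hx =>
    rw [Set.mem_singleton_iff] at hx
    subst hx
    rw [jB_eq_jBq]
    exact diaF1_jBq δ hδ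
  | algebraMap c => exact (diaF1 δ hδ).commutes c
  | add x y _ _ hx hy => rw [map_add, hx, hy]
  | inv x _ hx => rw [map_inv₀, hx]
  | mul x y _ _ hx hy => rw [map_mul, hx, hy]

/-- the diamond fixes the image of `FBar 1 = ℚ̄(j)` -/
theorem diaF1_inclF1 (δ : SL(2, ℤ)) (hδ : (M : ℤ) ∣ δ 1 0) (y : FBar 1) :
    diaF1 δ hδ (inclF1 M y) = inclF1 M y :=
  diaF1_of_mem_adjoin δ hδ (inclF1_mem_adjoin M y)

variable {B : ValuationSubring Qb} {p : ℕ} [Fact p.Prime]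

local notation "kB" => IsLocalRing.ResidueField B

/-- `B`-integral elements of `ℚ̄(j)` have `B`-integral diamond translates -/
theorem isIntStable_inclF1 (δ : SL(2, ℤ)) (hδ : (M : ℤ) ∣ δ 1 0) {y : FBar 1}
    (hy : inclF1 M y ∈ Equiv.intSubring B (F1 M)) :
    QRed.IsIntStable (A := B) (diaF1 δ hδ) (inclF1 M y) :=
  QRed.isIntStable_of_fixed (diaF1_inclF1 δ hδ y) (isInt_of_mem_intSubring hy)

section Inert

variable {Fk₁ : Type*} [Field Fk₁] [Algebra (IsLocalRing.ResidueField B) Fk₁]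
  {G₁ : GaussDatum B (FBar 1) Fk₁} {Fk' : Type*} [Field Fk'] [Algebra Fk₁ Fk']

/-- **the frame `(θ₁ i · τ^j)` of the Igusa step has `B`-integral diamond translates.** -/
theorem isIntStable_frameFam_F1 (hB : B.LiesOverPrime p) (hpM : ¬ p ∣ M)
    (I : InertInput G₁ (FB1 M) Fk') {b : ℤ} (hb : ¬ (M : ℤ) ∣ b) (ht : I.t = tauB hb)
    {n : ℕ} (θ₁ : Fin n → FBar 1)
    (hθ₁ : ∀ i, algebraMap (FBar 1) (FB1 M) (θ₁ i) ∈ Equiv.intSubring B (F1 M))
    (δ : SL(2, ℤ)) (hδ : (M : ℤ) ∣ δ 1 0) (m : Fin (n * I.d)) :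
    QRed.IsIntStable (A := B) (diaF1 δ hδ) (I.frameFam θ₁ m) := by
  show QRed.IsIntStable (A := B) (diaF1 δ hδ)
    (algebraMap (FBar 1) (FB1 M) (θ₁ (finProdFinEquiv.symm m).1) *
      I.t ^ ((finProdFinEquiv.symm m).2 : ℕ))
  rw [ht]
  exact (isIntStable_inclF1 δ hδ (hθ₁ _)).mul (isIntStable_tauB_pow δ hδ hB hpM hb _)

end Inert

/-! ### from the inert input to the Eichler–Shimura data -/

section Final

variable {Fk₁ : Type*} [Field Fk₁] [Algebra (IsLocalRing.ResidueField B) Fk₁]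
  [IsScalarTower Qb (FBar 1) (FBq (F1 M))]
  [Algebra Fk₁ ↥(FRes1 B M)] [IsScalarTower (IsLocalRing.ResidueField B) Fk₁ ↥(FRes1 B M)]
  {G₁ : GaussDatum B (FBar 1) Fk₁}

/-- **P5-output ⇒ Eichler–Shimura data at `(M, p, B)`** (binder shape of helper4's
`Red.exists_qRed_FRes1_of_inert`, plus `I.t = τ_(0,b)`). -/
theorem esDataAt_of_inert [NeZero p] (h49 : 4 ∣ M ∨ 9 ∣ M) (hB : B.LiesOverPrime p)
    (hpM : ¬ p ∣ M) (I : InertInput G₁ (FBq (F1 M)) ↥(FRes1 B M))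
    {y₁ : FBar 1} {n : ℕ} {θ₁ : Fin n → FBar 1} (h₁ : WFrame.IsFrameFamily G₁ y₁ θ₁)
    (hy₁ : ((algebraMap (FBar 1) (FBq (F1 M)) y₁ : FBq (F1 M)) : LaurentSeries Qb) = jqModC Qb)
    (hθ₁ : ∀ i, algebraMap (FBar 1) (FBq (F1 M)) (θ₁ i) ∈ Equiv.intSubring B (F1 M))
    {b : ℤ} (hb : ¬ (M : ℤ) ∣ b) (ht : I.t = tauB hb)
    (hcompat : SeriesCompat I.datum (Equiv.inclQ (F1 M)) (Equiv.inclK (FRes1 B M)))
    [Algebra.IsSeparable
      kB⟮I.datum.redF (algebraMap (FBar 1) (FBq (F1 M)) y₁)⟯ ↥(FRes1 B M)]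
    (hc : Nat.card (Tame.polesOf (K := kB)
      (I.datum.redF (algebraMap (FBar 1) (FBq (F1 M)) y₁))) ≤ Red.cuspCount1 M) :
    Gal.ESDataAt M p B := by
  have htint : I.t ∈ Equiv.intSubring B (F1 M) := by
    rw [ht]
    exact mem_intSubring_of_isInt (isInt_tauB hB hpM hb)
  exact esDataAt_of_p5 h49 hB hpM I.datum hcompat hy₁
    (Equiv.frameFam_mem_intSubring I θ₁ hθ₁ htint) (I.isFrameFamily h₁) hc
    (fun δ hδ m => isIntStable_frameFam_F1 hB hpM I hb ht θ₁ hθ₁ δ hδ m)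

end Final

end Fermat.Agent.S48lib.X1.ES.Dry
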