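/-
S48lib / X1 / ES / FinalDry  (helper7)

**`esStmt` : the Eichler–Shimura data of `F₁(M)` at every `B ∣ p ∤ M`, for `4 ∣ M` or `9 ∣ M`,
UNCONDITIONALLY** (= lead's `LeadGlue.ESStmt`): the final assembly of

* P5 : helper3's `inertF1`, `seriesCompat_inertF1`, `separable_minpoly_inertF1_tk`
  (`IgusaInst/InertF1`);
* (hM) : helper1's `Red.card_polesOf_le_cuspCount1` (`Red/PoleInstF1`);
* P6 : helper4's `Red.exists_qRed_F1_of_inertInput_of_pole` (`Red/QRedInert`);
* P7 : `ES.Dry.esDataAt_of_qRed` (`ES/StmtDry`) with `ES.Dry.isIntStable_frameFam_F1`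
  (`ES/FrameStable`).
-/
import Mathlib
import Fermat.Agent.S48lib.X1.ES.FrameStable
import Fermat.Agent.S48lib.X1.Red.QRedInert
import Fermat.Agent.S48lib.X1.Red.PoleInstF1
import Fermat.Agent.S48lib.X1.IgusaInst.InertF1

set_option autoImplicit false
set_option linter.unusedSectionVars false
set_option linter.style.haveILetI false

noncomputable section

namespace Fermat.Agent.S48lib.X1.ES.Dry

open AlgebraicCurve ModularCurve IntermediateField
open Fermat.Agent.S18lib Fermat.Agent.S48lib.X1.HeckeJ Fermat.Agent.S48lib.X1.Igusa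
open Fermat.Agent.S48lib.X1.ES
open Fermat.Agent.ProgramR Fermat.Agent.ProgramR.BarField
open scoped MatrixGroups

local notation "Qb" => AlgebraicClosure ℚ

attribute [local instance] Igusa.algebraF1 Igusa.isScalarTower_F1 algebraRes1

/-- **the Eichler–Shimura data of `F₁(M)` at every place over `p ∤ M`** (`4 ∣ M` or `9 ∣ M`). -/
theorem esStmt (M : ℕ) [NeZero M] (h49 : 4 ∣ M ∨ 9 ∣ M) (p : ℕ) [Fact p.Prime] [NeZero p]
    (hpM : ¬ p ∣ M) (B : ValuationSubring Qb) (hB : B.LiesOverPrime p) :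
    Gal.ESDataAt M p B := by
  have hM : 1 < M := lt_of_lt_of_le (by norm_num) (Red.four_le_of_dvd h49)
  haveI := isScalarTower_Res1 B M
  have ht : (inertF1 hB hpM hM).t = tauB (M := M) (not_dvd_one hM) := Subtype.ext rfl
  obtain ⟨C, hC, -, hfr⟩ := Red.exists_qRed_F1_of_inertInput_of_pole hB hpM h49
    (inertF1 hB hpM hM) (Red.tauBar_mem_intSubring hB hpM hM) (seriesCompat_inertF1 hB hpM hM)
    (separable_minpoly_inertF1_tk hB hpM hM)
    (fun x hx => Red.card_polesOf_le_cuspCount1 B hB hpM hM hx)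
  refine esDataAt_of_qRed hM hB hpM C Red.coe_algebraMap_jF_one hfr (fun δ hδ m => ?_)
  exact isIntStable_frameFam_F1 hB hpM (inertF1 hB hpM hM) (not_dvd_one hM) ht _
    (fun i => Red.algebraMap_elemL_mem_intSubring _) δ hδ m

end Fermat.Agent.S48lib.X1.ES.Dry
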