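/-
S48lib / X1 / ES / Adapter  (helper7)

Adapters between lead's `ESData` (block P7) and helper6's standard Hecke correspondence /
diamond on `Pic⁰` (block P4), so that `ESData.frobenius_relation` is literally the relation
consumed by helper9's `ESNative`:

* `ESData.α_eq_alphaBar`, `ESData.β_eq_betaBar` : for `E : ESData A p F₀ (levelP F₀ p) Fk` the maps
  `E.α`, `E.β` ARE `alphaBar`, `betaBar` (they are determined by `coe_α`, `coe_β`);
* `ESData.TJ_eq_TJstd` : `E.TJ = TJstd h p`;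
* `ESData.diaS_eq_diaJ` : `E.dia = diaF1 δ hδ → E.diaS = diaJ δ hδ`;
* `ESData.frobenius_relation_std`, `ESData.frobenius_relation_F1` : the Frobenius relation in the
  standard form `σ • σ • (diaJ δ hδ • x) - TJstd isQModel_F1 p (σ • x) + p • x = 0`.
-/
import Mathlib
import Fermat.Agent.S48lib.X1.ES.Main
import Fermat.Agent.S48lib.X1.HeckeJ.DiamondPic
import Fermat.Agent.S48lib.X1.Field.QModelInst

set_option autoImplicit false
set_option linter.unusedSectionVars false
set_option linter.style.haveILetI false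

noncomputable section

namespace Fermat.Agent.S48lib.X1.ES

open AlgebraicCurve ModularCurve Fermat.Agent.S48lib.X1.HeckeJ
open scoped MatrixGroups

local notation "Qb" => AlgebraicClosure ℚ

/-- congruence for `Pic0.correspondence` in the two maps (all other arguments are proofs) -/
theorem pic0_correspondence_congr {K F F' : Type*} [Field K] [Field F] [Field F'] [Algebra K F]
    [Algebra K F'] [HasPrincipalDivisors K F'] {φ φ' ψ ψ' : F →ₐ[K] F'} (hφφ : φ = φ')
    (hψψ : ψ = ψ') (hφ : φ.toRingHom.IsIntegral) (hψ : ψ.toRingHom.IsIntegral)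
    (hFI : FundamentalIdentityAlong K φ hφ) (hfin : FiniteAlong K ψ)
    (hN : NormFormulaAlong K ψ hfin) (hφ' : φ'.toRingHom.IsIntegral)
    (hψ' : ψ'.toRingHom.IsIntegral) (hFI' : FundamentalIdentityAlong K φ' hφ')
    (hfin' : FiniteAlong K ψ') (hN' : NormFormulaAlong K ψ' hfin') :
    Pic0.correspondence φ ψ hφ hψ hFI hfin hN = Pic0.correspondence φ' ψ' hφ' hψ' hFI' hfin' hN' := by
  subst hφφ
  subst hψψ
  rfl

namespace ESData

variable {A : ValuationSubring Qb} {p : ℕ} [Fact p.Prime] [NeZero p]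
  {F₀ : IntermediateField ℚ (LaurentSeries ℚ)}
  {Fk : IntermediateField (IsLocalRing.ResidueField A) (LaurentSeries (IsLocalRing.ResidueField A))}

/-- the map `α` of an `ESData` with target `levelP F₀ p` is helper6's `alphaBar` -/
theorem α_eq_alphaBar (E : ESData A p F₀ (levelP F₀ p) Fk) : E.α = alphaBar Qb F₀ p :=
  AlgHom.ext fun x => Subtype.ext ((E.coe_α x).trans (coe_alphaBar Qb F₀ p x).symm)

/-- the map `β` of an `ESData` with target `levelP F₀ p` is helper6's `betaBar` -/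
theorem β_eq_betaBar (E : ESData A p F₀ (levelP F₀ p) Fk) : E.β = betaBar Qb F₀ p :=
  AlgHom.ext fun x => Subtype.ext ((E.coe_β x).trans (coe_betaBar Qb F₀ p x).symm)

/-- **the Hecke correspondence of the data is the standard one** -/
theorem TJ_eq_TJstd (E : ESData A p F₀ (levelP F₀ p) Fk) (h : IsQModel F₀) :
    E.TJ = TJstd h p := by
  haveI := E.hP'
  exact pic0_correspondence_congr E.β_eq_betaBar E.α_eq_alphaBar _ _ _ _ _ _ _ _ _ _

/-- the Frobenius relation with the standard Hecke correspondence -/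
theorem frobenius_relation_std (E : ESData A p F₀ (levelP F₀ p) Fk) (h : IsQModel F₀) (t : ℕ)
    (ht : (t : IsLocalRing.ResidueField A) ≠ 0) (σ : Qb ≃ₐ[ℚ] Qb) (hσ : A.IsFrobeniusAt σ p)
    (x : Pic0 Qb ↥(laurentBaseChange Qb F₀)) (hx : ∃ n : ℕ, t ^ n • x = 0) :
    σ • σ • (E.diaS • x) - TJstd h p (σ • x) + p • x = 0 := by
  rw [← E.TJ_eq_TJstd h]
  exact E.frobenius_relation t ht σ hσ x hx

section F1

variable {M : ℕ} [NeZero M]
  {F₀' : IntermediateField ℚ (LaurentSeries ℚ)}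

/-- the diamond of the data as a semilinear automorphism is helper6's `diaJ` -/
theorem diaS_eq_diaJ (E : ESData A p (F1 M) F₀' Fk) (δ : SL(2, ℤ)) (hδ : (M : ℤ) ∣ δ 1 0)
    (hd : E.dia = diaF1 δ hδ) : E.diaS = diaJ δ hδ := by
  unfold diaS diaJ
  rw [hd]

/-- **the Frobenius relation for `F₁(M)` in helper9's `ESNative` shape** -/
theorem frobenius_relation_F1 (E : ESData A p (F1 M) (levelP (F1 M) p) Fk) (δ : SL(2, ℤ))
    (hδ : (M : ℤ) ∣ δ 1 0) (hd : E.dia = diaF1 δ hδ) (t : ℕ)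
    (ht : (t : IsLocalRing.ResidueField A) ≠ 0) (σ : Qb ≃ₐ[ℚ] Qb) (hσ : A.IsFrobeniusAt σ p)
    (x : Pic0 Qb ↥(laurentBaseChange Qb (F1 M))) (hx : ∃ n : ℕ, t ^ n • x = 0) :
    σ • σ • (diaJ δ hδ • x) - TJstd isQModel_F1 p (σ • x) + p • x = 0 := by
  rw [← E.diaS_eq_diaJ δ hδ hd]
  exact E.frobenius_relation_std isQModel_F1 t ht σ hσ x hx

/-- inertia is trivial on the `ℓ`-torsion, `ℓ ≠ p` prime (the `unram` field of `ESNative`) -/
theorem inertia_trivial_torsion (E : ESData A p (F1 M) F₀' Fk) (ℓ : ℕ) (hℓ : ℓ.Prime)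
    (hℓp : ℓ ≠ p) (σ : Qb ≃ₐ[ℚ] Qb) (hσ : σ ∈ A.inertiaSubgroupIn ℚ)
    (x : Pic0 Qb ↥(laurentBaseChange Qb (F1 M))) (hx : ℓ • x = 0) : σ • x = x := by
  haveI := E.charP_kA
  refine E.inertia_trivial ℓ ?_ σ hσ x ⟨1, by simpa using hx⟩
  rw [Ne, CharP.cast_eq_zero_iff (IsLocalRing.ResidueField A) p ℓ]
  intro hdvd
  exact hℓp ((Nat.prime_dvd_prime_iff_eq (Fact.out : p.Prime) hℓ).1 hdvd).symm

end F1

end ESData

end Fermat.Agent.S48lib.X1.ES
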