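/-
S48lib / X1 / ES / DiaRed  (helper9)

**Reduction of an automorphism fixing the frame variable** (generic half of block P7, item (7)).

Part 1 (generic Gauss datum `G` on `F`, frame `(y; θ)`):
* `frame_exists_integral_repr` : every `x ∈ G.O` is `x · q(y) = Σ p_i(y) θ_i` with `q, p_i ∈ A[X]`,
  `q(y)` a unit of `G.O`;
* `frame_exists_gen_repr` : every `f ≠ 0` is `c · f · q(y) = Σ p_i(y) θ_i` with `c ∈ L^×`, `q, p_i ∈ A[X]`
  and both sides of nonzero reduction;
* `map_mem_O_of_frame` : an `L`-algebra endomorphism `e` of `F` with `e y = y`, `e θ_i ∈ G.O` preserves `G.O`;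
* `redAut` : an `L`-algebra automorphism `e` with `e x ∈ G.O ↔ x ∈ G.O` induces `redAut : Fk ≃ₐ[k] Fk`,
  `redAut (red x) = red (e x)`.
-/
import Mathlib
import Fermat.Agent.S18lib.Weak.IntegralRed

set_option autoImplicit false
set_option linter.unusedSectionVars false
set_option linter.style.haveILetI false

noncomputable section

namespace Fermat.Agent.S48lib.X1.ES

open Polynomial Fermat.Agent.S18lib

section Generic

variable {L : Type*} [Field L] {A : ValuationSubring L}
variable {F : Type*} [Field F] [Algebra L F]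
variable {Fk : Type*} [Field Fk] [Algebra (IsLocalRing.ResidueField A) Fk]
variable (G : GaussDatum A F Fk)

local notation "k" => IsLocalRing.ResidueField A

/-- a polynomial with coefficients in `A` evaluated at an element of `G.O` lies in `G.O`. -/
theorem aeval_mem_O_of_coeff_mem {y : F} (hy : y ∈ G.O) (q : L[X]) (hq : ∀ a, q.coeff a ∈ A) :
    aeval y q ∈ G.O := by
  rw [aeval_eq_sum_range]
  refine G.O.toSubring.sum_mem fun a _ => ?_
  rw [Algebra.smul_def]
  exact G.smul_mem ⟨q.coeff a, hq a⟩ (G.O.pow_mem hy a)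

/-- an element of `G.O` whose inverse lies in `G.O` has nonzero reduction. -/
theorem redF_ne_zero_of_inv_mem {x : F} (hx0 : x ≠ 0) (hx : x ∈ G.O) (hx' : x⁻¹ ∈ G.O) :
    G.redF x ≠ 0 := by
  rw [G.redF_ne_zero_iff]
  refine ⟨⟨⟨x, hx⟩, ⟨x⁻¹, hx'⟩, ?_, ?_⟩, rfl⟩
  · exact Subtype.ext (mul_inv_cancel₀ hx0)
  · exact Subtype.ext (inv_mul_cancel₀ hx0)

variable {G} {y : F} {n : ℕ} {θ : Fin n → F} (hfr : WFrame.IsFrameFamily G y θ)

include hfr

/-- a polynomial in `y` lying in `G.O` has coefficients in `A`. -/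
theorem frame_coeff_mem_of_aeval_mem (q : L[X]) (hq : aeval y q ∈ G.O) (a : ℕ) :
    q.coeff a ∈ A := by
  classical
  let i₀ : Fin n := ⟨0, hfr.n_pos⟩
  have hsum : ∑ i, aeval y ((fun i => if i = i₀ then q else 0) i) * θ i ∈ G.O := by
    rw [Finset.sum_eq_single i₀]
    · simp only [if_true]
      exact G.O.mul_mem _ _ hq (hfr.θ_mem i₀)
    · intro i _ hi
      simp [hi]
    · intro hi
      exact absurd (Finset.mem_univ _) hi
  have := hfr.coeff_mem_of_sum_aeval_mem (fun i => if i = i₀ then q else 0) hsum i₀ a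
  simpa using this

/-- **integral representation in a frame**: every `x ∈ G.O` is `x · q(y) = Σ p_i(y) θ_i` with
`q, p_i ∈ A[X]` and `q(y)` of nonzero reduction. -/
theorem frame_exists_integral_repr (x : F) (hx : x ∈ G.O) :
    ∃ (q : L[X]) (p : Fin n → L[X]), (∀ a, q.coeff a ∈ A) ∧ (∀ i a, (p i).coeff a ∈ A) ∧
      G.redF (aeval y q) ≠ 0 ∧ x * aeval y q = ∑ i, aeval y (p i) * θ i := by
  obtain ⟨q, p, hq, hxq⟩ := hfr.exists_repr x
  obtain ⟨c', hc', hcd⟩ := G.exists_const_mul_redF_ne_zero (hfr.aeval_ne_zero hq)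
  have hd : aeval y (C c' * q) = algebraMap L F c' * aeval y q := by
    rw [map_mul, aeval_C]
  have hdne : G.redF (aeval y (C c' * q)) ≠ 0 := by rw [hd]; exact hcd
  have hdO : aeval y (C c' * q) ∈ G.O := G.mem_of_redF_ne_zero hdne
  have hxq' : x * aeval y (C c' * q) = ∑ i, aeval y (C c' * p i) * θ i := by
    rw [hd, mul_left_comm, hxq, Finset.mul_sum]
    refine Finset.sum_congr rfl fun i _ => ?_
    rw [map_mul, aeval_C, mul_assoc]
  have hsum : ∑ i, aeval y (C c' * p i) * θ i ∈ G.O := by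
    rw [← hxq']; exact G.O.mul_mem _ _ hx hdO
  exact ⟨C c' * q, fun i => C c' * p i, frame_coeff_mem_of_aeval_mem hfr _ hdO,
    fun i a => hfr.coeff_mem_of_sum_aeval_mem (fun i => C c' * p i) hsum i a, hdne, hxq'⟩

/-- **generation in a frame**: every `f ≠ 0` is `c · f · q(y) = Σ p_i(y) θ_i` with `c ∈ L^×`,
`q, p_i ∈ A[X]`, and both `q(y)` and the right hand side of nonzero reduction. -/
theorem frame_exists_gen_repr (f : F) (hf : f ≠ 0) :
    ∃ c : L, c ≠ 0 ∧ ∃ (q : L[X]) (p : Fin n → L[X]), (∀ a, q.coeff a ∈ A) ∧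
      (∀ i a, (p i).coeff a ∈ A) ∧ G.redF (aeval y q) ≠ 0 ∧
      G.redF (∑ i, aeval y (p i) * θ i) ≠ 0 ∧
      algebraMap L F c * f * aeval y q = ∑ i, aeval y (p i) * θ i := by
  obtain ⟨c, hc, u, hu⟩ := G.exists_const_mul_isUnit f hf
  have hgO : algebraMap L F c * f ∈ G.O := by rw [hu]; exact (u : G.O).2
  have hgred : G.redF (algebraMap L F c * f) ≠ 0 := by
    rw [G.redF_of_mem hgO]
    have : (⟨algebraMap L F c * f, hgO⟩ : G.O) = (u : G.O) := Subtype.ext hu
    rw [this]
    exact G.red_unit_ne_zero u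
  obtain ⟨q, p, hq, hp, hqne, hrepr⟩ := frame_exists_integral_repr hfr _ hgO
  refine ⟨c, hc, q, p, hq, hp, hqne, ?_, hrepr⟩
  rw [← hrepr, G.redF_mul hgO (G.mem_of_redF_ne_zero hqne)]
  exact mul_ne_zero hgred hqne

/-- an `L`-algebra endomorphism fixing `y` and mapping the frame into `G.O` preserves `G.O`. -/
theorem map_mem_O_of_frame (e : F →ₐ[L] F) (hey : e y = y) (heθ : ∀ i, e (θ i) ∈ G.O)
    {x : F} (hx : x ∈ G.O) : e x ∈ G.O := by
  obtain ⟨q, p, hq, hp, hqne, hrepr⟩ := frame_exists_integral_repr hfr x hx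
  have hqO : aeval y q ∈ G.O := G.mem_of_redF_ne_zero hqne
  have heq : ∀ r : L[X], e (aeval y r) = aeval y r := fun r => by
    rw [← Polynomial.aeval_algHom_apply, hey]
  have h1 : e x * aeval y q = ∑ i, aeval y (p i) * e (θ i) := by
    have := congrArg e hrepr
    rw [map_mul, heq, map_sum] at this
    rw [this]
    refine Finset.sum_congr rfl fun i _ => ?_
    rw [map_mul, heq]
  have h2 : e x * aeval y q ∈ G.O := by
    rw [h1]
    refine G.O.toSubring.sum_mem fun i _ => ?_
    exact G.O.mul_mem _ _ (aeval_mem_O_of_coeff_mem G hfr.y_mem (p i) (hp i)) (heθ i)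
  have hq0 : aeval y q ≠ 0 := by
    intro h0
    rw [h0, G.redF_zero] at hqne
    exact hqne rfl
  have h3 : e x = e x * aeval y q * (aeval y q)⁻¹ := by
    rw [mul_assoc, mul_inv_cancel₀ hq0, mul_one]
  rw [h3]
  exact G.O.mul_mem _ _ h2 (G.inv_mem_of_redF_ne_zero hqne)

omit hfr

/-! ### the reduction of an automorphism preserving the Gauss ring -/

section RedAut

variable (G) (e : F ≃ₐ[L] F) (hO : ∀ x, e x ∈ G.O ↔ x ∈ G.O)

include hO

theorem symm_mem_O_iff (x : F) : e.symm x ∈ G.O ↔ x ∈ G.O := by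
  rw [← hO (e.symm x), e.apply_symm_apply]

/-- an automorphism preserving `G.O` preserves its maximal ideal. -/
theorem redF_map_eq_zero {x : F} (hx : x ∈ G.O) (h : G.redF x = 0) : G.redF (e x) = 0 := by
  by_contra hne
  have hinv : (e x)⁻¹ ∈ G.O := G.inv_mem_of_redF_ne_zero hne
  have hx0 : x ≠ 0 := by
    rintro rfl
    rw [map_zero, G.redF_zero] at hne
    exact hne rfl
  have hinv' : x⁻¹ ∈ G.O := by
    rw [← hO, map_inv₀]
    exact hinv
  exact redF_ne_zero_of_inv_mem G hx0 hx hinv' h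

/-- the restriction of `e` to the Gauss ring -/
def restrictO : G.O →+* G.O where
  toFun x := ⟨e x, (hO x).2 x.2⟩
  map_one' := Subtype.ext (map_one e)
  map_mul' x y := Subtype.ext (map_mul e (x : F) (y : F))
  map_zero' := Subtype.ext (map_zero e)
  map_add' x y := Subtype.ext (map_add e (x : F) (y : F))

@[simp] theorem coe_restrictO (x : G.O) : ((restrictO G e hO x : G.O) : F) = e x := rfl

theorem ker_red_le : RingHom.ker G.red ≤ RingHom.ker (G.red.comp (restrictO G e hO)) := by
  intro x hx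
  rw [RingHom.mem_ker] at hx ⊢
  have h1 : G.redF (x : F) = 0 := by rw [G.redF_of_mem x.2]; exact hx
  have h2 := redF_map_eq_zero G e hO x.2 h1
  rw [G.redF_of_mem ((hO x).2 x.2)] at h2
  exact h2

/-- the ring endomorphism of the residue field induced by `e` -/
def redHomOf : Fk →+* Fk :=
  G.red.liftOfRightInverse (Function.surjInv G.red_surjective)
    (Function.rightInverse_surjInv G.red_surjective)
    ⟨G.red.comp (restrictO G e hO), ker_red_le G e hO⟩

theorem redHomOf_red (x : G.O) : redHomOf G e hO (G.red x) = G.red (restrictO G e hO x) :=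
  RingHom.liftOfRightInverse_comp_apply _ _ _ _ x

theorem redHomOf_redF {x : F} (hx : x ∈ G.O) : redHomOf G e hO (G.redF x) = G.redF (e x) := by
  rw [G.redF_of_mem hx, G.redF_of_mem ((hO x).2 hx), redHomOf_red]
  rfl

theorem redHomOf_comp_symm :
    (redHomOf G e hO).comp (redHomOf G e.symm (symm_mem_O_iff G e hO)) = RingHom.id Fk := by
  refine RingHom.ext fun z => ?_
  obtain ⟨x, rfl⟩ := G.red_surjective z
  have hx : (x : F) ∈ G.O := x.2
  have h0 : G.red x = G.redF (x : F) := (G.redF_of_mem hx).symm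
  rw [RingHom.comp_apply, RingHom.id_apply, h0,
    redHomOf_redF G e.symm (symm_mem_O_iff G e hO) hx,
    redHomOf_redF G e hO ((symm_mem_O_iff G e hO _).2 hx), e.apply_symm_apply]

theorem redHomOf_symm_comp :
    (redHomOf G e.symm (symm_mem_O_iff G e hO)).comp (redHomOf G e hO) = RingHom.id Fk := by
  refine RingHom.ext fun z => ?_
  obtain ⟨x, rfl⟩ := G.red_surjective z
  have hx : (x : F) ∈ G.O := x.2
  have h0 : G.red x = G.redF (x : F) := (G.redF_of_mem hx).symm
  rw [RingHom.comp_apply, RingHom.id_apply, h0, redHomOf_redF G e hO hx,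
    redHomOf_redF G e.symm (symm_mem_O_iff G e hO) ((hO _).2 hx), e.symm_apply_apply]

theorem redHomOf_algebraMap (c : k) :
    redHomOf G e hO (algebraMap k Fk c) = algebraMap k Fk c := by
  obtain ⟨a, rfl⟩ := IsLocalRing.residue_surjective c
  rw [← G.redF_algebraMap a, redHomOf_redF G e hO (G.algebraMap_mem a), e.commutes]

/-- **the reduction of an automorphism preserving the Gauss ring.** -/
def redAut : Fk ≃ₐ[k] Fk :=
  AlgEquiv.ofRingEquiv
    (f := RingEquiv.ofRingHom (redHomOf G e hO) (redHomOf G e.symm (symm_mem_O_iff G e hO))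
      (redHomOf_comp_symm G e hO) (redHomOf_symm_comp G e hO))
    (redHomOf_algebraMap G e hO)

theorem redAut_redF {x : F} (hx : x ∈ G.O) : redAut G e hO (G.redF x) = G.redF (e x) :=
  redHomOf_redF G e hO hx

end RedAut

end Generic

/-! ### two semilinear endomorphisms commute as soon as they do on generators -/

/-- two ring endomorphisms `ε`, `ρ` of a field extension `E / K`, `ε` being `K`-linear and `ρ`
semilinear over `ρ₀`, commute as soon as they do so on a generating set of `E / K`. -/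
theorem commute_of_adjoin_eq_top {K E : Type*} [Field K] [Field E] [Algebra K E]
    (ε ρ : E →+* E) (ρ₀ : K →+* K)
    (hε : ∀ c, ε (algebraMap K E c) = algebraMap K E c)
    (hρ : ∀ c, ρ (algebraMap K E c) = algebraMap K E (ρ₀ c))
    (Tk : Set E) (hgen : IntermediateField.adjoin K Tk = ⊤)
    (h : ∀ t ∈ Tk, ε (ρ t) = ρ (ε t)) (x : E) : ε (ρ x) = ρ (ε x) := by
  have key : ∀ x ∈ IntermediateField.adjoin K Tk, ε (ρ x) = ρ (ε x) := by
    intro x hx
    induction hx using IntermediateField.adjoin_induction with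
    | mem x hx => exact h x hx
    | algebraMap c => rw [hρ, hε, hε, hρ]
    | add x y _ _ hx hy => rw [map_add, map_add, hx, hy, map_add, map_add]
    | inv x _ hx => rw [map_inv₀, map_inv₀, hx, map_inv₀, map_inv₀]
    | mul x y _ _ hx hy => rw [map_mul, map_mul, hx, hy, map_mul, map_mul]
  exact key x (by rw [hgen]; exact IntermediateField.mem_top)

end Fermat.Agent.S48lib.X1.ES
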