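/-
S48lib / X1 / ES / DiaQRed  (helper9)

**The Eichler–Shimura data of a `q`-model from a reduction context, a frame and a diamond**
(generic half of block P7, item (7)).

Input: `C : QRed A F₀ Fk`, a frame `(j; θ)` of the Gauss datum of `C`, an automorphism `dia` of
`F = ℚ̄ F₀` over `ℚ̄(j)` and a set `T ⊆ F` of `A`-integral `q`-expansions, stable under `dia` and
`dia⁻¹`, containing the frame.  Output:
* `dia_mem_O_of` : `dia f ∈ O ↔ f ∈ O`;
* `εkOf : Fk ≃ₐ[k] Fk` with `εkOf_redF : εkOf (red f) = red (dia f)`;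
* `εk_res_of_gen` : `εk` commutes with the coefficientwise automorphisms as soon as it does on a
  generating set of `Fk / k`;
* `intRing`, `SOf` : the ring generated by `A`, `j`, `T` (integral expansions, `dia`-stable) and
  its elements of nonzero reduction, with `SOf_int`, `SOf_dia`, `SOf_gen`;
* `esDataOf` : the assembled `ESData A p F₀ (levelP F₀ p) Fk`, with `esDataOf_TJ = TJstd` and
  `esDataOf_dia = dia` by `rfl`.
-/
import Mathlib
import Fermat.Agent.S48lib.X1.ES.Main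
import Fermat.Agent.S48lib.X1.ES.DiaRed
import Fermat.Agent.S48lib.X1.HeckeJ.QModel

set_option autoImplicit false
set_option linter.unusedSectionVars false
set_option linter.style.haveILetI false

noncomputable section

namespace Fermat.Agent.S48lib.X1.ES

open AlgebraicCurve ModularCurve Polynomial Fermat.Agent.S18lib Fermat.Agent.S28lib
  Fermat.Agent.S37lib Fermat.Agent.S37lib.ES Fermat.Agent.S48lib.X1.HeckeJ

local notation "Qb" => AlgebraicClosure ℚ

variable {A : ValuationSubring Qb} {F₀ : IntermediateField ℚ (LaurentSeries ℚ)}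
  {Fk : IntermediateField (IsLocalRing.ResidueField A) (LaurentSeries (IsLocalRing.ResidueField A))}

local notation "kA" => IsLocalRing.ResidueField A

/-- `x ∈ F` has an `A`-integral `q`-expansion -/
def IsIntSeries (x : (FBq F₀)) : Prop := ∃ s : LaurentSeries A, V.toL A s = (x : LaurentSeries Qb)

variable (A F₀) in
/-- the subring of `F` of elements with `A`-integral `q`-expansion -/
def intSeriesSubring : Subring (FBq F₀) :=
  (V.toL A).range.comap (laurentBaseChange Qb F₀).val.toRingHom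

theorem mem_intSeriesSubring {x : (FBq F₀)} : x ∈ intSeriesSubring A F₀ ↔ IsIntSeries (A := A) x :=
  Iff.rfl

theorem isIntSeries_algebraMap (a : A) : IsIntSeries (A := A) (algebraMap Qb (FBq F₀) (a : Qb)) :=
  ⟨V.constA A a, V.toL_constA a⟩

namespace QRed

variable (C : QRed A F₀ Fk)

theorem isIntSeries_jF : IsIntSeries (A := A) C.jF := ⟨jqModC A, toL_jqModC⟩

theorem mem_O_of_isIntSeries {x : (FBq F₀)} (hx : IsIntSeries (A := A) x) : x ∈ C.D.O := by
  obtain ⟨s, hs⟩ := hx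
  have hmem : V.toL A s ∈ laurentBaseChange Qb F₀ := by rw [hs]; exact x.2
  have : x = elemL s hmem := Subtype.ext hs.symm
  rw [this]
  exact C.elemL_mem_O s hmem

theorem exists_elemL_of_isIntSeries {x : (FBq F₀)} (hx : IsIntSeries (A := A) x)
    (hred : C.D.redF x ≠ 0) :
    ∃ (a : LaurentSeries A) (ha : V.toL A a ∈ laurentBaseChange Qb F₀),
      V.toK A a ≠ 0 ∧ x = elemL a ha := by
  obtain ⟨s, hs⟩ := hx
  have hmem : V.toL A s ∈ laurentBaseChange Qb F₀ := by rw [hs]; exact x.2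
  have hxe : x = elemL s hmem := Subtype.ext hs.symm
  refine ⟨s, hmem, ?_, hxe⟩
  intro h0
  apply hred
  rw [hxe]
  apply Subtype.ext
  rw [C.coe_redF_elemL, h0]
  rfl

end QRed

/-! ### the diamond preserves the Gauss ring -/

section Dia

variable (C : QRed A F₀ Fk) {n : ℕ} {θ : Fin n → (FBq F₀)}
  (hfr : WFrame.IsFrameFamily C.D.toGaussDatum C.jF θ)
  (dia : (FBq F₀) ≃ₐ[Qb] (FBq F₀)) (hdj : dia C.jF = C.jF)
  (T : Set (FBq F₀)) (hT_int : ∀ t ∈ T, IsIntSeries (A := A) t)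
  (hT_dia : ∀ t ∈ T, dia t ∈ T) (hT_sym : ∀ t ∈ T, dia.symm t ∈ T) (hθT : ∀ i, θ i ∈ T)

include hfr hdj hT_int hT_dia hT_sym hθT

/-- **the diamond preserves the Gauss ring.** -/
theorem dia_mem_O_of (f : (FBq F₀)) : dia f ∈ C.D.O ↔ f ∈ C.D.O := by
  have hsj : dia.symm C.jF = C.jF := by
    rw [AlgEquiv.symm_apply_eq, hdj]
  constructor
  · intro h
    have := map_mem_O_of_frame hfr (dia.symm : (FBq F₀) →ₐ[Qb] (FBq F₀)) hsj
      (fun i => C.mem_O_of_isIntSeries (hT_int _ (hT_sym _ (hθT i)))) h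
    simpa using this
  · intro h
    exact map_mem_O_of_frame hfr (dia : (FBq F₀) →ₐ[Qb] (FBq F₀)) hdj
      (fun i => C.mem_O_of_isIntSeries (hT_int _ (hT_dia _ (hθT i)))) h

/-- the reduction of the diamond -/
def εkOf : ↥Fk ≃ₐ[kA] ↥Fk :=
  redAut C.D.toGaussDatum dia (dia_mem_O_of C hfr dia hdj T hT_int hT_dia hT_sym hθT)

theorem εkOf_redF {f : (FBq F₀)} (hf : f ∈ C.D.O) :
    εkOf C hfr dia hdj T hT_int hT_dia hT_sym hθT (C.D.redF f) = C.D.redF (dia f) :=
  redAut_redF C.D.toGaussDatum dia _ hf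

omit hfr hdj hT_int hT_dia hT_sym hθT

/-! ### the ring of integral elements generated by `A`, `j`, `T` -/

/-- the subring of `F` generated by `A`, `j` and `T` -/
def intRing : Subring (FBq F₀) :=
  Subring.closure ((Set.range fun a : A => algebraMap Qb (FBq F₀) (a : Qb)) ∪ {C.jF} ∪ T)

theorem algebraMap_mem_intRing (a : A) : algebraMap Qb (FBq F₀) (a : Qb) ∈ intRing C T :=
  Subring.subset_closure (Or.inl (Or.inl ⟨a, rfl⟩))

theorem jF_mem_intRing : C.jF ∈ intRing C T :=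
  Subring.subset_closure (Or.inl (Or.inr rfl))

theorem mem_intRing_of_mem {t : (FBq F₀)} (ht : t ∈ T) : t ∈ intRing C T :=
  Subring.subset_closure (Or.inr ht)

include hT_int in
theorem isIntSeries_of_mem_intRing {x : (FBq F₀)} (hx : x ∈ intRing C T) : IsIntSeries (A := A) x := by
  have : intRing C T ≤ intSeriesSubring A F₀ := by
    refine Subring.closure_le.2 ?_
    rintro x ((⟨a, rfl⟩ | rfl) | hx)
    · exact isIntSeries_algebraMap (F₀ := F₀) a
    · exact C.isIntSeries_jF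
    · exact hT_int x hx
  exact this hx

include hdj hT_dia in
theorem dia_mem_intRing {x : (FBq F₀)} (hx : x ∈ intRing C T) : dia x ∈ intRing C T := by
  have : intRing C T ≤ (intRing C T).comap (dia : (FBq F₀) →+* (FBq F₀)) := by
    refine Subring.closure_le.2 ?_
    rintro x ((⟨a, rfl⟩ | rfl) | hx)
    · show dia (algebraMap Qb (FBq F₀) (a : Qb)) ∈ intRing C T
      rw [dia.commutes]
      exact algebraMap_mem_intRing C T a
    · show dia C.jF ∈ intRing C T
      rw [hdj]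
      exact jF_mem_intRing C T
    · exact mem_intRing_of_mem C T (hT_dia x hx)
  exact this hx

theorem aeval_jF_mem_intRing (q : Qb[X]) (hq : ∀ a, q.coeff a ∈ A) :
    aeval C.jF q ∈ intRing C T := by
  rw [aeval_eq_sum_range]
  refine Subring.sum_mem _ fun a _ => ?_
  rw [Algebra.smul_def]
  exact Subring.mul_mem _ (algebraMap_mem_intRing C T ⟨q.coeff a, hq a⟩)
    (Subring.pow_mem _ (jF_mem_intRing C T) a)

/-- the generating set of the Eichler–Shimura data -/
def SOf : Set (FBq F₀) := {f | f ∈ intRing C T ∧ C.D.redF f ≠ 0}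

include hT_int in
theorem SOf_int (f : (FBq F₀)) (hf : f ∈ SOf C T) :
    ∃ (a : LaurentSeries A) (ha : V.toL A a ∈ laurentBaseChange Qb F₀),
      V.toK A a ≠ 0 ∧ f = QRed.elemL a ha :=
  C.exists_elemL_of_isIntSeries (isIntSeries_of_mem_intRing C T hT_int hf.1) hf.2

include hfr hdj hT_int hT_dia hT_sym hθT in
theorem SOf_dia (f : (FBq F₀)) (hf : f ∈ SOf C T) : dia f ∈ SOf C T := by
  refine ⟨dia_mem_intRing C dia hdj T hT_dia hf.1, ?_⟩
  have hfO : f ∈ C.D.O := C.mem_O_of_isIntSeries (isIntSeries_of_mem_intRing C T hT_int hf.1)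
  rw [← εkOf_redF C hfr dia hdj T hT_int hT_dia hT_sym hθT hfO]
  exact (EmbeddingLike.map_ne_zero_iff).2 hf.2

include hfr hθT in
theorem SOf_gen (f : (FBq F₀)) (hf : f ≠ 0) : ∃ c : Qb, c ≠ 0 ∧ ∃ a ∈ SOf C T, ∃ b ∈ SOf C T,
    algebraMap Qb (FBq F₀) c * f * b = a := by
  obtain ⟨c, hc, q, p, hq, hp, hqne, hsne, hrepr⟩ := frame_exists_gen_repr hfr f hf
  refine ⟨c, hc, ∑ i, aeval C.jF (p i) * θ i, ⟨?_, hsne⟩, aeval C.jF q,
    ⟨aeval_jF_mem_intRing C T q hq, hqne⟩, hrepr⟩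
  refine Subring.sum_mem _ fun i _ => ?_
  exact Subring.mul_mem _ (aeval_jF_mem_intRing C T (p i) (hp i)) (mem_intRing_of_mem C T (hθT i))

end Dia

/-! ### commutation with the coefficientwise automorphisms, on generators -/

section Res

variable (C : QRed A F₀ Fk)

/-- an algebra automorphism of `Fk` commutes with the coefficientwise automorphisms of `k` as soon
as it does so on a generating set of `Fk / k`. -/
theorem εk_res_of_gen (εk : ↥Fk ≃ₐ[kA] ↥Fk) (Tk : Set ↥Fk)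
    (hgen : IntermediateField.adjoin kA Tk = ⊤)
    (h : ∀ (τ : RingAut kA), ∀ t ∈ Tk, εk (C.resAut τ • t) = C.resAut τ • εk t)
    (τ : RingAut kA) (x : ↥Fk) : εk (C.resAut τ • x) = C.resAut τ • εk x := by
  exact commute_of_adjoin_eq_top (K := kA) (E := ↥Fk) εk.toRingEquiv.toRingHom
    (C.resRingAut τ).toRingHom (τ : kA ≃+* kA).toRingHom (fun c => εk.commutes c)
    (fun c => C.resRingAut_algebraMap τ c) Tk hgen (fun t ht => h τ t ht) x

end Res

/-! ### the assembled Eichler–Shimura data -/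

section Assemble

variable {p : ℕ} [Fact p.Prime] [NeZero p]

/-- **the Eichler–Shimura data of a `q`-model** from a reduction context, a frame, a diamond
automorphism with a stable set of integral expansions containing the frame, commutation of the
reduced diamond with the coefficientwise automorphisms on generators, and the norm expansion. -/
def esDataOf (hA : A.LiesOverPrime p) (hq : IsQModel F₀) (C : QRed A F₀ Fk)
    {n : ℕ} {θ : Fin n → FBq F₀} (hfr : WFrame.IsFrameFamily C.D.toGaussDatum C.jF θ)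
    (dia : FBq F₀ ≃ₐ[Qb] FBq F₀) (hdj : dia C.jF = C.jF)
    (T : Set (FBq F₀)) (hT_int : ∀ t ∈ T, IsIntSeries (A := A) t)
    (hT_dia : ∀ t ∈ T, dia t ∈ T) (hT_sym : ∀ t ∈ T, dia.symm t ∈ T) (hθT : ∀ i, θ i ∈ T)
    (Tk : Set ↥Fk) (hgen : IntermediateField.adjoin kA Tk = ⊤)
    (hres : ∀ (τ : RingAut kA), ∀ t ∈ Tk,
      εkOf C hfr dia hdj T hT_int hT_dia hT_sym hθT (C.resAut τ • t) =
        C.resAut τ • εkOf C hfr dia hdj T hT_int hT_dia hT_sym hθT t)
    (ζ : Qbˣ) (hζ : IsPrimitiveRoot ζ p)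
    (hNE : ∀ f : FBq F₀,
      qExpand Qb p ((normAlong (alphaBar Qb F₀ p) (betaBar Qb F₀ p f) : FBq F₀) :
          LaurentSeries Qb) =
        qExpand Qb (p * p) (f : LaurentSeries Qb) *
          ∏ i ∈ Finset.range p, twist (ζ ^ i) ((dia f : FBq F₀) : LaurentSeries Qb)) :
    ESData A p F₀ (levelP F₀ p) Fk where
  hA := hA
  C := C
  α := alphaBar Qb F₀ p
  β := betaBar Qb F₀ p
  coe_α := coe_alphaBar Qb F₀ p
  coe_β := coe_betaBar Qb F₀ p
  hαi := alphaBar_isIntegral hq p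
  hβi := betaBar_isIntegral hq p
  hP' := (hq.levelP p).hasPrincipalDivisors
  hFI := fundamentalIdentityAlong_beta hq p
  hfin := finiteAlong_alpha hq p
  hN := normFormulaAlong_alpha hq p
  dia := dia
  dia_jF := hdj
  dia_mem_O := dia_mem_O_of C hfr dia hdj T hT_int hT_dia hT_sym hθT
  εk := εkOf C hfr dia hdj T hT_int hT_dia hT_sym hθT
  red_dia := fun _ hf => (εkOf_redF C hfr dia hdj T hT_int hT_dia hT_sym hθT hf).symm
  εk_res := εk_res_of_gen C _ Tk hgen hres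
  S := SOf C T
  S_int := SOf_int C T hT_int
  S_dia := SOf_dia C hfr dia hdj T hT_int hT_dia hT_sym hθT
  S_gen := SOf_gen C hfr T hθT
  ζ := ζ
  hζ := hζ
  hNE := hNE

@[simp] theorem esDataOf_dia (hA : A.LiesOverPrime p) (hq : IsQModel F₀) (C : QRed A F₀ Fk)
    {n : ℕ} {θ : Fin n → FBq F₀} (hfr : WFrame.IsFrameFamily C.D.toGaussDatum C.jF θ)
    (dia : FBq F₀ ≃ₐ[Qb] FBq F₀) (hdj : dia C.jF = C.jF)
    (T : Set (FBq F₀)) (hT_int : ∀ t ∈ T, IsIntSeries (A := A) t)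
    (hT_dia : ∀ t ∈ T, dia t ∈ T) (hT_sym : ∀ t ∈ T, dia.symm t ∈ T) (hθT : ∀ i, θ i ∈ T)
    (Tk : Set ↥Fk) (hgen : IntermediateField.adjoin kA Tk = ⊤)
    (hres : ∀ (τ : RingAut kA), ∀ t ∈ Tk,
      εkOf C hfr dia hdj T hT_int hT_dia hT_sym hθT (C.resAut τ • t) =
        C.resAut τ • εkOf C hfr dia hdj T hT_int hT_dia hT_sym hθT t)
    (ζ : Qbˣ) (hζ : IsPrimitiveRoot ζ p)
    (hNE : ∀ f : FBq F₀,
      qExpand Qb p ((normAlong (alphaBar Qb F₀ p) (betaBar Qb F₀ p f) : FBq F₀) :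
          LaurentSeries Qb) =
        qExpand Qb (p * p) (f : LaurentSeries Qb) *
          ∏ i ∈ Finset.range p, twist (ζ ^ i) ((dia f : FBq F₀) : LaurentSeries Qb)) :
    (esDataOf hA hq C hfr dia hdj T hT_int hT_dia hT_sym hθT Tk hgen hres ζ hζ hNE).dia = dia :=
  rfl

@[simp] theorem esDataOf_C (hA : A.LiesOverPrime p) (hq : IsQModel F₀) (C : QRed A F₀ Fk)
    {n : ℕ} {θ : Fin n → FBq F₀} (hfr : WFrame.IsFrameFamily C.D.toGaussDatum C.jF θ)
    (dia : FBq F₀ ≃ₐ[Qb] FBq F₀) (hdj : dia C.jF = C.jF)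
    (T : Set (FBq F₀)) (hT_int : ∀ t ∈ T, IsIntSeries (A := A) t)
    (hT_dia : ∀ t ∈ T, dia t ∈ T) (hT_sym : ∀ t ∈ T, dia.symm t ∈ T) (hθT : ∀ i, θ i ∈ T)
    (Tk : Set ↥Fk) (hgen : IntermediateField.adjoin kA Tk = ⊤)
    (hres : ∀ (τ : RingAut kA), ∀ t ∈ Tk,
      εkOf C hfr dia hdj T hT_int hT_dia hT_sym hθT (C.resAut τ • t) =
        C.resAut τ • εkOf C hfr dia hdj T hT_int hT_dia hT_sym hθT t)
    (ζ : Qbˣ) (hζ : IsPrimitiveRoot ζ p)
    (hNE : ∀ f : FBq F₀,
      qExpand Qb p ((normAlong (alphaBar Qb F₀ p) (betaBar Qb F₀ p f) : FBq F₀) :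
          LaurentSeries Qb) =
        qExpand Qb (p * p) (f : LaurentSeries Qb) *
          ∏ i ∈ Finset.range p, twist (ζ ^ i) ((dia f : FBq F₀) : LaurentSeries Qb)) :
    (esDataOf hA hq C hfr dia hdj T hT_int hT_dia hT_sym hθT Tk hgen hres ζ hζ hNE).C = C :=
  rfl

/-- the Hecke correspondence of the assembled data is the standard one `α_* β^*`. -/
theorem esDataOf_TJ (hA : A.LiesOverPrime p) (hq : IsQModel F₀) (C : QRed A F₀ Fk)
    {n : ℕ} {θ : Fin n → FBq F₀} (hfr : WFrame.IsFrameFamily C.D.toGaussDatum C.jF θ)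
    (dia : FBq F₀ ≃ₐ[Qb] FBq F₀) (hdj : dia C.jF = C.jF)
    (T : Set (FBq F₀)) (hT_int : ∀ t ∈ T, IsIntSeries (A := A) t)
    (hT_dia : ∀ t ∈ T, dia t ∈ T) (hT_sym : ∀ t ∈ T, dia.symm t ∈ T) (hθT : ∀ i, θ i ∈ T)
    (Tk : Set ↥Fk) (hgen : IntermediateField.adjoin kA Tk = ⊤)
    (hres : ∀ (τ : RingAut kA), ∀ t ∈ Tk,
      εkOf C hfr dia hdj T hT_int hT_dia hT_sym hθT (C.resAut τ • t) =
        C.resAut τ • εkOf C hfr dia hdj T hT_int hT_dia hT_sym hθT t)
    (ζ : Qbˣ) (hζ : IsPrimitiveRoot ζ p)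
    (hNE : ∀ f : FBq F₀,
      qExpand Qb p ((normAlong (alphaBar Qb F₀ p) (betaBar Qb F₀ p f) : FBq F₀) :
          LaurentSeries Qb) =
        qExpand Qb (p * p) (f : LaurentSeries Qb) *
          ∏ i ∈ Finset.range p, twist (ζ ^ i) ((dia f : FBq F₀) : LaurentSeries Qb)) :
    (esDataOf hA hq C hfr dia hdj T hT_int hT_dia hT_sym hθT Tk hgen hres ζ hζ hNE).TJ =
      TJstd hq p :=
  rfl

/-- the diamond of the assembled data, as a semilinear automorphism. -/
theorem esDataOf_diaS (hA : A.LiesOverPrime p) (hq : IsQModel F₀) (C : QRed A F₀ Fk)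
    {n : ℕ} {θ : Fin n → FBq F₀} (hfr : WFrame.IsFrameFamily C.D.toGaussDatum C.jF θ)
    (dia : FBq F₀ ≃ₐ[Qb] FBq F₀) (hdj : dia C.jF = C.jF)
    (T : Set (FBq F₀)) (hT_int : ∀ t ∈ T, IsIntSeries (A := A) t)
    (hT_dia : ∀ t ∈ T, dia t ∈ T) (hT_sym : ∀ t ∈ T, dia.symm t ∈ T) (hθT : ∀ i, θ i ∈ T)
    (Tk : Set ↥Fk) (hgen : IntermediateField.adjoin kA Tk = ⊤)
    (hres : ∀ (τ : RingAut kA), ∀ t ∈ Tk,
      εkOf C hfr dia hdj T hT_int hT_dia hT_sym hθT (C.resAut τ • t) =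
        C.resAut τ • εkOf C hfr dia hdj T hT_int hT_dia hT_sym hθT t)
    (ζ : Qbˣ) (hζ : IsPrimitiveRoot ζ p)
    (hNE : ∀ f : FBq F₀,
      qExpand Qb p ((normAlong (alphaBar Qb F₀ p) (betaBar Qb F₀ p f) : FBq F₀) :
          LaurentSeries Qb) =
        qExpand Qb (p * p) (f : LaurentSeries Qb) *
          ∏ i ∈ Finset.range p, twist (ζ ^ i) ((dia f : FBq F₀) : LaurentSeries Qb)) :
    (esDataOf hA hq C hfr dia hdj T hT_int hT_dia hT_sym hθT Tk hgen hres ζ hζ hNE).diaS =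
      AlgebraicCurve.SemilinearAut.ofAlgAut dia :=
  rfl

end Assemble

end Fermat.Agent.S48lib.X1.ES
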