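/-
S48lib / X1 / ES / InstF1  (helper9)

**Final assembly of block P7**: the Eichler–Shimura data for `F₁(M)` at a place `B` over `p ∤ M`
(`Gal.ESDataAt M p B`, helper1's shape) from a reduction context `C : QRed B (F1 M) (FRes1 B M)`
whose Gauss datum has a frame over `j` consisting of elements all of whose diamond translates
have `B`-integral `q`-expansions.

* `hasFrame_of_frame` (generic): lead's `QRed.HasFrame dia` from a `WFrame.IsFrameFamily` of
  `IsIntStable` elements (helper2's `Equiv.exists_base_repr_of_mem_O`);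
* `exists_delta_of_not_dvd` : `δ ∈ Γ₀(M)` with `p δ₁₁ ≡ 1 (mod M)`;
* `esDataAt_F1_of_frame` : `ESData.ofDia` fed with helper6's `diaF1`, `qExpand_norm_diaF1`, the
  `IsQModel` package, helper7's `epsk_res_FRes1`.
-/
import Mathlib
import Fermat.Agent.S48lib.X1.ES.Dia
import Fermat.Agent.S48lib.X1.ES.ResDia
import Fermat.Agent.S48lib.X1.Equiv.QRedOf
import Fermat.Agent.S48lib.X1.HeckeJ.DiaInt
import Fermat.Agent.S48lib.X1.Gal.UnramES

set_option autoImplicit false
set_option linter.unusedSectionVars false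
set_option linter.style.haveILetI false

noncomputable section

namespace Fermat.Agent.S48lib.X1.ES

open AlgebraicCurve ModularCurve Polynomial Fermat.Agent.S18lib Fermat.Agent.S28lib
  Fermat.Agent.S37lib Fermat.Agent.S37lib.ES Fermat.Agent.S48lib.X1.HeckeJ
  Fermat.Agent.S48lib.X1.Igusa

open scoped MatrixGroups

local notation "Qb" => AlgebraicClosure ℚ

/-! ### the frame hypothesis from a frame family -/

section Generic

variable {A : ValuationSubring Qb} {F₀ : IntermediateField ℚ (LaurentSeries ℚ)}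
  {Fk : IntermediateField (IsLocalRing.ResidueField A) (LaurentSeries (IsLocalRing.ResidueField A))}

theorem isInt_of_mem_intSubring {a : FBq F₀} (ha : a ∈ Equiv.intSubring A F₀) :
    QRed.IsInt (A := A) a := by
  obtain ⟨s, hs⟩ := ha
  have hmem : V.toL A s ∈ laurentBaseChange Qb F₀ := by rw [hs]; exact a.2
  exact ⟨s, hmem, Subtype.ext hs.symm⟩

/-- **lead's frame hypothesis** from a frame family over `j` consisting of elements all of whose
`dia`-translates are `A`-integral. -/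
theorem hasFrame_of_frame (C : QRed A F₀ Fk) (dia : FBq F₀ ≃ₐ[Qb] FBq F₀)
    (hdj : dia C.jF = C.jF) {n : ℕ} {θ : Fin n → FBq F₀}
    (hfr : WFrame.IsFrameFamily C.D.toGaussDatum C.jF θ)
    (hθ : ∀ i, QRed.IsIntStable (A := A) dia (θ i)) : C.HasFrame dia := by
  intro x hx
  obtain ⟨c, hxc, hc⟩ :=
    Equiv.exists_base_repr_of_mem_O C.D.toGaussDatum (y := C.jF) rfl hfr x hx
  refine ⟨n, c, θ, fun i => ?_, hθ, hxc⟩
  obtain ⟨a, b, ha, hb, hne, hcb, hφ⟩ := hc i
  have h := hφ (dia : FBq F₀ →ₐ[Qb] FBq F₀) hdj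
  exact ⟨a, b, isInt_of_mem_intSubring ha, isInt_of_mem_intSubring hb, h.1, h.2, hne, hcb⟩

end Generic

/-! ### the diamond `⟨p⟩⁻¹` -/

section Delta

variable {M : ℕ} [NeZero M] {p : ℕ} [Fact p.Prime]

/-- `δ ∈ Γ₀(M)` with `p δ₁₁ ≡ 1 (mod M)`. -/
theorem exists_delta_of_not_dvd (hpM : ¬ p ∣ M) :
    ∃ (δ : SL(2, ℤ)) (_ : (M : ℤ) ∣ δ 1 0), (M : ℤ) ∣ (p : ℤ) * δ 1 1 - 1 := by
  have hp : p.Prime := Fact.out
  have hcop : IsCoprime (p : ℤ) (M : ℤ) :=
    Nat.isCoprime_iff_coprime.2 ((Nat.Prime.coprime_iff_not_dvd hp).2 hpM)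
  obtain ⟨u, v, huv⟩ := hcop
  have hu : IsCoprime u (M : ℤ) := ⟨(p : ℤ), v, by linarith⟩
  obtain ⟨δ, h0, h1⟩ := exists_delta (M := M) hu
  refine ⟨δ, by rw [h0], ?_⟩
  rw [h1]
  exact ⟨-v, by linarith⟩

end Delta

/-! ### the Eichler–Shimura data for `F₁(M)` -/

section F1

variable {M : ℕ} [NeZero M] {p : ℕ} [Fact p.Prime] [NeZero p] {B : ValuationSubring Qb}

theorem exists_primitiveRoot_units (p : ℕ) [NeZero p] : ∃ ζ : Qbˣ, IsPrimitiveRoot ζ p := by
  obtain ⟨ζ, hζ⟩ := HasEnoughRootsOfUnity.exists_primitiveRoot Qb p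
  have hu : IsUnit ζ := hζ.isUnit (NeZero.ne p)
  refine ⟨hu.unit, ?_⟩
  rw [← IsPrimitiveRoot.coe_units_iff]
  exact hζ

/-- **the Eichler–Shimura data for `F₁(M)` at `B ∣ p`, `p ∤ M`**, from a reduction context whose
Gauss datum has a frame over `j` of elements with `B`-integral diamond translates. -/
theorem esDataAt_F1_of_frame (hM : 1 < M) (hpM : ¬ p ∣ M) (hB : B.LiesOverPrime p)
    (C : QRed B (F1 M) (FRes1 B M)) {n : ℕ} {θ : Fin n → FBq (F1 M)}
    (hfr : WFrame.IsFrameFamily C.D.toGaussDatum C.jF θ)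
    (hθ : ∀ (δ : SL(2, ℤ)) (hδ : (M : ℤ) ∣ δ 1 0) (i : Fin n),
      QRed.IsIntStable (A := B) (diaF1 δ hδ) (θ i)) :
    Gal.ESDataAt M p B := by
  obtain ⟨δ, hδ, hδp⟩ := exists_delta_of_not_dvd (M := M) hpM
  obtain ⟨ζ, hζ⟩ := exists_primitiveRoot_units p
  have hq : IsQModel (F1 M) := isQModel_F1
  have hdj : diaF1 δ hδ C.jF = C.jF := by
    rw [jF_eq_jBq C]
    exact diaF1_jBq δ hδ
  have hframe : C.HasFrame (diaF1 δ hδ) := hasFrame_of_frame C (diaF1 δ hδ) hdj hfr (hθ δ hδ)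
  refine ⟨FRes1 B M, ESData.ofDia hB C (alphaBar Qb (F1 M) p) (betaBar Qb (F1 M) p)
    (coe_alphaBar Qb (F1 M) p) (coe_betaBar Qb (F1 M) p) (alphaBar_isIntegral hq p)
    (betaBar_isIntegral hq p) (hq.levelP p).hasPrincipalDivisors
    (fundamentalIdentityAlong_beta hq p) (finiteAlong_alpha hq p) (normFormulaAlong_alpha hq p)
    (diaF1 δ hδ) hdj hframe ?_ ζ hζ ?_, δ, hδ, hδp, rfl⟩
  · intro τ x
    exact epsk_res_FRes1 C hB hpM δ hδ _
      (fun f hf => C.redF_dia (diaF1 δ hδ) (C.dia_mem_O_iff hframe) f hf) τ x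
  · intro f
    exact qExpand_norm_diaF1 hM hpM hδ (Or.inl hδp) f hζ

end F1

end Fermat.Agent.S48lib.X1.ES
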