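/-
S48lib / X1 / ES / FrameF1  (helper9)

The elements `c · τ_(0,1)^j`, `c ∈ ℚ̄(j) = FBar 1` with `B`-integral expansion, of the inert frame of
`X₁(M)` have `B`-integral diamond translates (`QRed.IsIntStable`): the diamonds fix `ℚ̄(j)` and permute
the `τ_(0,b)`.
-/
import Mathlib
import Fermat.Agent.S48lib.X1.ES.InstF1
import Fermat.Agent.S48lib.X1.Igusa.Inert

set_option autoImplicit false
set_option linter.unusedSectionVars false
set_option linter.style.haveILetI false

noncomputable section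

namespace Fermat.Agent.S48lib.X1.ES

open AlgebraicCurve ModularCurve Polynomial Fermat.Agent.S18lib Fermat.Agent.S28lib
  Fermat.Agent.S48lib.X1.HeckeJ Fermat.Agent.S48lib.X1.Igusa IntermediateField

open scoped MatrixGroups

local notation "Qb" => AlgebraicClosure ℚ

/-- an algebra automorphism fixing `y` fixes `K(y)` pointwise. -/
theorem algEquiv_apply_eq_of_mem_adjoin_simple {K E : Type*} [Field K] [Field E] [Algebra K E]
    (φ : E ≃ₐ[K] E) {y : E} (hy : φ y = y) {x : E} (hx : x ∈ K⟮y⟯) : φ x = x := by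
  induction hx using IntermediateField.adjoin_induction with
  | mem x hx => rw [Set.mem_singleton_iff.1 hx, hy]
  | algebraMap c => exact φ.commutes c
  | add x y _ _ hx hy => rw [map_add, hx, hy]
  | inv x _ hx => rw [map_inv₀, hx]
  | mul x y _ _ hx hy => rw [map_mul, hx, hy]

variable {M : ℕ} [NeZero M]

/-- the diamonds fix `ℚ̄(j) ⊆ FBar₁(M)` pointwise. -/
theorem diaF1_inclF1 (δ : SL(2, ℤ)) (hδ : (M : ℤ) ∣ δ 1 0) (x : FBar 1) :
    diaF1 δ hδ (inclF1 M x) = inclF1 M x := by
  refine algEquiv_apply_eq_of_mem_adjoin_simple (diaF1 δ hδ) ?_ (inclF1_mem_adjoin M x)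
  exact diaF1_jBq δ hδ

variable {p : ℕ} [Fact p.Prime] {B : ValuationSubring Qb}

theorem tauBar_eq_tauB (hM : 1 < M) : tauBar hM = tauB (not_dvd_one hM) := rfl

/-- **the inert frame of `X₁(M)` has `B`-integral diamond translates.** -/
theorem isIntStable_inclF1_mul_tauBar_pow (hB : B.LiesOverPrime p) (hpM : ¬ p ∣ M) (hM : 1 < M)
    (δ : SL(2, ℤ)) (hδ : (M : ℤ) ∣ δ 1 0) (x : FBar 1)
    (hx : QRed.IsInt (A := B) (inclF1 M x)) (j : ℕ) :
    QRed.IsIntStable (A := B) (diaF1 δ hδ) (inclF1 M x * tauBar hM ^ j) := by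
  refine QRed.IsIntStable.mul (QRed.isIntStable_of_fixed (diaF1_inclF1 δ hδ x) hx) ?_
  rw [tauBar_eq_tauB]
  exact isIntStable_tauB_pow δ hδ hB hpM (not_dvd_one hM) j

end Fermat.Agent.S48lib.X1.ES
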