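/-
S48lib / X1 / ES / Principal  (lead)

**Abstract (C2.1) with diamond operators**: the Eichler–Shimura defect
`Φ := g_* ∘ r_* ∘ T - (h_* + ℓ • δ_*) ∘ r_*  :  Div F →+ Div Fk`
(`T = ψ_* ∘ φ^*` a correspondence on `F`, `r` the place reduction of a `RedDatum`, `g, h, δ` semilinear
automorphisms of the residue function field: in the application `g` is the coefficientwise Frobenius
`Fr`, `h = Fr² ∘ ⟨p⟩⁻¹` and `δ = 1` (`X_μ`-model), or `h = Fr²`, `δ = ⟨p⟩` (`X_1`-model))
vanishes on principal divisors, provided the *norm congruence*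
`g • red (N_ψ (φ a)) = (δ • red a)^ℓ * h • red a` holds on a set `S` of elements with nonzero
reduction which generates `F^×` up to constants.  Port of `S37lib/ES/{Principal,SupportAid}`
(helper6), which is the case `h = g²`, `δ = 1`.
-/
import Mathlib
import Fermat.Agent.S37lib.ES.SupportAid

set_option autoImplicit false
set_option linter.unusedSectionVars false
set_option linter.style.haveILetI false

noncomputable section

namespace Fermat.Agent.S48lib.X1.ES

open AlgebraicCurve Fermat.Agent.S18lib Fermat.Agent.S37lib.ES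

section Defect

variable {L : Type*} [Field L] {A : ValuationSubring L}
variable {F : Type*} [Field F] [Algebra L F]
variable {Fk : Type*} [Field Fk] [Algebra (IsLocalRing.ResidueField A) Fk]
variable (D : RedDatum A F Fk)
variable {F' : Type*} [Field F'] [Algebra L F'] [HasPrincipalDivisors L F']
variable (φ ψ : F →ₐ[L] F') (hφ : φ.toRingHom.IsIntegral) (hψ : ψ.toRingHom.IsIntegral)
variable (g h δ : SemilinearAut (IsLocalRing.ResidueField A) Fk) (ℓ : ℕ)

local notation "k" => IsLocalRing.ResidueField A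

/-- **the Eichler–Shimura defect with diamonds** `g_* r_* T - (h_* + ℓ δ_*) r_*`. -/
def esDefectD : Divisor L F →+ Divisor k Fk :=
  ((smulDivHom g).comp ((Finsupp.mapDomain.addMonoidHom D.r).comp
      (Divisor.correspondence φ ψ hφ hψ))) -
    ((smulDivHom h + ℓ • smulDivHom δ).comp (Finsupp.mapDomain.addMonoidHom D.r))

theorem esDefectD_apply (E : Divisor L F) :
    esDefectD D φ ψ hφ hψ g h δ ℓ E =
      g • Finsupp.mapDomain D.r (Divisor.correspondence φ ψ hφ hψ E) -
        (h • Finsupp.mapDomain D.r E + ℓ • δ • Finsupp.mapDomain D.r E) := rfl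

theorem esDefectD_eq_zero_iff (E : Divisor L F) :
    esDefectD D φ ψ hφ hψ g h δ ℓ E = 0 ↔
      g • Finsupp.mapDomain D.r (Divisor.correspondence φ ψ hφ hψ E) =
        h • Finsupp.mapDomain D.r E + ℓ • δ • Finsupp.mapDomain D.r E := by
  rw [esDefectD_apply, sub_eq_zero]

/-- **support of the defect on a single place.** -/
theorem mem_support_esDefectD_single {P : Place L F} {Q : Place k Fk}
    (hQ : Q ∈ (esDefectD D φ ψ hφ hψ g h δ ℓ (Finsupp.single P 1)).support) :
    Q = δ • D.r P ∨ Q = h • D.r P ∨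
      ∃ W : Place L F', W.restrictAlong φ hφ = P ∧ Q = g • D.r (W.restrictAlong ψ hψ) := by
  classical
  by_contra hcon
  push Not at hcon
  obtain ⟨h1, h2, h3⟩ := hcon
  rw [Finsupp.mem_support_iff, esDefectD_apply, Finsupp.mapDomain_single,
    SemilinearAut.smul_single, SemilinearAut.smul_single, Finsupp.sub_apply, Finsupp.add_apply,
    Finsupp.smul_apply, Finsupp.single_apply, Finsupp.single_apply, if_neg (Ne.symm h2),
    if_neg (Ne.symm h1), smul_zero, add_zero, sub_zero, ← Finsupp.mem_support_iff] at hQ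
  obtain ⟨W, hW, hWQ⟩ :=
    exists_of_mem_support_smul_mapDomain_correspondence D φ ψ hφ hψ g hQ
  have hWP : W.restrictAlong φ hφ = P := Finset.mem_singleton.mp (Finsupp.support_single_subset hW)
  exact h3 W hWP hWQ

variable [HasPrincipalDivisors L F] [HasPrincipalDivisors (IsLocalRing.ResidueField A) Fk]

/-- the defect vanishes on `div a` as soon as the norm congruence holds for `a`. -/
theorem esDefectD_divOf (hfin : FiniteAlong L ψ) (hN : NormFormulaAlong L ψ hfin) {a : F}
    (ha : D.redF a ≠ 0)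
    (hcong : g • D.redF (normAlong ψ (φ a)) = (δ • D.redF a) ^ ℓ * h • D.redF a) :
    esDefectD D φ ψ hφ hψ g h δ ℓ (divOf (K := L) a) = 0 := by
  have ha0 : a ≠ 0 := by
    rintro rfl
    exact ha D.redF_zero
  have hgg : h • D.redF a ≠ 0 := by
    rw [Ne, smul_eq_zero_iff_eq]
    exact ha
  have hδ : δ • D.redF a ≠ 0 := by
    rw [Ne, smul_eq_zero_iff_eq]
    exact ha
  have hpow : (δ • D.redF a) ^ ℓ ≠ 0 := pow_ne_zero ℓ hδ
  have hN0 : D.redF (normAlong ψ (φ a)) ≠ 0 := by
    intro h0
    rw [h0, smul_zero] at hcong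
    exact mul_ne_zero hpow hgg hcong.symm
  rw [esDefectD_eq_zero_iff, correspondence_divOf φ ψ hφ hψ hfin hN ha0, D.mapDomain_divOf hN0,
    D.mapDomain_divOf ha, smul_divOf, smul_divOf, smul_divOf, hcong,
    divOf_mul hpow hgg, divOf_pow, add_comm]

/-- **(C2.1) with diamonds, abstract form.**  The defect vanishes on all principal divisors. -/
theorem esDefectD_principal (hfin : FiniteAlong L ψ) (hN : NormFormulaAlong L ψ hfin)
    (S : Set F)
    (hgen : ∀ f : F, f ≠ 0 → ∃ c : L, c ≠ 0 ∧ ∃ a ∈ S, ∃ b ∈ S, algebraMap L F c * f * b = a)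
    (hS : ∀ a ∈ S, D.redF a ≠ 0)
    (hcong : ∀ a ∈ S,
      g • D.redF (normAlong ψ (φ a)) = (δ • D.redF a) ^ ℓ * h • D.redF a)
    (f : F) (hf : f ≠ 0) (Df : Divisor L F) (hDf : ∀ P, Df P = P.ord f) :
    esDefectD D φ ψ hφ hψ g h δ ℓ Df = 0 := by
  obtain ⟨c, hc, a, haS, b, hbS, habc⟩ := hgen f hf
  have hb0 : b ≠ 0 := by
    rintro rfl
    exact hS _ hbS D.redF_zero
  have hcf : algebraMap L F c * f ≠ 0 := mul_ne_zero ((map_ne_zero _).2 hc) hf
  have hdiv : Df = divOf (K := L) a - divOf (K := L) b := by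
    rw [eq_divOf hDf, ← habc, divOf_mul hcf hb0, divOf_algebraMap_mul hc, add_sub_cancel_right]
  rw [hdiv, map_sub, esDefectD_divOf D φ ψ hφ hψ g h δ ℓ hfin hN (hS a haS) (hcong a haS),
    esDefectD_divOf D φ ψ hφ hψ g h δ ℓ hfin hN (hS b hbS) (hcong b hbS), sub_zero]

end Defect

end Fermat.Agent.S48lib.X1.ES
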