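/-
S48lib / X1 / ES / Support  (lead)

**(C2.2), generic form**: support control for the Eichler–Shimura defect with diamonds `esDefectD`,
for an ARBITRARY reduction datum `D : RedDatum A F Fk` with a function `y` ("`j`") whose degree is
preserved by reduction, a correspondence `(φ, ψ) : F ⇉ F'`, and semilinear automorphisms `g, h, δ`
of `Fk` fixing `ȳ`, with `baseAut h = (baseAut g)²`, `baseAut δ = 1`.  The only arithmetic input is the
Kronecker condition `hK` at the places of `F'`:
  `ȳ(r W|_ψ) = Fr ȳ(r W|_φ)  ∨  Fr ȳ(r W|_ψ) = ȳ(r W|_φ)`,   `Fr := baseAut g`.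
Conclusion (`esDefectD_eq_zero`): if the defect vanishes on principal divisors it vanishes, hence
(`es_pic0`) the Eichler–Shimura relation `g • sp (T w) = h • sp w + ℓ • δ • sp w` on `Pic⁰`.
Port of `S37lib/ES/{SupportMod,Socket,Pic0}` (helper6) to the generic setting.
-/
import Mathlib
import Fermat.Agent.S37lib.ES.SupportMod
import Fermat.Agent.S48lib.X1.ES.Principal
import Fermat.Agent.S48lib.X1.ES.Spec

set_option autoImplicit false
set_option linter.unusedSectionVars false
set_option linter.style.haveILetI false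

noncomputable section

namespace Fermat.Agent.S48lib.X1.ES

open AlgebraicCurve Fermat.Agent.S18lib Fermat.Agent.S37lib Fermat.Agent.S37lib.ES

variable {L : Type*} [Field L] {A : ValuationSubring L}
variable {F : Type*} [Field F] [Algebra L F]
variable {Fk : Type*} [Field Fk] [Algebra (IsLocalRing.ResidueField A) Fk]
variable (D : RedDatum A F Fk)
variable [HasPrincipalDivisors L F] [HasPrincipalDivisors (IsLocalRing.ResidueField A) Fk]

local notation "k" => IsLocalRing.ResidueField A

/-! ### values of `ȳ` at reduced places -/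

section Values

variable {y : F}

/-- the value of `ȳ` at `r P` is the reduction of an integral value of `y` at `P`. -/
theorem valAt_r_of_mem (hdegpos : ∀ Q : Place k Fk, 0 < Q.deg) (hyO : y ∈ D.O)
    (hnc : ∀ c : k, D.redF y ≠ algebraMap k Fk c)
    (hdeg : Divisor.degree (polesOf (K := L) y) = Divisor.degree (polesOf (K := k) (D.redF y)))
    (a : A) {P : Place L F} (hP : 0 < P.ord (y - algebraMap L F (a : L))) :
    valAt (D.redF y) (D.r P) = some (IsLocalRing.residue A a) := by
  rw [valAt_eq_some_iff]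
  exact RedDatum.ord_r_pos_of_ord_pos D hdegpos hyO hnc hdeg a hP

/-- a non-integral value of `y` at `P` reduces to a pole of `ȳ`. -/
theorem valAt_r_of_not_mem (hdegpos : ∀ Q : Place k Fk, 0 < Q.deg) (hyO : y ∈ D.O)
    (hnc : ∀ c : k, D.redF y ≠ algebraMap k Fk c)
    (hdeg : Divisor.degree (polesOf (K := L) y) = Divisor.degree (polesOf (K := k) (D.redF y)))
    {a : L} (ha : a ∉ A) {P : Place L F} (hP : 0 < P.ord (y - algebraMap L F a)) :
    valAt (D.redF y) (D.r P) = none := by
  apply valAt_eq_none_of_ord_neg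
  exact ord_r_neg_of_not_mem' D hdegpos hyO
    (fun h0 => hnc 0 (by rw [h0, map_zero])) hdeg ha hP

/-- a pole of `y` reduces to a pole of `ȳ`. -/
theorem valAt_r_of_ord_neg (hdegpos : ∀ Q : Place k Fk, 0 < Q.deg)
    (hnc : ∀ c : k, D.redF y ≠ algebraMap k Fk c)
    (hdeg : Divisor.degree (polesOf (K := L) y) = Divisor.degree (polesOf (K := k) (D.redF y)))
    {P : Place L F} (hP : P.ord y < 0) :
    valAt (D.redF y) (D.r P) = none := by
  apply valAt_eq_none_of_ord_neg
  exact RedDatum.ord_r_neg_of_ord_neg D hdegpos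
    (fun h0 => hnc 0 (by rw [h0, map_zero])) hdeg hP

end Values

/-! ### the support of the defect -/

section Support

variable {F' : Type*} [Field F'] [Algebra L F'] [HasPrincipalDivisors L F']
variable (φ ψ : F →ₐ[L] F') (hφ : φ.toRingHom.IsIntegral) (hψ : ψ.toRingHom.IsIntegral)
variable (g h δ : SemilinearAut (IsLocalRing.ResidueField A) Fk) (ℓ : ℕ)
variable (y : F)

/-- `c ↦ Fr c` on values, `Fr = baseAut g`. -/
abbrev frV (v : Option k) : Option k := v.map (SemilinearAut.baseAut g)

theorem frV_injective : Function.Injective (frV (A := A) g) :=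
  Option.map_injective (SemilinearAut.baseAut g).injective

/-- the Kronecker condition at the places of `F'`. -/
def KroneckerAt : Prop :=
  ∀ W : Place L F',
    valAt (D.redF y) (D.r (W.restrictAlong ψ hψ)) =
        frV g (valAt (D.redF y) (D.r (W.restrictAlong φ hφ))) ∨
      frV g (valAt (D.redF y) (D.r (W.restrictAlong ψ hψ))) =
        valAt (D.redF y) (D.r (W.restrictAlong φ hφ))

variable {y}
variable (hgy : g • D.redF y = D.redF y) (hhy : h • D.redF y = D.redF y)
  (hδy : δ • D.redF y = D.redF y)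
  (hh : SemilinearAut.baseAut h = SemilinearAut.baseAut g * SemilinearAut.baseAut g)
  (hδ1 : SemilinearAut.baseAut δ = 1)
  (hK : KroneckerAt D φ ψ hφ hψ g y)

include hgy hhy hδy hh hδ1 hK in
/-- the `ȳ`-values on the support of the defect of a single place `P`: `c` or `Fr² c`,
`c = ȳ (r P)`. -/
theorem valAt_of_mem_support_esDefectD {P : Place L F} {Q : Place k Fk}
    (hQ : Q ∈ (esDefectD D φ ψ hφ hψ g h δ ℓ (Finsupp.single P 1)).support) :
    valAt (D.redF y) Q = valAt (D.redF y) (D.r P) ∨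
      valAt (D.redF y) Q = frV g (frV g (valAt (D.redF y) (D.r P))) := by
  have h3 := mem_support_esDefectD_single D φ ψ hφ hψ g h δ ℓ (P := P) (Q := Q) hQ
  rcases h3 with rfl | rfl | ⟨W, hWP, rfl⟩
  · left
    rw [valAt_smul δ hδy, hδ1]
    cases valAt (D.redF y) (D.r P) <;> rfl
  · right
    rw [valAt_smul h hhy, hh]
    cases valAt (D.redF y) (D.r P) <;> rfl
  · rw [valAt_smul g hgy]
    have hk := hK W
    rw [hWP] at hk
    rcases hk with hk | hk
    · right
      show frV g (valAt (D.redF y) (D.r _)) = _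
      rw [hk]
    · left
      exact hk

/-! ### the bad sets -/

theorem finite_badSet (hnc : ∀ c : k, D.redF y ≠ algebraMap k Fk c)
    (hdeg1 : ∀ Q : Place k Fk, Q.deg = 1) (Q : Place k Fk) :
    {Q' : Place k Fk | valAt (D.redF y) Q' = valAt (D.redF y) Q ∨
      valAt (D.redF y) Q' = frV g (frV g (valAt (D.redF y) Q)) ∨
      frV g (frV g (valAt (D.redF y) Q')) = valAt (D.redF y) Q}.Finite := by
  have hfib := fun v => finite_valAt_fibre (x := D.redF y) hnc hdeg1 v
  have h3 : {Q' : Place k Fk |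
      frV g (frV g (valAt (D.redF y) Q')) = valAt (D.redF y) Q}.Finite := by
    by_cases hne : ∃ Q₀ : Place k Fk, frV g (frV g (valAt (D.redF y) Q₀)) = valAt (D.redF y) Q
    · obtain ⟨Q₀, hQ₀⟩ := hne
      refine (hfib (valAt (D.redF y) Q₀)).subset ?_
      intro Q' hQ'
      exact frV_injective g (frV_injective g (hQ'.trans hQ₀.symm))
    · refine Set.Finite.subset (Set.finite_empty) ?_
      intro Q' hQ'
      exact (hne ⟨Q', hQ'⟩).elim
  exact ((hfib _).union ((hfib _).union h3)).subset (fun Q' hQ' => hQ')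

/-- the bad set of a place `Q` of `Fk`: the places whose `ȳ`-value is `c`, `Fr² c` or `Fr⁻² c`,
`c = ȳ (Q)`. -/
def badSet (hnc : ∀ c : k, D.redF y ≠ algebraMap k Fk c)
    (hdeg1 : ∀ Q : Place k Fk, Q.deg = 1) (Q : Place k Fk) : Finset (Place k Fk) :=
  (finite_badSet D g hnc hdeg1 Q).toFinset

theorem mem_badSet (hnc : ∀ c : k, D.redF y ≠ algebraMap k Fk c)
    (hdeg1 : ∀ Q : Place k Fk, Q.deg = 1) {Q Q' : Place k Fk} :
    Q' ∈ badSet D g hnc hdeg1 Q ↔ (valAt (D.redF y) Q' = valAt (D.redF y) Q ∨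
      valAt (D.redF y) Q' = frV g (frV g (valAt (D.redF y) Q)) ∨
      frV g (frV g (valAt (D.redF y) Q')) = valAt (D.redF y) Q) := by
  rw [badSet, Set.Finite.mem_toFinset]
  exact Iff.rfl

include hgy hhy hδy hh hδ1 hK in
theorem disjoint_support_esDefectD (hnc : ∀ c : k, D.redF y ≠ algebraMap k Fk c)
    (hdeg1 : ∀ Q : Place k Fk, Q.deg = 1) (P P' : Place L F)
    (hP' : D.r P' ∉ badSet D g hnc hdeg1 (D.r P)) :
    Disjoint (esDefectD D φ ψ hφ hψ g h δ ℓ (Finsupp.single P' 1)).support
      (esDefectD D φ ψ hφ hψ g h δ ℓ (Finsupp.single P 1)).support := by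
  rw [Finset.disjoint_left]
  intro Q hQ' hQ
  apply hP'
  rw [mem_badSet]
  have h1 := valAt_of_mem_support_esDefectD D φ ψ hφ hψ g h δ ℓ hgy hhy hδy hh hδ1 hK hQ
  have h2 := valAt_of_mem_support_esDefectD D φ ψ hφ hψ g h δ ℓ hgy hhy hδy hh hδ1 hK hQ'
  rcases h1 with h1 | h1 <;> rcases h2 with h2 | h2
  · left; exact h2.symm.trans h1
  · right; right; exact h2.symm.trans h1
  · right; left; exact h2.symm.trans h1
  · left
    exact frV_injective g (frV_injective g (h2.symm.trans h1))

theorem exists_not_mem_badSet {γ : ℕ} (hF : IsCurveOfGenus L F γ) [Infinite k]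
    (hyO : y ∈ D.O) (hncL : ∀ c : L, y ≠ algebraMap L F c)
    (hnc : ∀ c : k, D.redF y ≠ algebraMap k Fk c)
    (hdeg : Divisor.degree (polesOf (K := L) y) = Divisor.degree (polesOf (K := k) (D.redF y)))
    (hdeg1 : ∀ Q : Place k Fk, Q.deg = 1) (Q : Place k Fk) :
    ∃ P₀ : Place L F, D.r P₀ ∉ badSet D g hnc hdeg1 Q := by
  classical
  have hdegpos : ∀ Q : Place k Fk, 0 < Q.deg := fun Q => by rw [hdeg1 Q]; exact one_pos
  -- the finitely many forbidden values
  have hfin : {c : k | some c = valAt (D.redF y) Q ∨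
      some c = frV g (frV g (valAt (D.redF y) Q)) ∨
      frV g (frV g (some c)) = valAt (D.redF y) Q}.Finite := by
    have s1 : ∀ v : Option k, {c : k | some c = v}.Finite := by
      intro v
      refine Set.Subsingleton.finite ?_
      intro c hc c' hc'
      exact Option.some_injective _ (hc.trans hc'.symm)
    have s3 : {c : k | frV g (frV g (some c)) = valAt (D.redF y) Q}.Finite := by
      refine Set.Subsingleton.finite ?_
      intro c hc c' hc'
      exact Option.some_injective _
        (frV_injective g (frV_injective g (hc.trans hc'.symm)))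
    exact ((s1 _).union ((s1 _).union s3)).subset (fun c hc => hc)
  obtain ⟨c, hc⟩ := hfin.exists_notMem
  obtain ⟨a, rfl⟩ := IsLocalRing.residue_surjective c
  -- a zero of `y - a`
  have hnc' : ∀ c' : L, y - algebraMap L F (a : L) ≠ algebraMap L F c' := by
    intro c' h0
    refine hncL ((a : L) + c') ?_
    rw [map_add, ← h0]; ring
  have hpos := B3.degree_zerosOf_pos_of_nonconst hF hnc'
  have hne : zerosOf (K := L) (y - algebraMap L F (a : L)) ≠ 0 := by
    intro h0
    rw [h0, map_zero] at hpos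
    exact lt_irrefl _ hpos
  obtain ⟨P₀, hP₀⟩ := Finsupp.support_nonempty_iff.mpr hne
  have hP₀' : 0 < P₀.ord (y - algebraMap L F (a : L)) := by
    rw [Finsupp.mem_support_iff, zerosOf_apply] at hP₀
    by_contra hle
    push Not at hle
    exact hP₀ (max_eq_right hle)
  refine ⟨P₀, ?_⟩
  rw [mem_badSet, valAt_r_of_mem D hdegpos hyO hnc hdeg a hP₀']
  exact hc

include hgy hhy hδy hh hδ1 hK in
/-- **(C2.2)+(C2.3), generic form**: an Eichler–Shimura defect which vanishes on principal divisors
vanishes. -/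
theorem esDefectD_eq_zero (hOB : D.HasOrthonormalBases) {γ : ℕ}
    (hF : IsCurveOfGenus L F γ) (hFk : IsCurveOfGenus k Fk γ) [Infinite k]
    (hyO : y ∈ D.O) (hncL : ∀ c : L, y ≠ algebraMap L F c)
    (hnc : ∀ c : k, D.redF y ≠ algebraMap k Fk c)
    (hdeg : Divisor.degree (polesOf (K := L) y) = Divisor.degree (polesOf (K := k) (D.redF y)))
    (hprin : ∀ (f : F), f ≠ 0 → ∀ Df : Divisor L F, (∀ P, Df P = P.ord f) →
      esDefectD D φ ψ hφ hψ g h δ ℓ Df = 0) :
    esDefectD D φ ψ hφ hψ g h δ ℓ = 0 := by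
  have hdeg1 : ∀ Q : Place k Fk, Q.deg = 1 := hFk.deg_eq_one
  exact Glue.rigidity D hOB hF hFk (esDefectD D φ ψ hφ hψ g h δ ℓ) hprin
    (badSet D g hnc hdeg1) (fun Q => (mem_badSet D g hnc hdeg1).mpr (Or.inl rfl))
    (disjoint_support_esDefectD D φ ψ hφ hψ g h δ ℓ hgy hhy hδy hh hδ1 hK hnc hdeg1)
    (exists_not_mem_badSet D g hF hyO hncL hnc hdeg hdeg1)

end Support

/-! ### the relation on `Pic⁰` -/

section Pic

variable {F' : Type*} [Field F'] [Algebra L F'] [HasPrincipalDivisors L F']
variable (φ ψ : F →ₐ[L] F') (hφ : φ.toRingHom.IsIntegral) (hψ : ψ.toRingHom.IsIntegral)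
variable (g h δ : SemilinearAut (IsLocalRing.ResidueField A) Fk) (ℓ : ℕ)

/-- **Eichler–Shimura on `Pic⁰` from the vanishing of the defect on divisors.** -/
theorem es_pic0_of_esDefectD_eq_zero (hFI : FundamentalIdentityAlong L φ hφ)
    (hfin : FiniteAlong L ψ) (hN : NormFormulaAlong L ψ hfin)
    (hzero : esDefectD D φ ψ hφ hψ g h δ ℓ = 0) (w : Pic0 L F) :
    g • sp D (Pic0.correspondence φ ψ hφ hψ hFI hfin hN w) =
      h • sp D w + ℓ • δ • sp D w := by
  obtain ⟨E, rfl⟩ := Pic0.mk_surjective w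
  have hE := (esDefectD_eq_zero_iff D φ ψ hφ hψ g h δ ℓ (E : Divisor L F)).mp
    (by rw [hzero]; rfl)
  rw [Pic0.correspondence_mk, sp_mk, sp_mk, SemilinearAut.pic0_smul_mk,
    SemilinearAut.pic0_smul_mk, SemilinearAut.pic0_smul_mk]
  rw [show ∀ Z : Divisor.degZero (K := k) (F := Fk),
      ℓ • Pic0.mk Z = Pic0.mk (ℓ • Z) from fun Z => rfl, ← Pic0.mk_add]
  refine congrArg Pic0.mk (Subtype.ext ?_)
  exact hE

end Pic

end Fermat.Agent.S48lib.X1.ES
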